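import Mathlib

/-!
# W8 (S30), (LA) = `lin_adic`: the statement (helper6)

`StLinAdicO` is the FINAL interface of (LA) (it supersedes `Asm.StLinAdic`): the input is an
`O`-module `Y` with a `G`-action and a vector `x` which is not `O`-torsion, such that
`g + d(g) g⁻¹ = a(g)` on the translates of `x`.  Mathlib only.
-/

set_option autoImplicit false

open Polynomial

namespace Fermat.Agent.S30x.Lin.H6

/-- **(LA)** `lin_adic`, final interface. -/
def StLinAdicO : Prop :=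
  ∀ (G : Type) [Group G] (O : Type) [CommRing O] [IsDomain O] [IsDiscreteValuationRing O],
    (2 : O) ≠ 0 →
    ∀ (Y : Type) [AddCommGroup Y] [Module O Y] (ρ : G →* Module.End O Y) (x : Y),
    (∀ s : O, s • x = 0 → s = 0) →
    ∀ (d : G →* Oˣ) (a : G → O) (c : G), c * c = 1 → d c = -1 →
    (∀ g h : G, ρ g (ρ h x) + (d g : O) • ρ g⁻¹ (ρ h x) = a g • ρ h x) →
    ∀ (P : Set G → Prop),
    (∀ n : ℕ, ∃ U : Set G, P U ∧ ∀ σ ∈ U,
      ((d σ : O) - 1 ∈ IsLocalRing.maximalIdeal O ^ n) ∧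
      ∀ g : G, a (σ * g) - a g ∈ IsLocalRing.maximalIdeal O ^ n) →
    ∃ (V : Type) (_ : AddCommGroup V) (_ : Module O V) (_ : Module.Free O V)
      (_ : Module.Finite O V) (ρ' : G →* Module.End O V),
      Module.finrank O V = 2 ∧
      (∀ g : G, LinearMap.charpoly (ρ' g) = X ^ 2 - C (a g) * X + C (d g : O)) ∧
      (∀ g : G, (∀ h : G, ρ g (ρ h x) = ρ h x) → d g = 1 → ρ' g = 1) ∧
      (∀ n : ℕ, ∃ U : Set G, P U ∧ ∀ σ ∈ U, ∀ v : V,
        ρ' σ v - v ∈ (IsLocalRing.maximalIdeal O ^ n) • (⊤ : Submodule O V))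

end Fermat.Agent.S30x.Lin.H6
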