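import Mathlib
import Fermat.Agent.S42x.Lin.H25_Lin

/-!
# (LIN-E) (helper6): simple representations with a quadratic relation and an involution

Let `ρ : Γ → End_κ(W)` be a simple representation over ANY field `κ` with `2 ≠ 0` such that
`ρ g + d(g) ρ(g)⁻¹ = a(g)` for all `g`, and let `c ∈ Γ` with `c * c = 1`, `d(c) = -1`
("complex conjugation").  Then `W` is finite dimensional of dimension `1` or `2`:
the involution `ρ c` has its eigenvalues `±1` in `κ`, which replaces the hypothesis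
`IsAlgClosed κ` of `Fermat.Agent.S42x.Lin.H25.lin_finrank_le_two`.

* `h6_a_inv`        : `a c = 0`;
* `h6_top_le_span`  : `W` is spanned by two vectors;
* `h6_finite`, `h6_finrank_le_two`;
* `h6_scalar_of_finrank_one` : in dimension one `ρ g = ψ(g)` with `ψ + d ψ⁻¹ = a`;
* `h6_linE`         : the dichotomy.
-/

set_option autoImplicit false

open Polynomial Module

universe u

noncomputable section

namespace Fermat.Agent.S30x.Lin.H6

open Fermat.Agent.S42x.Lin.H25

section Inv

variable {Γ : Type*} [Group Γ] {κ : Type*} [Field κ] {W : Type*} [AddCommGroup W] [Module κ W]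
  {ρ : Γ →* Module.End κ W} {d : Γ →* κˣ} {a : Γ → κ}

/-- The involution has trace zero: `a c = 0`. -/
theorem h6_a_inv [Nontrivial W]
    (h : ∀ g, ρ g + ((d g : κˣ) : κ) • ρ g⁻¹ = a g • (1 : Module.End κ W))
    (c : Γ) (hc : c * c = 1) (hdc : d c = -1) : a c = 0 := by
  have hci : c⁻¹ = c := inv_eq_of_mul_eq_one_right hc
  have e := h c
  rw [hci, hdc, Units.val_neg, Units.val_one, neg_smul, one_smul, add_neg_cancel] at e
  have h1 : (1 : Module.End κ W) ≠ 0 := one_ne_zero
  exact (smul_eq_zero.mp e.symm).resolve_right h1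

theorem h6_inv_mul_self (c : Γ) (hc : c * c = 1) (v : W) : ρ c (ρ c v) = v := by
  have : ρ c * ρ c = 1 := by rw [← map_mul, hc, map_one]
  have := congrArg (fun T : Module.End κ W => T v) this
  simpa using this

/-- The range of `ρ c + 1` is at most a line. -/
theorem h6_range_add_one [Nontrivial W]
    (h : ∀ g, ρ g + ((d g : κˣ) : κ) • ρ g⁻¹ = a g • (1 : Module.End κ W))
    (hs : LinSimple ρ) (c : Γ) (hc : c * c = 1) (hdc : d c = -1) :
    ∃ w : W, ∀ v : W, ρ c v + v ∈ Submodule.span κ {w} := by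
  by_cases hex : ∃ v₁ : W, ρ c v₁ + v₁ ≠ 0
  · obtain ⟨v₁, hv₁⟩ := hex
    refine ⟨ρ c v₁ + v₁, fun v => ?_⟩
    have hμ : ρ c (ρ c v₁ + v₁) = (1 : κ) • (ρ c v₁ + v₁) := by
      rw [map_add, h6_inv_mul_self c hc, one_smul, add_comm]
    have hr := lin_range_le h hs c 1 _ hv₁ hμ
    have hmem : (ρ c - (a c - 1) • (1 : Module.End κ W)) v ∈
        LinearMap.range (ρ c - (a c - 1) • (1 : Module.End κ W)) := ⟨v, rfl⟩
    have := hr hmem
    rw [h6_a_inv h c hc hdc] at this
    simpa [sub_eq_add_neg] using this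
  · push Not at hex
    exact ⟨0, fun v => by rw [hex v]; exact zero_mem _⟩

/-- The range of `ρ c - 1` is at most a line. -/
theorem h6_range_sub_one [Nontrivial W]
    (h : ∀ g, ρ g + ((d g : κˣ) : κ) • ρ g⁻¹ = a g • (1 : Module.End κ W))
    (hs : LinSimple ρ) (c : Γ) (hc : c * c = 1) (hdc : d c = -1) :
    ∃ w : W, ∀ v : W, ρ c v - v ∈ Submodule.span κ {w} := by
  by_cases hex : ∃ v₁ : W, ρ c v₁ - v₁ ≠ 0
  · obtain ⟨v₁, hv₁⟩ := hex
    refine ⟨ρ c v₁ - v₁, fun v => ?_⟩
    have hμ : ρ c (ρ c v₁ - v₁) = (-1 : κ) • (ρ c v₁ - v₁) := by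
      rw [map_sub, h6_inv_mul_self c hc, neg_smul, one_smul, neg_sub]
    have hr := lin_range_le h hs c (-1) _ hv₁ hμ
    have hmem : (ρ c - (a c - -1) • (1 : Module.End κ W)) v ∈
        LinearMap.range (ρ c - (a c - -1) • (1 : Module.End κ W)) := ⟨v, rfl⟩
    have := hr hmem
    rw [h6_a_inv h c hc hdc] at this
    simpa using this
  · push Not at hex
    exact ⟨0, fun v => by rw [hex v]; exact zero_mem _⟩

/-- **`W` is spanned by two vectors.** -/
theorem h6_top_le_span (h2 : (2 : κ) ≠ 0) [Nontrivial W]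
    (h : ∀ g, ρ g + ((d g : κˣ) : κ) • ρ g⁻¹ = a g • (1 : Module.End κ W))
    (hs : LinSimple ρ) (c : Γ) (hc : c * c = 1) (hdc : d c = -1) :
    ∃ w w' : W, (⊤ : Submodule κ W) ≤ Submodule.span κ {w, w'} := by
  obtain ⟨w, hw⟩ := h6_range_add_one h hs c hc hdc
  obtain ⟨w', hw'⟩ := h6_range_sub_one h hs c hc hdc
  refine ⟨w, w', fun v _ => ?_⟩
  have h1 : ρ c v + v ∈ Submodule.span κ {w, w'} :=
    Submodule.span_mono (by simp) (hw v)
  have h3 : ρ c v - v ∈ Submodule.span κ {w, w'} :=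
    Submodule.span_mono (by simp) (hw' v)
  have h4 : v = (2 : κ)⁻¹ • ((ρ c v + v) - (ρ c v - v)) := by
    have : (ρ c v + v) - (ρ c v - v) = (2 : κ) • v := by
      rw [two_smul]
      abel
    rw [this, smul_smul, inv_mul_cancel₀ h2, one_smul]
  rw [h4]
  exact Submodule.smul_mem _ _ (Submodule.sub_mem _ h1 h3)

theorem h6_finite (h2 : (2 : κ) ≠ 0) [Nontrivial W]
    (h : ∀ g, ρ g + ((d g : κˣ) : κ) • ρ g⁻¹ = a g • (1 : Module.End κ W))
    (hs : LinSimple ρ) (c : Γ) (hc : c * c = 1) (hdc : d c = -1) : Module.Finite κ W := by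
  classical
  obtain ⟨w, w', hww⟩ := h6_top_le_span h2 h hs c hc hdc
  refine Module.finite_def.mpr ⟨{w, w'}, ?_⟩
  rw [eq_top_iff]
  simpa using hww

theorem h6_finrank_le_two (h2 : (2 : κ) ≠ 0) [Nontrivial W]
    (h : ∀ g, ρ g + ((d g : κˣ) : κ) • ρ g⁻¹ = a g • (1 : Module.End κ W))
    (hs : LinSimple ρ) (c : Γ) (hc : c * c = 1) (hdc : d c = -1) : Module.finrank κ W ≤ 2 := by
  classical
  obtain ⟨w, w', hww⟩ := h6_top_le_span h2 h hs c hc hdc
  haveI := h6_finite h2 h hs c hc hdc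
  calc Module.finrank κ W = Module.finrank κ (⊤ : Submodule κ W) := (finrank_top κ W).symm
    _ ≤ Module.finrank κ (Submodule.span κ ({w, w'} : Set W)) := Submodule.finrank_mono hww
    _ ≤ ({w, w'} : Finset W).card := by
        have h1 := finrank_span_finset_le_card (R := κ) ({w, w'} : Finset W)
        have h3 : ((({w, w'} : Finset W) : Set W)) = {w, w'} := by
          rw [Finset.coe_insert, Finset.coe_singleton]
        rw [Set.finrank, h3] at h1
        exact h1
    _ ≤ 2 := Finset.card_le_two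

end Inv

end Fermat.Agent.S30x.Lin.H6
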