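import Mathlib
import Fermat.Agent.S30x.Lin.H6_LinE

/-!
# (LA), step 6 (helper6): the one-dimensional case

If the simple quotient is a line, `G` acts by a character `ψ` with `ψ + d ψ⁻¹ = a`; `ψ(g)` is a
root of the monic polynomial `X² - a(g) X + d(g)`, hence lies in `O` (integrally closed), and
`V := ψ ⊕ d ψ⁻¹` on `O²`.
-/

set_option autoImplicit false

open Polynomial Module

universe u

noncomputable section

namespace Fermat.Agent.S30x.Lin.H6

open Fermat.Agent.S42x.Lin.H25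

section Diag

variable {Γ : Type*} [Monoid Γ] {R : Type*} [CommRing R]

/-- The diagonal representation `ψ ⊕ χ` on `R²`. -/
def h6Diag (ψ χ : Γ →* R) : Γ →* Module.End R (Fin 2 → R) where
  toFun g := Matrix.toLin' (Matrix.diagonal ![ψ g, χ g])
  map_one' := by
    rw [map_one, map_one]
    have e : (![1, 1] : Fin 2 → R) = 1 := by
      ext i
      fin_cases i <;> rfl
    rw [e, show Matrix.diagonal (1 : Fin 2 → R) = 1 from Matrix.diagonal_one,
      Matrix.toLin'_one]
    rfl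
  map_mul' g k := by
    rw [map_mul, map_mul, Module.End.mul_eq_comp, ← Matrix.toLin'_mul,
      Matrix.diagonal_mul_diagonal]
    congr 2
    ext i
    fin_cases i <;> simp

theorem h6Diag_def (ψ χ : Γ →* R) (g : Γ) :
    h6Diag ψ χ g = Matrix.toLin' (Matrix.diagonal ![ψ g, χ g]) := rfl

theorem h6Diag_apply (ψ χ : Γ →* R) (g : Γ) (v : Fin 2 → R) (i : Fin 2) :
    h6Diag ψ χ g v i = ![ψ g, χ g] i * v i := by
  rw [h6Diag_def, Matrix.toLin'_apply, Matrix.mulVec_diagonal]

theorem h6Diag_charpoly [Nontrivial R] (ψ χ : Γ →* R) (g : Γ) :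
    (h6Diag ψ χ g).charpoly = X ^ 2 - C (ψ g + χ g) * X + C (ψ g * χ g) := by
  rw [h6Diag_def, Matrix.charpoly_toLin', Matrix.charpoly_fin_two, Matrix.trace_fin_two,
    Matrix.det_fin_two]
  simp

theorem h6Diag_eq_one (ψ χ : Γ →* R) (g : Γ) (hψ : ψ g = 1) (hχ : χ g = 1) :
    h6Diag ψ χ g = 1 := by
  rw [h6Diag_def, hψ, hχ]
  have e : (![1, 1] : Fin 2 → R) = 1 := by
    ext i
    fin_cases i <;> rfl
  rw [e, show Matrix.diagonal (1 : Fin 2 → R) = 1 from Matrix.diagonal_one,
    Matrix.toLin'_one]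
  rfl

theorem h6_mem_smul_top (I : Ideal R) (v : Fin 2 → R) (hv : ∀ i, v i ∈ I) :
    v ∈ I • (⊤ : Submodule R (Fin 2 → R)) := by
  have e : v = ∑ i, v i • (Pi.single i (1 : R) : Fin 2 → R) := by
    ext j
    simp [Finset.sum_apply, Pi.single_apply]
  rw [e]
  exact Submodule.sum_mem _ fun i _ => Submodule.smul_mem_smul (hv i) Submodule.mem_top

end Diag

section Dim1

variable {G : Type*} [Group G] {O : Type u} [CommRing O] [IsDomain O]
  [IsDiscreteValuationRing O]
  {E : Type u} [Field E] [Algebra O E] [IsFractionRing O E]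
  {W : Type u} [AddCommGroup W] [Module E W]

theorem h6_dim1 (ρ : G →* Module.End E W) (d : G →* Oˣ) (a : G → O)
    (hrel : ∀ g, ρ g + algebraMap O E (d g : O) • ρ g⁻¹
      = algebraMap O E (a g) • (1 : Module.End E W))
    (hW : Module.finrank E W = 1) (c : G) (hc : c * c = 1) (hdc : d c = -1) :
    ∃ (ρ' : G →* Module.End O (Fin 2 → O)),
      (∀ g : G, LinearMap.charpoly (ρ' g) = X ^ 2 - C (a g) * X + C (d g : O)) ∧
      (∀ g : G, ρ g = 1 → d g = 1 → ρ' g = 1) ∧
      ∀ (I : Ideal O) (σ : G), (∀ g, a (σ * g) - a g ∈ I) →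
        ∀ v : Fin 2 → O, (2 : O) • (ρ' σ v - v) ∈ I • (⊤ : Submodule O (Fin 2 → O)) := by
  classical
  have hinj : Function.Injective (algebraMap O E) := IsFractionRing.injective O E
  haveI : FiniteDimensional E W := Module.finite_of_finrank_pos (by omega)
  haveI : Nontrivial W := Module.nontrivial_of_finrank_pos (R := E) (by omega)
  have h1 : (1 : Module.End E W) ≠ 0 := one_ne_zero
  -- the character with values in `E`
  let ψE : G →* E := (LinearMap.det : Module.End E W →* E).comp ρ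
  have hψ : ∀ g, ρ g = ψE g • (1 : Module.End E W) := fun g => lin_eq_det_smul hW (ρ g)
  have hsum : ∀ g, ψE g + algebraMap O E (d g : O) * ψE g⁻¹ = algebraMap O E (a g) := by
    intro g
    have e := hrel g
    rw [hψ g, hψ g⁻¹, smul_smul, ← add_smul] at e
    exact smul_left_injective E h1 e
  have hprod : ∀ g, ψE g * ψE g⁻¹ = 1 := by
    intro g
    rw [← map_mul, mul_inv_cancel, map_one]
  have hint : ∀ g, ∃ y : O, algebraMap O E y = ψE g := by
    intro g
    apply IsIntegrallyClosed.isIntegral_iff.mp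
    refine ⟨X ^ 2 - C (a g) * X + C (d g : O),
      by monicity!, ?_⟩
    simp only [eval₂_add, eval₂_sub, eval₂_pow, eval₂_X, eval₂_mul, eval₂_C]
    have e1 := hsum g
    have e2 := hprod g
    linear_combination (ψE g) * e1 - (algebraMap O E (d g : O)) * e2
  choose ψv hψv using hint
  let ψ₀ : G →* O :=
    { toFun := ψv
      map_one' := hinj (by rw [hψv, map_one, map_one])
      map_mul' := fun g k => hinj (by rw [hψv, map_mul, map_mul, hψv, hψv]) }
  have hψ₀ : ∀ g, algebraMap O E (ψ₀ g) = ψE g := hψv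
  let dO : G →* O := (Units.coeHom O).comp d
  let ψi : G →* O :=
    { toFun := fun g => ψ₀ g⁻¹
      map_one' := by rw [inv_one, map_one]
      map_mul' := fun g k => by rw [mul_inv_rev, map_mul, mul_comm] }
  let χ₀ : G →* O := dO * ψi
  have hχ₀ : ∀ g, χ₀ g = (d g : O) * ψ₀ g⁻¹ := fun g => rfl
  have hsum₀ : ∀ g, ψ₀ g + χ₀ g = a g := by
    intro g
    apply hinj
    rw [map_add, hχ₀, map_mul, hψ₀, hψ₀, hsum]
  have hprod₀ : ∀ g, ψ₀ g * ψ₀ g⁻¹ = 1 := by
    intro g
    rw [← map_mul, mul_inv_cancel, map_one]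
  have hdet₀ : ∀ g, ψ₀ g * χ₀ g = (d g : O) := by
    intro g
    rw [hχ₀]
    linear_combination (d g : O) * hprod₀ g
  -- the involution
  have hci : c⁻¹ = c := inv_eq_of_mul_eq_one_right hc
  have hε : ψ₀ c * ψ₀ c = 1 := by rw [← map_mul, hc, map_one]
  have hdcO : (d c : O) = -1 := by rw [hdc]; simp
  have hgc : ∀ g, ψ₀ c * a (g * c) = ψ₀ g - χ₀ g := by
    intro g
    have e1 : a (g * c) = ψ₀ g * ψ₀ c + (d g : O) * (-1) * (ψ₀ c * ψ₀ g⁻¹) := by
      rw [← hsum₀ (g * c), hχ₀, map_mul ψ₀ g c, mul_inv_rev, hci, map_mul ψ₀ c g⁻¹,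
        map_mul d g c, Units.val_mul, hdcO]
    rw [e1, hχ₀]
    linear_combination (ψ₀ g - (d g : O) * ψ₀ g⁻¹) * hε
  have htwoψ : ∀ g, 2 * ψ₀ g = a g + ψ₀ c * a (g * c) := by
    intro g
    rw [hgc, ← hsum₀ g]
    ring
  have htwoχ : ∀ g, 2 * χ₀ g = a g - ψ₀ c * a (g * c) := by
    intro g
    rw [hgc, ← hsum₀ g]
    ring
  refine ⟨h6Diag ψ₀ χ₀, ?_, ?_, ?_⟩
  · intro g
    rw [h6Diag_charpoly, hsum₀, hdet₀]
  · intro g hg hd
    have e1 : ψ₀ g = 1 := by
      apply hinj
      rw [hψ₀, map_one]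
      have := hψ g
      rw [hg] at this
      have h3 : (1 : E) • (1 : Module.End E W) = ψE g • (1 : Module.End E W) := by
        rw [one_smul]
        exact this
      exact (smul_left_injective E h1 h3).symm
    have e2 : ψ₀ g⁻¹ = 1 := by
      have := hprod₀ g
      rwa [e1, one_mul] at this
    refine h6Diag_eq_one ψ₀ χ₀ g e1 ?_
    rw [hχ₀, e2, hd]
    simp
  · intro I σ hσ v
    have s1 : a σ - a 1 ∈ I := by
      have := hσ 1
      rwa [mul_one] at this
    have sc : a (σ * c) - a c ∈ I := hσ c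
    have k1 : 2 * (ψ₀ σ - 1) ∈ I := by
      have e : 2 * (ψ₀ σ - 1) = (a σ - a 1) + ψ₀ c * (a (σ * c) - a c) := by
        have e1 := htwoψ σ
        have e2 := htwoψ 1
        rw [map_one, one_mul] at e2
        linear_combination e1 - e2
      rw [e]
      exact I.add_mem s1 (Ideal.mul_mem_left _ _ sc)
    have k2 : 2 * (χ₀ σ - 1) ∈ I := by
      have e : 2 * (χ₀ σ - 1) = (a σ - a 1) - ψ₀ c * (a (σ * c) - a c) := by
        have e1 := htwoχ σ
        have e2 := htwoχ 1
        rw [map_one, one_mul] at e2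
        linear_combination e1 - e2
      rw [e]
      exact I.sub_mem s1 (Ideal.mul_mem_left _ _ sc)
    refine h6_mem_smul_top I _ (fun i => ?_)
    rw [Pi.smul_apply, Pi.sub_apply, h6Diag_apply, smul_eq_mul]
    fin_cases i
    · have : (2 : O) * (![ψ₀ σ, χ₀ σ] 0 * v 0 - v 0) = (2 * (ψ₀ σ - 1)) * v 0 := by
        simp only [Matrix.cons_val_zero]
        ring
      show (2 : O) * (![ψ₀ σ, χ₀ σ] 0 * v 0 - v 0) ∈ I
      rw [this]
      exact Ideal.mul_mem_right _ _ k1
    · have : (2 : O) * (![ψ₀ σ, χ₀ σ] 1 * v 1 - v 1) = (2 * (χ₀ σ - 1)) * v 1 := by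
        simp only [Matrix.cons_val_one, Matrix.cons_val_zero]
        ring
      show (2 : O) * (![ψ₀ σ, χ₀ σ] 1 * v 1 - v 1) ∈ I
      rw [this]
      exact Ideal.mul_mem_right _ _ k2

end Dim1

end Fermat.Agent.S30x.Lin.H6
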