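import Mathlib
import Fermat.Agent.S30x.Lin.H6_LinE

/-!
# (LA), step 3 (helper6): the two-dimensional case over the field

For a simple 2-dimensional representation with `g + d(g) g⁻¹ = a(g)` and an involution `c`,
`d(c) = -1`: a basis of eigenvectors of `c` (`h6_eigen_basis`), `tr ρ(g) = a(g)`
(`h6_trace_eq`), and the representation is not triangular in this basis
(`h6_not_triangular`).
-/

set_option autoImplicit false

open Polynomial Module

universe u

noncomputable section

namespace Fermat.Agent.S30x.Lin.H6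

open Fermat.Agent.S42x.Lin.H25

variable {Γ : Type*} [Group Γ] {κ : Type u} [Field κ] {W : Type u} [AddCommGroup W] [Module κ W]
  {ρ : Γ →* Module.End κ W} {d : Γ →* κˣ} {a : Γ → κ}

theorem h6_exists_plus [Nontrivial W]
    (h : ∀ g, ρ g + ((d g : κˣ) : κ) • ρ g⁻¹ = a g • (1 : Module.End κ W))
    (hs : LinSimple ρ) (c : Γ) (hc : c * c = 1) (hdc : d c = -1) :
    ∃ u : W, ρ c u = u ∧ ∀ v : W, ρ c v + v ∈ Submodule.span κ {u} := by
  obtain ⟨w, hw⟩ := h6_range_add_one h hs c hc hdc
  by_cases hex : ∃ v₁ : W, ρ c v₁ + v₁ ≠ 0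
  · obtain ⟨v₁, hv₁⟩ := hex
    refine ⟨ρ c v₁ + v₁, by rw [map_add, h6_inv_mul_self c hc, add_comm], fun v => ?_⟩
    obtain ⟨t, ht⟩ := Submodule.mem_span_singleton.mp (hw v₁)
    obtain ⟨s, hs'⟩ := Submodule.mem_span_singleton.mp (hw v)
    have ht0 : t ≠ 0 := by
      rintro rfl
      rw [zero_smul] at ht
      exact hv₁ ht.symm
    rw [Submodule.mem_span_singleton]
    exact ⟨s * t⁻¹, by rw [← ht, smul_smul, mul_assoc, inv_mul_cancel₀ ht0, mul_one, hs']⟩
  · push Not at hex
    exact ⟨0, by rw [map_zero], fun v => by rw [hex v]; exact zero_mem _⟩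

theorem h6_exists_minus [Nontrivial W]
    (h : ∀ g, ρ g + ((d g : κˣ) : κ) • ρ g⁻¹ = a g • (1 : Module.End κ W))
    (hs : LinSimple ρ) (c : Γ) (hc : c * c = 1) (hdc : d c = -1) :
    ∃ u : W, ρ c u = -u ∧ ∀ v : W, ρ c v - v ∈ Submodule.span κ {u} := by
  obtain ⟨w, hw⟩ := h6_range_sub_one h hs c hc hdc
  by_cases hex : ∃ v₁ : W, ρ c v₁ - v₁ ≠ 0
  · obtain ⟨v₁, hv₁⟩ := hex
    refine ⟨ρ c v₁ - v₁, by rw [map_sub, h6_inv_mul_self c hc, neg_sub], fun v => ?_⟩
    obtain ⟨t, ht⟩ := Submodule.mem_span_singleton.mp (hw v₁)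
    obtain ⟨s, hs'⟩ := Submodule.mem_span_singleton.mp (hw v)
    have ht0 : t ≠ 0 := by
      rintro rfl
      rw [zero_smul] at ht
      exact hv₁ ht.symm
    rw [Submodule.mem_span_singleton]
    exact ⟨s * t⁻¹, by rw [← ht, smul_smul, mul_assoc, inv_mul_cancel₀ ht0, mul_one, hs']⟩
  · push Not at hex
    exact ⟨0, by rw [map_zero, neg_zero], fun v => by rw [hex v]; exact zero_mem _⟩

/-- **A basis of eigenvectors of the involution.** -/
theorem h6_eigen_basis (h2 : (2 : κ) ≠ 0)
    (h : ∀ g, ρ g + ((d g : κˣ) : κ) • ρ g⁻¹ = a g • (1 : Module.End κ W))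
    (hs : LinSimple ρ) (c : Γ) (hc : c * c = 1) (hdc : d c = -1)
    (hW : Module.finrank κ W = 2) :
    ∃ b : Basis (Fin 2) κ W, ρ c (b 0) = b 0 ∧ ρ c (b 1) = -b 1 := by
  haveI : Nontrivial W := Module.nontrivial_of_finrank_pos (R := κ) (by omega)
  obtain ⟨u, hu, hu'⟩ := h6_exists_plus h hs c hc hdc
  obtain ⟨u', hu₁, hu₁'⟩ := h6_exists_minus h hs c hc hdc
  have hspan : (⊤ : Submodule κ W) ≤ Submodule.span κ (Set.range ![u, u']) := by
    intro v _
    have e : Set.range ![u, u'] = {u, u'} := by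
      ext z
      simp only [Set.mem_range, Set.mem_insert_iff, Set.mem_singleton_iff]
      constructor
      · rintro ⟨i, rfl⟩
        fin_cases i
        · left; rfl
        · right; rfl
      · rintro (rfl | rfl)
        · exact ⟨0, rfl⟩
        · exact ⟨1, rfl⟩
    rw [e]
    have h1 : ρ c v + v ∈ Submodule.span κ {u, u'} :=
      Submodule.span_mono (by simp) (hu' v)
    have h3 : ρ c v - v ∈ Submodule.span κ {u, u'} :=
      Submodule.span_mono (by simp) (hu₁' v)
    have h4 : v = (2 : κ)⁻¹ • ((ρ c v + v) - (ρ c v - v)) := by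
      have : (ρ c v + v) - (ρ c v - v) = (2 : κ) • v := by
        rw [two_smul]
        abel
      rw [this, smul_smul, inv_mul_cancel₀ h2, one_smul]
    rw [h4]
    exact Submodule.smul_mem _ _ (Submodule.sub_mem _ h1 h3)
  have hcard : Fintype.card (Fin 2) = Module.finrank κ W := by
    rw [hW, Fintype.card_fin]
  refine ⟨basisOfTopLeSpanOfCardEqFinrank ![u, u'] hspan hcard, ?_, ?_⟩
  · rw [coe_basisOfTopLeSpanOfCardEqFinrank]
    exact hu
  · rw [coe_basisOfTopLeSpanOfCardEqFinrank]
    exact hu₁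

/-- In dimension `2` the trace is `a`. -/
theorem h6_trace_eq [FiniteDimensional κ W]
    (h : ∀ g, ρ g + ((d g : κˣ) : κ) • ρ g⁻¹ = a g • (1 : Module.End κ W))
    (hs : LinSimple ρ) (hW : Module.finrank κ W = 2) (g : Γ) :
    LinearMap.trace κ W (ρ g) = a g := by
  have e1 := lin_charpoly_two hW (ρ g)
  have e2 := lin_charpoly_finrank_two h hs hW g
  have e3 := congrArg (fun q : κ[X] => q.coeff 1) (e1.symm.trans e2)
  simp only [coeff_add, coeff_sub, coeff_X_pow, coeff_C_mul, coeff_X_one, coeff_C] at e3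
  norm_num at e3
  exact e3

/-- A simple 2-dimensional representation is not triangular. -/
theorem h6_not_triangular (hs : LinSimple ρ) (b : Basis (Fin 2) κ W) :
    (∃ g₀, b.repr (ρ g₀ (b 1)) 0 ≠ 0) ∧ (∃ h₀, b.repr (ρ h₀ (b 0)) 1 ≠ 0) := by
  have hexp : ∀ v : W, v = b.repr v 0 • b 0 + b.repr v 1 • b 1 := by
    intro v
    conv_lhs => rw [← b.sum_repr v, Fin.sum_univ_two]
  have hne : (0 : Fin 2) ≠ 1 := by decide
  constructor
  · by_contra hcon
    push Not at hcon
    have hinv : ∀ g, ∀ x ∈ Submodule.span κ {b 1}, ρ g x ∈ Submodule.span κ {b 1} := by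
      intro g x hx
      obtain ⟨t, rfl⟩ := Submodule.mem_span_singleton.mp hx
      rw [map_smul]
      refine Submodule.smul_mem _ _ ?_
      rw [Submodule.mem_span_singleton]
      refine ⟨b.repr (ρ g (b 1)) 1, ?_⟩
      conv_rhs => rw [hexp (ρ g (b 1)), hcon g, zero_smul, zero_add]
    rcases hs _ hinv with h0 | h1
    · have : b 1 ∈ Submodule.span κ {b 1} := Submodule.mem_span_singleton_self _
      rw [h0, Submodule.mem_bot] at this
      exact b.ne_zero 1 this
    · have : b 0 ∈ Submodule.span κ {b 1} := by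
        rw [h1]
        exact Submodule.mem_top
      obtain ⟨t, ht⟩ := Submodule.mem_span_singleton.mp this
      have e := congrArg (fun v => b.repr v 0) ht
      simp only [map_smul, Basis.repr_self, Finsupp.smul_apply, Finsupp.single_apply,
        smul_eq_mul] at e
      simp at e
  · by_contra hcon
    push Not at hcon
    have hinv : ∀ g, ∀ x ∈ Submodule.span κ {b 0}, ρ g x ∈ Submodule.span κ {b 0} := by
      intro g x hx
      obtain ⟨t, rfl⟩ := Submodule.mem_span_singleton.mp hx
      rw [map_smul]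
      refine Submodule.smul_mem _ _ ?_
      rw [Submodule.mem_span_singleton]
      refine ⟨b.repr (ρ g (b 0)) 0, ?_⟩
      conv_rhs => rw [hexp (ρ g (b 0)), hcon g, zero_smul, add_zero]
    rcases hs _ hinv with h0 | h1
    · have : b 0 ∈ Submodule.span κ {b 0} := Submodule.mem_span_singleton_self _
      rw [h0, Submodule.mem_bot] at this
      exact b.ne_zero 0 this
    · have : b 1 ∈ Submodule.span κ {b 0} := by
        rw [h1]
        exact Submodule.mem_top
      obtain ⟨t, ht⟩ := Submodule.mem_span_singleton.mp this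
      have e := congrArg (fun v => b.repr v 1) ht
      simp only [map_smul, Basis.repr_self, Finsupp.smul_apply, Finsupp.single_apply,
        smul_eq_mul] at e
      simp at e

end Fermat.Agent.S30x.Lin.H6
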