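import Mathlib

/-!
# (LA), step 2 (helper6): bounded denominators of a 2-dimensional representation with integral
traces

`O` a domain with fraction field `E`, `2 ≠ 0`; `M : G →* M₂(E)` with `tr M(g) = a(g) ∈ O`,
`M(c) = diag(1, -1)`, and not triangular (`M(g₀)₀₁ ≠ 0`, `M(h₀)₁₀ ≠ 0`).  Then there is
`β₀ ≠ 0` in `O` with `β₀ M(g) ∈ M₂(O)` for all `g`, and `β₀ (M(σ) - 1) ∈ M₂(I)` for every
ideal `I` and every `σ` with `a(σ g) - a(g) ∈ I` for all `g`.
-/

set_option autoImplicit false

open Matrix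

namespace Fermat.Agent.S30x.Lin.H6

variable {G : Type*} [Group G] {O : Type*} [CommRing O] [IsDomain O]
  {E : Type*} [Field E] [Algebra O E] [IsFractionRing O E]

theorem h6_entries (h2 : (2 : O) ≠ 0) (M : G →* Matrix (Fin 2) (Fin 2) E) (a : G → O)
    (htr : ∀ g, (M g).trace = algebraMap O E (a g)) (c : G)
    (hc00 : M c 0 0 = 1) (hc01 : M c 0 1 = 0) (hc10 : M c 1 0 = 0) (hc11 : M c 1 1 = -1)
    (g₀ h₀ : G) (hg₀ : M g₀ 0 1 ≠ 0) (hh₀ : M h₀ 1 0 ≠ 0) :
    ∃ β₀ : O, β₀ ≠ 0 ∧
      (∀ g i j, ∃ t : O, algebraMap O E β₀ * M g i j = algebraMap O E t) ∧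
      (∀ (I : Ideal O) (σ : G), (∀ g, a (σ * g) - a g ∈ I) →
        ∀ i j, ∃ t ∈ I, algebraMap O E β₀ * (M σ i j - (1 : Matrix (Fin 2) (Fin 2) E) i j)
          = algebraMap O E t) := by
  have hinj : Function.Injective (algebraMap O E) := IsFractionRing.injective O E
  have hmul : ∀ g h i j, M (g * h) i j = M g i 0 * M h 0 j + M g i 1 * M h 1 j := by
    intro g h i j
    rw [map_mul, Matrix.mul_apply, Fin.sum_univ_two]
  have tr : ∀ g, M g 0 0 + M g 1 1 = algebraMap O E (a g) := by
    intro g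
    rw [← htr, Matrix.trace_fin_two]
  have trc : ∀ g, M g 0 0 - M g 1 1 = algebraMap O E (a (g * c)) := by
    intro g
    rw [← tr (g * c), hmul, hmul, hc00, hc10, hc01, hc11]
    ring
  have hM1 : ∀ i j, M 1 i j = (1 : Matrix (Fin 2) (Fin 2) E) i j := by
    intro i j
    rw [map_one]
  have ha1 : a 1 = 2 := by
    apply hinj
    rw [← tr 1, hM1, hM1, Matrix.one_apply_eq, Matrix.one_apply_eq, map_ofNat]
    norm_num
  have hac : a c = 0 := by
    apply hinj
    rw [← tr c, hc00, hc11, map_zero]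
    ring
  have hcl : ∀ g h, a (g * h) = a (h * g) := by
    intro g h
    apply hinj
    rw [← htr, ← htr, map_mul, map_mul, Matrix.trace_mul_comm]
  have d00 : ∀ g, 2 * M g 0 0 = algebraMap O E (a g + a (g * c)) := by
    intro g
    rw [map_add, ← tr g, ← trc g]
    ring
  have d11 : ∀ g, 2 * M g 1 1 = algebraMap O E (a g - a (g * c)) := by
    intro g
    rw [map_sub, ← tr g, ← trc g]
    ring
  have key : ∀ g h, 4 * (M g 0 1 * M h 1 0) = algebraMap O E
      (2 * (a (g * h) + a (g * h * c)) - (a g + a (g * c)) * (a h + a (h * c))) := by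
    intro g h
    have e1 := d00 (g * h)
    have e2 := d00 g
    have e3 := d00 h
    rw [hmul] at e1
    rw [map_sub, map_mul, map_mul, ← e1, ← e2, ← e3, map_ofNat]
    ring
  -- fractions
  obtain ⟨n, d, hd, hnd⟩ := IsFractionRing.div_surjective (A := O) (M h₀ 1 0)
  obtain ⟨n', d', hd', hnd'⟩ := IsFractionRing.div_surjective (A := O) (M g₀ 0 1)
  have hd0 : algebraMap O E d ≠ 0 := by
    intro h
    exact (nonZeroDivisors.ne_zero hd) (hinj (by rw [h, map_zero]))
  have hd0' : algebraMap O E d' ≠ 0 := by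
    intro h
    exact (nonZeroDivisors.ne_zero hd') (hinj (by rw [h, map_zero]))
  have hn0 : n ≠ 0 := by
    rintro rfl
    rw [map_zero, zero_div] at hnd
    exact hh₀ hnd.symm
  have hn0' : n' ≠ 0 := by
    rintro rfl
    rw [map_zero, zero_div] at hnd'
    exact hg₀ hnd'.symm
  have hΓ : algebraMap O E d * M h₀ 1 0 = algebraMap O E n := by
    rw [← hnd]
    field_simp
  have hB : algebraMap O E d' * M g₀ 0 1 = algebraMap O E n' := by
    rw [← hnd']
    field_simp
  -- the off-diagonal entries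
  have e01 : ∀ g, algebraMap O E (4 * n) * M g 0 1 = algebraMap O E
      ((2 * (a (g * h₀) + a (g * h₀ * c)) - (a g + a (g * c)) * (a h₀ + a (h₀ * c))) * d) := by
    intro g
    rw [map_mul (algebraMap O E) _ d, ← key g h₀, map_mul, ← hΓ, map_ofNat]
    ring
  have e10 : ∀ h, algebraMap O E (4 * n') * M h 1 0 = algebraMap O E
      ((2 * (a (g₀ * h) + a (g₀ * h * c)) - (a g₀ + a (g₀ * c)) * (a h + a (h * c))) * d') := by
    intro h
    rw [map_mul (algebraMap O E) _ d', ← key g₀ h, map_mul, ← hB, map_ofNat]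
    ring
  have h4 : (4 : O) ≠ 0 := by
    have : (4 : O) = 2 * 2 := by norm_num
    rw [this]
    exact mul_ne_zero h2 h2
  refine ⟨2 * (4 * n) * (4 * n'), mul_ne_zero (mul_ne_zero h2 (mul_ne_zero h4 hn0))
    (mul_ne_zero h4 hn0'), ?_, ?_⟩
  · have b00 : ∀ g, ∃ t : O, algebraMap O E (2 * (4 * n) * (4 * n')) * M g 0 0
        = algebraMap O E t := by
      intro g
      refine ⟨(a g + a (g * c)) * (4 * n) * (4 * n'), ?_⟩
      have := d00 g
      simp only [map_mul, map_add, map_sub, map_ofNat] at this ⊢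
      linear_combination ((4 * algebraMap O E n) * (4 * algebraMap O E n')) * this
    have b01 : ∀ g, ∃ t : O, algebraMap O E (2 * (4 * n) * (4 * n')) * M g 0 1
        = algebraMap O E t := by
      intro g
      refine ⟨2 * ((2 * (a (g * h₀) + a (g * h₀ * c)) - (a g + a (g * c)) *
        (a h₀ + a (h₀ * c))) * d) * (4 * n'), ?_⟩
      have := e01 g
      simp only [map_mul, map_add, map_sub, map_ofNat] at this ⊢
      linear_combination (2 * (4 * algebraMap O E n')) * this
    have b10 : ∀ g, ∃ t : O, algebraMap O E (2 * (4 * n) * (4 * n')) * M g 1 0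
        = algebraMap O E t := by
      intro g
      refine ⟨2 * (4 * n) * ((2 * (a (g₀ * g) + a (g₀ * g * c)) - (a g₀ + a (g₀ * c)) *
        (a g + a (g * c))) * d'), ?_⟩
      have := e10 g
      simp only [map_mul, map_add, map_sub, map_ofNat] at this ⊢
      linear_combination (2 * (4 * algebraMap O E n)) * this
    have b11 : ∀ g, ∃ t : O, algebraMap O E (2 * (4 * n) * (4 * n')) * M g 1 1
        = algebraMap O E t := by
      intro g
      refine ⟨(a g - a (g * c)) * (4 * n) * (4 * n'), ?_⟩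
      have := d11 g
      simp only [map_mul, map_add, map_sub, map_ofNat] at this ⊢
      linear_combination ((4 * algebraMap O E n) * (4 * algebraMap O E n')) * this
    intro g i j
    fin_cases i <;> fin_cases j
    · exact b00 g
    · exact b01 g
    · exact b10 g
    · exact b11 g
  · intro I σ hσ
    have s1 : a σ - a 1 ∈ I := by
      have := hσ 1
      rwa [mul_one] at this
    have sc : a (σ * c) - a c ∈ I := hσ c
    have sh : ∀ h, a (σ * h) - a h ∈ I := hσ
    have hne01 : (0 : Fin 2) ≠ 1 := by decide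
    have hne10 : (1 : Fin 2) ≠ 0 := by decide
    have c00 : ∃ t ∈ I, algebraMap O E (2 * (4 * n) * (4 * n')) *
        (M σ 0 0 - (1 : Matrix (Fin 2) (Fin 2) E) 0 0) = algebraMap O E t := by
      refine ⟨((a σ - a 1) + (a (σ * c) - a c)) * (4 * n) * (4 * n'),
        Ideal.mul_mem_right _ _ (Ideal.mul_mem_right _ _ (I.add_mem s1 sc)), ?_⟩
      have := d00 σ
      rw [ha1, hac, Matrix.one_apply_eq]
      simp only [map_mul, map_add, map_sub, map_ofNat, map_zero] at this ⊢
      linear_combination ((4 * algebraMap O E n) * (4 * algebraMap O E n')) * this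
    have c11 : ∃ t ∈ I, algebraMap O E (2 * (4 * n) * (4 * n')) *
        (M σ 1 1 - (1 : Matrix (Fin 2) (Fin 2) E) 1 1) = algebraMap O E t := by
      refine ⟨((a σ - a 1) - (a (σ * c) - a c)) * (4 * n) * (4 * n'),
        Ideal.mul_mem_right _ _ (Ideal.mul_mem_right _ _ (I.sub_mem s1 sc)), ?_⟩
      have := d11 σ
      rw [ha1, hac, Matrix.one_apply_eq]
      simp only [map_mul, map_add, map_sub, map_ofNat, map_zero] at this ⊢
      linear_combination ((4 * algebraMap O E n) * (4 * algebraMap O E n')) * this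
    have c01 : ∃ t ∈ I, algebraMap O E (2 * (4 * n) * (4 * n')) *
        (M σ 0 1 - (1 : Matrix (Fin 2) (Fin 2) E) 0 1) = algebraMap O E t := by
      refine ⟨2 * ((2 * ((a (σ * h₀) - a h₀) + (a (σ * (h₀ * c)) - a (h₀ * c)))
          - ((a σ - a 1) + (a (σ * c) - a c)) * (a h₀ + a (h₀ * c))) * d) * (4 * n'), ?_, ?_⟩
      · refine Ideal.mul_mem_right _ _ (Ideal.mul_mem_left _ _ (Ideal.mul_mem_right _ _ ?_))
        refine I.sub_mem (Ideal.mul_mem_left _ _ (I.add_mem (sh h₀) (sh (h₀ * c)))) ?_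
        exact Ideal.mul_mem_right _ _ (I.add_mem s1 sc)
      · have := e01 σ
        rw [mul_assoc σ h₀ c] at this
        rw [ha1, hac, Matrix.one_apply_ne hne01]
        simp only [map_mul, map_add, map_sub, map_ofNat, map_zero] at this ⊢
        linear_combination (2 * (4 * algebraMap O E n')) * this
    have c10 : ∃ t ∈ I, algebraMap O E (2 * (4 * n) * (4 * n')) *
        (M σ 1 0 - (1 : Matrix (Fin 2) (Fin 2) E) 1 0) = algebraMap O E t := by
      refine ⟨2 * (4 * n) * ((2 * ((a (σ * g₀) - a g₀) + (a (σ * (c * g₀)) - a (c * g₀)))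
          - (a g₀ + a (g₀ * c)) * ((a σ - a 1) + (a (σ * c) - a c))) * d'), ?_, ?_⟩
      · refine Ideal.mul_mem_left _ _ (Ideal.mul_mem_right _ _ ?_)
        refine I.sub_mem (Ideal.mul_mem_left _ _ (I.add_mem (sh g₀) (sh (c * g₀)))) ?_
        exact Ideal.mul_mem_left _ _ (I.add_mem s1 sc)
      · have := e10 σ
        have e1 : a (g₀ * σ) = a (σ * g₀) := hcl _ _
        have e2 : a (g₀ * σ * c) = a (σ * (c * g₀)) := by
          rw [mul_assoc, hcl g₀ (σ * c), mul_assoc]
        have e3 : a (c * g₀) = a (g₀ * c) := hcl _ _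
        rw [e1, e2] at this
        rw [e3, ha1, hac, Matrix.one_apply_ne hne10]
        simp only [map_mul, map_add, map_sub, map_ofNat, map_zero] at this ⊢
        linear_combination (2 * (4 * algebraMap O E n)) * this
    intro i j
    fin_cases i <;> fin_cases j
    · exact c00
    · exact c01
    · exact c10
    · exact c11

end Fermat.Agent.S30x.Lin.H6
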