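import Mathlib
import Fermat.Agent.S30x.Lin.H6_Dim2
import Fermat.Agent.S30x.Lin.H6_Entries

/-!
# (LA), step 4 (helper6): the stable lattice of a 2-dimensional representation

`O` a discrete valuation ring with fraction field `E`, `W` a 2-dimensional `E`-space with basis
`b`, `ρ : G →* End_E(W)`.  `h6L ρ b` is the `O`-span of the vectors `ρ g (b j)`.
If the matrix entries of `ρ` have bounded denominators, it is a `G`-stable lattice.
-/

set_option autoImplicit false

open Polynomial Module

noncomputable section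

namespace Fermat.Agent.S30x.Lin.H6

section Lat

variable {G : Type*} [Group G] {O : Type*} [CommRing O] [IsDomain O]
  {E : Type*} [Field E] [Algebra O E] [IsFractionRing O E]
  {W : Type*} [AddCommGroup W] [Module E W] [Module O W] [IsScalarTower O E W]
  (ρ : G →* Module.End E W) (b : Basis (Fin 2) E W)

/-- The `O`-span of the translates of the basis vectors. -/
def h6L : Submodule O W := Submodule.span O (Set.range fun p : G × Fin 2 => ρ p.1 (b p.2))

/-- The standard lattice. -/
def h6L0 : Submodule O W := Submodule.span O (Set.range b)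

theorem h6L0_le : h6L0 (O := O) b ≤ h6L ρ b := by
  refine Submodule.span_mono ?_
  rintro _ ⟨j, rfl⟩
  exact ⟨(1, j), by simp⟩

theorem h6L_inv (g : G) : ∀ v ∈ h6L (O := O) ρ b, ρ g v ∈ h6L (O := O) ρ b := by
  have hle : h6L (O := O) ρ b ≤ (h6L (O := O) ρ b).comap ((ρ g).restrictScalars O) := by
    rw [h6L, Submodule.span_le]
    rintro _ ⟨⟨k, j⟩, rfl⟩
    refine Submodule.subset_span ⟨(g * k, j), ?_⟩
    simp only [map_mul, Module.End.mul_apply, LinearMap.coe_restrictScalars]
  intro v hv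
  exact hle hv

theorem h6L_bdd (β₀ : O)
    (hb : ∀ g i j, ∃ t : O, algebraMap O E β₀ * b.repr (ρ g (b j)) i = algebraMap O E t) :
    ∀ v ∈ h6L (O := O) ρ b, β₀ • v ∈ h6L0 (O := O) b := by
  have hle : h6L (O := O) ρ b ≤ (h6L0 (O := O) b).comap (LinearMap.lsmul O W β₀) := by
    rw [h6L, Submodule.span_le]
    rintro _ ⟨⟨g, j⟩, rfl⟩
    choose t ht using fun i => hb g i j
    have e : β₀ • ρ g (b j) = ∑ i, t i • b i := by
      conv_lhs => rw [← b.sum_repr (ρ g (b j)), Finset.smul_sum]
      refine Finset.sum_congr rfl fun i _ => ?_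
      rw [← algebraMap_smul E β₀, smul_smul, ht i, algebraMap_smul]
    rw [SetLike.mem_coe, Submodule.mem_comap, LinearMap.lsmul_apply]
    show β₀ • ρ g (b j) ∈ h6L0 (O := O) b
    rw [e]
    exact Submodule.sum_mem _ fun i _ =>
      Submodule.smul_mem _ _ (Submodule.subset_span ⟨i, rfl⟩)
  intro v hv
  exact hle hv

theorem h6L_span : Submodule.span E (h6L (O := O) ρ b : Set W) = ⊤ := by
  rw [eq_top_iff, ← b.span_eq]
  refine Submodule.span_mono ?_
  rintro _ ⟨j, rfl⟩
  exact h6L0_le ρ b (Submodule.subset_span ⟨j, rfl⟩)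

theorem h6L_fg [IsNoetherianRing O] (β₀ : O) (hβ : β₀ ≠ 0)
    (hbdd : ∀ v ∈ h6L (O := O) ρ b, β₀ • v ∈ h6L0 (O := O) b) : (h6L (O := O) ρ b).FG := by
  have hL0 : (h6L0 (O := O) b).FG := Submodule.fg_span (Set.finite_range b)
  haveI : IsNoetherian O (h6L0 (O := O) b) := isNoetherian_of_fg_of_noetherian _ hL0
  let f : h6L (O := O) ρ b →ₗ[O] h6L0 (O := O) b :=
    LinearMap.codRestrict _ ((LinearMap.lsmul O W β₀).comp (h6L (O := O) ρ b).subtype)
      (fun v => hbdd v v.2)
  have hf : Function.Injective f := by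
    intro v w hvw
    have h1 : β₀ • (v : W) = β₀ • (w : W) := congrArg Subtype.val hvw
    have h3 : algebraMap O E β₀ ≠ 0 := by
      intro h
      exact hβ (IsFractionRing.injective O E (by rw [h, map_zero]))
    rw [← algebraMap_smul E β₀, ← algebraMap_smul E β₀ (w : W)] at h1
    exact Subtype.ext (smul_right_injective W h3 h1)
  haveI : Module.Finite O (h6L (O := O) ρ b) := Module.Finite.of_injective f hf
  exact Module.Finite.iff_fg.mp inferInstance

/-- The representation on a stable `O`-submodule. -/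
def h6Rep (L : Submodule O W) (hL : ∀ g, ∀ v ∈ L, ρ g v ∈ L) : G →* Module.End O L where
  toFun g := ((ρ g).restrictScalars O).restrict (hL g)
  map_one' := by
    refine LinearMap.ext fun x => Subtype.ext ?_
    simp
  map_mul' g k := by
    refine LinearMap.ext fun x => Subtype.ext ?_
    show ρ (g * k) (x : W) = ρ g (ρ k (x : W))
    rw [map_mul]
    rfl

theorem h6Rep_apply (L : Submodule O W) (hL : ∀ g, ∀ v ∈ L, ρ g v ∈ L) (g : G) (v : L) :
    ((h6Rep ρ L hL g v : L) : W) = ρ g (v : W) := rfl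

theorem h6Rep_eq_one (L : Submodule O W) (hL : ∀ g, ∀ v ∈ L, ρ g v ∈ L) (g : G)
    (h : ρ g = 1) : h6Rep ρ L hL g = 1 := by
  refine LinearMap.ext fun x => Subtype.ext ?_
  rw [h6Rep_apply, h]
  rfl

/-- The continuity estimate on the lattice. -/
theorem h6L_cont (β₀ : O) (I : Ideal O) (σ : G)
    (hconj : ∀ g i j, ∃ t ∈ I, algebraMap O E β₀ *
      (b.repr (ρ (g⁻¹ * σ * g) (b j)) i - (1 : Matrix (Fin 2) (Fin 2) E) i j)
        = algebraMap O E t) :
    ∀ v ∈ h6L (O := O) ρ b, β₀ • (ρ σ v - v) ∈ I • h6L (O := O) ρ b := by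
  -- the linear map `v ↦ β₀ • (ρ σ v - v)`
  let ψ : W →ₗ[O] W := (LinearMap.lsmul O W β₀).comp ((ρ σ).restrictScalars O - LinearMap.id)
  have hψ : ∀ v, ψ v = β₀ • (ρ σ v - v) := fun v => rfl
  have hle : h6L (O := O) ρ b ≤ (I • h6L (O := O) ρ b).comap ψ := by
    rw [h6L, Submodule.span_le]
    rintro _ ⟨⟨g, j⟩, rfl⟩
    rw [SetLike.mem_coe, Submodule.mem_comap, hψ]
    choose t htI ht using fun i => hconj g i j
    -- the conjugate
    have e1 : β₀ • (ρ (g⁻¹ * σ * g) (b j) - b j) = ∑ i, t i • b i := by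
      have e2 : ρ (g⁻¹ * σ * g) (b j) - b j
          = ∑ i, (b.repr (ρ (g⁻¹ * σ * g) (b j)) i - (1 : Matrix (Fin 2) (Fin 2) E) i j)
            • b i := by
        simp only [sub_smul, Finset.sum_sub_distrib]
        rw [b.sum_repr]
        congr 1
        rw [Finset.sum_eq_single j]
        · rw [Matrix.one_apply_eq, one_smul]
        · intro i _ hij
          rw [Matrix.one_apply_ne hij, zero_smul]
        · intro h
          exact absurd (Finset.mem_univ j) h
      rw [e2, Finset.smul_sum]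
      refine Finset.sum_congr rfl fun i _ => ?_
      rw [← algebraMap_smul E β₀, smul_smul, ht i, algebraMap_smul]
    have e3 : β₀ • (ρ (g⁻¹ * σ * g) (b j) - b j) ∈ I • h6L (O := O) ρ b := by
      rw [e1]
      exact Submodule.sum_mem _ fun i _ => Submodule.smul_mem_smul (htI i)
        (h6L0_le ρ b (Submodule.subset_span ⟨i, rfl⟩))
    -- apply `ρ g`
    have e4 : β₀ • (ρ σ (ρ g (b j)) - ρ g (b j))
        = ((ρ g).restrictScalars O) (β₀ • (ρ (g⁻¹ * σ * g) (b j) - b j)) := by
      have e6 : ρ g (ρ (g⁻¹ * σ * g) (b j)) = ρ σ (ρ g (b j)) := by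
        rw [← Module.End.mul_apply, ← map_mul, ← Module.End.mul_apply, ← map_mul]
        congr 2
        group
      rw [map_smul, LinearMap.coe_restrictScalars, map_sub, e6]
    have e5 : (I • h6L (O := O) ρ b).map ((ρ g).restrictScalars O) ≤ I • h6L (O := O) ρ b := by
      rw [Submodule.map_smul'']
      refine Submodule.smul_mono le_rfl ?_
      rintro _ ⟨v, hv, rfl⟩
      exact h6L_inv ρ b g v hv
    show β₀ • (ρ σ (ρ g (b j)) - ρ g (b j)) ∈ I • h6L (O := O) ρ b
    rw [e4]
    exact e5 (Submodule.mem_map_of_mem e3)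
  intro v hv
  exact hle hv

end Lat

end Fermat.Agent.S30x.Lin.H6
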