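import Mathlib
import Fermat.Agent.S30x.Lin.H6_Lattice

/-!
# (LA), step 5 (helper6): the two-dimensional case over the discrete valuation ring

`h6_dim2`: a simple 2-dimensional representation over `E = Frac O` with
`g + d(g) g⁻¹ = a(g)`, `a : G → O`, `d : G →* Oˣ`, and an involution `c` with `d(c) = -1`, has a
stable `O`-lattice: a free `O`-module of rank `2` with characteristic polynomials
`X² - a(g) X + d(g)`, and `β₀ (ρ'(σ) - 1) V ⊆ I V` whenever `a(σ g) - a(g) ∈ I` for all `g`.
-/

set_option autoImplicit false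

open Polynomial Module

universe u

noncomputable section

namespace Fermat.Agent.S30x.Lin.H6

open Fermat.Agent.S42x.Lin.H25

section Charpoly

variable {O : Type*} [CommRing O] [IsDomain O] [IsPrincipalIdealRing O]
  {E : Type*} [Field E] [Algebra O E] [IsFractionRing O E]
  {W : Type*} [AddCommGroup W] [Module E W] [Module O W] [IsScalarTower O E W]
  [FiniteDimensional E W]

theorem h6_charpoly_restrict (L : Submodule O W) [Submodule.IsLattice E L]
    (f : Module.End E W) (hf : ∀ v ∈ L, f v ∈ L) :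
    f.charpoly = (((f.restrictScalars O).restrict hf : Module.End O L)).charpoly.map
      (algebraMap O E) := by
  classical
  let b' := Module.Free.chooseBasis O L
  let bE := b'.extendOfIsLattice E
  have hrepr : ∀ (v : L) i, bE.repr (v : W) i = algebraMap O E (b'.repr v i) := by
    intro v i
    have hv : (v : W) = ∑ k, algebraMap O E (b'.repr v k) • bE k := by
      conv_lhs => rw [← b'.sum_repr v]
      rw [Submodule.coe_sum]
      refine Finset.sum_congr rfl fun k _ => ?_
      rw [Submodule.coe_smul, Basis.extendOfIsLattice_apply, algebraMap_smul]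
    rw [hv, map_sum, Finsupp.finset_sum_apply]
    simp only [map_smul, Basis.repr_self, Finsupp.smul_apply, Finsupp.single_apply,
      smul_eq_mul, mul_ite, mul_one, mul_zero]
    rw [Finset.sum_ite_eq' Finset.univ i]
    simp
  rw [← LinearMap.charpoly_toMatrix f bE,
    ← LinearMap.charpoly_toMatrix ((f.restrictScalars O).restrict hf) b', ← Matrix.charpoly_map]
  congr 1
  ext i j
  rw [LinearMap.toMatrix_apply, Matrix.map_apply, LinearMap.toMatrix_apply,
    Basis.extendOfIsLattice_apply, ← hrepr]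
  rfl

end Charpoly

section Dim2

variable {G : Type*} [Group G] {O : Type u} [CommRing O] [IsDomain O]
  [IsDiscreteValuationRing O]
  {E : Type u} [Field E] [Algebra O E] [IsFractionRing O E]
  {W : Type u} [AddCommGroup W] [Module E W]

/-- The character `d` with values in `Eˣ`. -/
def h6dE (d : G →* Oˣ) : G →* Eˣ := (Units.map (algebraMap O E).toMonoidHom).comp d

theorem h6dE_coe (d : G →* Oˣ) (g : G) :
    ((h6dE (E := E) d g : Eˣ) : E) = algebraMap O E (d g : O) := rfl

theorem h6_dim2 (h2 : (2 : O) ≠ 0) (ρ : G →* Module.End E W) (d : G →* Oˣ) (a : G → O)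
    (hrel : ∀ g, ρ g + algebraMap O E (d g : O) • ρ g⁻¹
      = algebraMap O E (a g) • (1 : Module.End E W))
    (hs : LinSimple ρ) (hW : Module.finrank E W = 2) (c : G) (hc : c * c = 1)
    (hdc : d c = -1) :
    ∃ (V : Type u) (_ : AddCommGroup V) (_ : Module O V) (_ : Module.Free O V)
      (_ : Module.Finite O V) (ρ' : G →* Module.End O V),
      Module.finrank O V = 2 ∧
      (∀ g : G, LinearMap.charpoly (ρ' g) = X ^ 2 - C (a g) * X + C (d g : O)) ∧
      (∀ g : G, ρ g = 1 → ρ' g = 1) ∧
      ∃ β₀ : O, β₀ ≠ 0 ∧ ∀ (I : Ideal O) (σ : G), (∀ g, a (σ * g) - a g ∈ I) →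
        ∀ v : V, β₀ • (ρ' σ v - v) ∈ I • (⊤ : Submodule O V) := by
  classical
  letI : Module O W := Module.compHom W (algebraMap O E)
  haveI : IsScalarTower O E W := IsScalarTower.of_algebraMap_smul fun r x => rfl
  have hinj : Function.Injective (algebraMap O E) := IsFractionRing.injective O E
  have h2E : (2 : E) ≠ 0 := by
    intro h
    apply h2
    apply hinj
    rw [map_ofNat, h, map_zero]
  haveI : FiniteDimensional E W := Module.finite_of_finrank_pos (by omega)
  have h : ∀ g, ρ g + ((h6dE (E := E) d g : Eˣ) : E) • ρ g⁻¹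
      = (fun g => algebraMap O E (a g)) g • (1 : Module.End E W) := hrel
  have hdcE : h6dE (E := E) d c = -1 := by
    apply Units.ext
    rw [h6dE_coe, hdc]
    simp
  obtain ⟨b, hb0, hb1⟩ := h6_eigen_basis h2E h hs c hc hdcE hW
  obtain ⟨⟨g₀, hg₀⟩, ⟨h₀, hh₀⟩⟩ := h6_not_triangular hs b
  -- the matrices
  let M : G →* Matrix (Fin 2) (Fin 2) E :=
    { toFun := fun g => LinearMap.toMatrix b b (ρ g)
      map_one' := by
        rw [map_one]
        exact LinearMap.toMatrix_one b
      map_mul' := fun g k => by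
        rw [map_mul]
        exact LinearMap.toMatrix_mul b (ρ g) (ρ k) }
  have hM : ∀ g i j, M g i j = b.repr (ρ g (b j)) i := fun g i j =>
    LinearMap.toMatrix_apply b b (ρ g) i j
  have htr : ∀ g, (M g).trace = algebraMap O E (a g) := by
    intro g
    have e1 := LinearMap.trace_eq_matrix_trace E b (ρ g)
    have e2 := h6_trace_eq h hs hW g
    rw [← e2, e1]
    rfl
  have hne01 : (0 : Fin 2) ≠ 1 := by decide
  have hc00 : M c 0 0 = 1 := by
    rw [hM, hb0, Basis.repr_self, Finsupp.single_eq_same]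
  have hc10 : M c 1 0 = 0 := by
    rw [hM, hb0, Basis.repr_self, Finsupp.single_eq_of_ne hne01.symm]
  have hc01 : M c 0 1 = 0 := by
    rw [hM, hb1, map_neg, Basis.repr_self, Finsupp.neg_apply, Finsupp.single_eq_of_ne hne01,
      neg_zero]
  have hc11 : M c 1 1 = -1 := by
    rw [hM, hb1, map_neg, Basis.repr_self, Finsupp.neg_apply, Finsupp.single_eq_same]
  obtain ⟨β₀, hβ, hbdd, hcont⟩ := h6_entries h2 M a htr c hc00 hc01 hc10 hc11 g₀ h₀
    (by rw [hM]; exact hg₀) (by rw [hM]; exact hh₀)
  have hcl : ∀ x y, a (x * y) = a (y * x) := by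
    intro x y
    apply hinj
    rw [← htr, ← htr, map_mul, map_mul, Matrix.trace_mul_comm]
  -- the lattice
  have hLinv : ∀ g, ∀ v ∈ h6L (O := O) ρ b, ρ g v ∈ h6L (O := O) ρ b := h6L_inv ρ b
  have hLbdd := h6L_bdd (O := O) ρ b β₀ (fun g i j => by rw [← hM]; exact hbdd g i j)
  haveI : Submodule.IsLattice E (h6L (O := O) ρ b) :=
    ⟨h6L_fg ρ b β₀ hβ hLbdd, h6L_span ρ b⟩
  have hrank : Module.finrank O (h6L (O := O) ρ b) = 2 := by
    rw [← hW]
    refine Module.finrank_eq_of_rank_eq ?_
    rw [Submodule.IsLattice.rank' E (h6L (O := O) ρ b), Module.finrank_eq_rank]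
  refine ⟨h6L (O := O) ρ b, inferInstance, inferInstance, inferInstance, inferInstance,
    h6Rep ρ (h6L (O := O) ρ b) hLinv, hrank, ?_, ?_, β₀, hβ, ?_⟩
  · intro g
    have e1 := h6_charpoly_restrict (E := E) (h6L (O := O) ρ b) (ρ g) (hLinv g)
    have e2 := lin_charpoly_finrank_two h hs hW g
    rw [e1, h6dE_coe] at e2
    have e3 : (X ^ 2 - C (algebraMap O E (a g)) * X + C (algebraMap O E (d g : O)) : E[X])
        = (X ^ 2 - C (a g) * X + C (d g : O) : O[X]).map (algebraMap O E) := by
      simp
    rw [e3] at e2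
    exact Polynomial.map_injective _ hinj e2
  · intro g hg
    exact h6Rep_eq_one ρ _ hLinv g hg
  · intro I σ hσ v
    rw [Submodule.mem_smul_top_iff]
    have hconj : ∀ g i j, ∃ t ∈ I, algebraMap O E β₀ *
        (b.repr (ρ (g⁻¹ * σ * g) (b j)) i - (1 : Matrix (Fin 2) (Fin 2) E) i j)
          = algebraMap O E t := by
      intro g i j
      rw [← hM]
      refine hcont I (g⁻¹ * σ * g) (fun k => ?_) i j
      have e1 : a (g⁻¹ * σ * g * k) = a (σ * (g * k * g⁻¹)) := by
        rw [mul_assoc g⁻¹ σ g, mul_assoc g⁻¹ (σ * g) k, hcl g⁻¹ (σ * g * k)]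
        congr 1
        group
      have e2 : a k = a (g * k * g⁻¹) := by
        rw [hcl (g * k) g⁻¹]
        congr 1
        group
      rw [e1, e2]
      exact hσ _
    exact h6L_cont ρ b β₀ I σ hconj v v.2

end Dim2

end Fermat.Agent.S30x.Lin.H6
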