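import Mathlib
import Fermat.Agent.S30x.Lin.H6_LinE

/-!
# (LA), step 1 (helper6): a simple quotient of a cyclic representation

`h6_exists_simple_quotient`: a representation `M` generated by one vector `x ≠ 0` has a simple
quotient in which `x` survives (Zorn's lemma; no finiteness).
`h6_linE_cyclic`: if moreover `g + d(g) g⁻¹ = a(g)` on `M` and there is an involution `c` with
`d(c) = -1`, the quotient has dimension `1` or `2`.
-/

set_option autoImplicit false

open Polynomial Module

universe u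

noncomputable section

namespace Fermat.Agent.S30x.Lin.H6

open Fermat.Agent.S42x.Lin.H25

section Quot

variable {Γ : Type*} [Group Γ] {κ : Type u} [Field κ] {M : Type u} [AddCommGroup M] [Module κ M]

/-- The invariant subspaces which do not contain `x`. -/
def h6Inv (ρ : Γ →* Module.End κ M) (x : M) : Set (Submodule κ M) :=
  {U | (∀ g, ∀ y ∈ U, ρ g y ∈ U) ∧ x ∉ U}

theorem h6_exists_maximal (ρ : Γ →* Module.End κ M) (x : M) (hx : x ≠ 0) :
    ∃ U, Maximal (· ∈ h6Inv ρ x) U := by
  apply zorn_le₀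
  intro c hc hchain
  rcases c.eq_empty_or_nonempty with h0 | hne
  · refine ⟨⊥, ⟨fun g y hy => ?_, fun h => hx ((Submodule.mem_bot κ).mp h)⟩, ?_⟩
    · rw [(Submodule.mem_bot κ).mp hy, map_zero]
      exact zero_mem _
    · intro z hz
      rw [h0] at hz
      exact absurd hz (Set.notMem_empty z)
  · have hdir : DirectedOn (· ≤ ·) c := hchain.directedOn
    refine ⟨sSup c, ⟨fun g y hy => ?_, fun h => ?_⟩, fun z hz => le_sSup hz⟩
    · rw [Submodule.mem_sSup_of_directed hne hdir] at hy ⊢
      obtain ⟨U, hU, hyU⟩ := hy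
      exact ⟨U, hU, (hc hU).1 g y hyU⟩
    · rw [Submodule.mem_sSup_of_directed hne hdir] at h
      obtain ⟨U, hU, hxU⟩ := h
      exact (hc hU).2 hxU

/-- The representation on the quotient by an invariant subspace. -/
def h6Quot (ρ : Γ →* Module.End κ M) (U : Submodule κ M)
    (hU : ∀ g, ∀ y ∈ U, ρ g y ∈ U) : Γ →* Module.End κ (M ⧸ U) where
  toFun g := U.mapQ U (ρ g) (fun y hy => hU g y hy)
  map_one' := by
    refine Submodule.linearMap_qext _ (LinearMap.ext fun y => ?_)
    simp
  map_mul' g k := by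
    refine Submodule.linearMap_qext _ (LinearMap.ext fun y => ?_)
    simp

theorem h6Quot_mk (ρ : Γ →* Module.End κ M) (U : Submodule κ M)
    (hU : ∀ g, ∀ y ∈ U, ρ g y ∈ U) (g : Γ) (y : M) :
    h6Quot ρ U hU g (U.mkQ y) = U.mkQ (ρ g y) := rfl

/-- **A simple quotient in which `x` survives.** -/
theorem h6_exists_simple_quotient (ρ : Γ →* Module.End κ M) (x : M) (hx : x ≠ 0)
    (hspan : Submodule.span κ (Set.range fun g => ρ g x) = ⊤) :
    ∃ (W : Type u) (_ : AddCommGroup W) (_ : Module κ W) (ρ' : Γ →* Module.End κ W)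
      (π : M →ₗ[κ] W), Function.Surjective π ∧ (∀ g m, π (ρ g m) = ρ' g (π m)) ∧ π x ≠ 0 ∧
        LinSimple ρ' := by
  obtain ⟨U, hU⟩ := h6_exists_maximal ρ x hx
  have hUinv : ∀ g, ∀ y ∈ U, ρ g y ∈ U := hU.prop.1
  have hxU : x ∉ U := hU.prop.2
  refine ⟨M ⧸ U, inferInstance, inferInstance, h6Quot ρ U hUinv, U.mkQ,
    Submodule.mkQ_surjective U, fun g m => (h6Quot_mk ρ U hUinv g m).symm, ?_, ?_⟩
  · intro h
    exact hxU ((Submodule.Quotient.mk_eq_zero U).mp h)
  · intro U' hU'
    have hinv₁ : ∀ g, ∀ y ∈ U'.comap U.mkQ, ρ g y ∈ U'.comap U.mkQ := by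
      intro g y hy
      rw [Submodule.mem_comap] at hy ⊢
      rw [← h6Quot_mk ρ U hUinv g y]
      exact hU' g _ hy
    by_cases hx₁ : x ∈ U'.comap U.mkQ
    · right
      have htop : (⊤ : Submodule κ M) ≤ U'.comap U.mkQ := by
        rw [← hspan, Submodule.span_le]
        rintro _ ⟨g, rfl⟩
        exact hinv₁ g x hx₁
      rw [eq_top_iff]
      intro w _
      obtain ⟨m, rfl⟩ := Submodule.mkQ_surjective U w
      exact htop (Submodule.mem_top : m ∈ ⊤)
    · left
      have hle : U ≤ U'.comap U.mkQ := by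
        intro y hy
        rw [Submodule.mem_comap]
        have : U.mkQ y = 0 := (Submodule.Quotient.mk_eq_zero U).mpr hy
        rw [this]
        exact zero_mem _
      have hge : U'.comap U.mkQ ≤ U := hU.le_of_ge ⟨hinv₁, hx₁⟩ hle
      rw [eq_bot_iff]
      intro w hw
      obtain ⟨m, rfl⟩ := Submodule.mkQ_surjective U w
      have : m ∈ U := hge hw
      rw [Submodule.mem_bot]
      exact (Submodule.Quotient.mk_eq_zero U).mpr this

end Quot

end Fermat.Agent.S30x.Lin.H6
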