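import Mathlib
import Fermat.Agent.S30x.Lin.H6_Defs
import Fermat.Agent.S30x.Lin.H6_Simple
import Fermat.Agent.S30x.Lin.H6_Dim1
import Fermat.Agent.S30x.Lin.H6_Dim2Adic

/-!
# (LA) = `lin_adic` (helper6): W8 (S30), Mathlib only

`lin_adic : StLinAdicO`.  From an `O`-module `Y` with a `G`-action, a vector `x` which is not
`O`-torsion and the relation `g + d(g) g⁻¹ = a(g)` on the translates of `x` (`a : G → O`,
`d : G →* Oˣ`, `O` a discrete valuation ring with `2 ≠ 0`), together with an involution `c`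
with `d(c) = -1`: a free `O`-module `V` of rank `2` with a `G`-action such that
`charpoly ρ'(g) = X² - a(g) X + d(g)` for ALL `g`, trivial on every `g` which fixes the
translates of `x` and has `d(g) = 1`, and adically continuous if `a` is.

Steps: base change to `E = Frac O` (`h6_linO`), restriction to the span of the orbit and a simple
quotient `W` by Zorn (`h6_exists_simple_quotient`), `dim W ≤ 2` by the involution
(`h6_finrank_le_two`), the lattice in dimension `2` (`h6_dim2`), the characters in dimension `1`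
(`h6_dim1`).
-/

set_option autoImplicit false

open Polynomial Module

universe u

noncomputable section

namespace Fermat.Agent.S30x.Lin.H6

open Fermat.Agent.S42x.Lin.H25

section FieldLevel

variable {G : Type*} [Group G] {O : Type u} [CommRing O] [IsDomain O]
  [IsDiscreteValuationRing O]
  {E : Type u} [Field E] [Algebra O E] [IsFractionRing O E]
  {M : Type u} [AddCommGroup M] [Module E M]

/-- **(LA) over the fraction field.** -/
theorem h6_linE (h2 : (2 : O) ≠ 0) (ρ : G →* Module.End E M) (x : M) (hx : x ≠ 0)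
    (d : G →* Oˣ) (a : G → O) (c : G) (hc : c * c = 1) (hdc : d c = -1)
    (hrel : ∀ g h : G, ρ g (ρ h x) + algebraMap O E (d g : O) • ρ g⁻¹ (ρ h x)
      = algebraMap O E (a g) • ρ h x) :
    ∃ (V : Type u) (_ : AddCommGroup V) (_ : Module O V) (_ : Module.Free O V)
      (_ : Module.Finite O V) (ρ' : G →* Module.End O V),
      Module.finrank O V = 2 ∧
      (∀ g : G, LinearMap.charpoly (ρ' g) = X ^ 2 - C (a g) * X + C (d g : O)) ∧
      (∀ g : G, (∀ h : G, ρ g (ρ h x) = ρ h x) → d g = 1 → ρ' g = 1) ∧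
      ∃ β₀ : O, β₀ ≠ 0 ∧ ∀ (I : Ideal O) (σ : G), (∀ g, a (σ * g) - a g ∈ I) →
        ∀ v : V, β₀ • (ρ' σ v - v) ∈ I • (⊤ : Submodule O V) := by
  classical
  have hinj : Function.Injective (algebraMap O E) := IsFractionRing.injective O E
  have h2E : (2 : E) ≠ 0 := by
    intro h
    apply h2
    apply hinj
    rw [map_ofNat, h, map_zero]
  -- the span of the orbit
  set W₀ : Submodule E M := Submodule.span E (Set.range fun h => ρ h x) with hW₀
  have hinv : ∀ g, ∀ y ∈ W₀, ρ g y ∈ W₀ := by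
    intro g y hy
    have hle : W₀ ≤ W₀.comap (ρ g) := by
      rw [hW₀, Submodule.span_le]
      rintro _ ⟨k, rfl⟩
      refine Submodule.subset_span ⟨g * k, ?_⟩
      simp only [map_mul, Module.End.mul_apply]
    exact hle hy
  have hxW : x ∈ W₀ := Submodule.subset_span ⟨1, by simp⟩
  have hrelW : ∀ g, ∀ y ∈ W₀, ρ g y + algebraMap O E (d g : O) • ρ g⁻¹ y
      = algebraMap O E (a g) • y := by
    intro g y hy
    have hle : W₀ ≤ LinearMap.ker (ρ g + algebraMap O E (d g : O) • ρ g⁻¹
        - algebraMap O E (a g) • (1 : Module.End E M)) := by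
      rw [hW₀, Submodule.span_le]
      rintro _ ⟨k, rfl⟩
      rw [SetLike.mem_coe, LinearMap.mem_ker, LinearMap.sub_apply, LinearMap.add_apply,
        LinearMap.smul_apply, LinearMap.smul_apply, Module.End.one_apply, hrel g k, sub_self]
    have := hle hy
    rw [LinearMap.mem_ker, LinearMap.sub_apply, LinearMap.add_apply,
      LinearMap.smul_apply, LinearMap.smul_apply, Module.End.one_apply] at this
    exact sub_eq_zero.mp this
  have hfixW : ∀ g, (∀ h : G, ρ g (ρ h x) = ρ h x) → ∀ y ∈ W₀, ρ g y = y := by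
    intro g hg y hy
    have hle : W₀ ≤ LinearMap.ker (ρ g - (1 : Module.End E M)) := by
      rw [hW₀, Submodule.span_le]
      rintro _ ⟨k, rfl⟩
      rw [SetLike.mem_coe, LinearMap.mem_ker, LinearMap.sub_apply, Module.End.one_apply, hg k,
        sub_self]
    have := hle hy
    rw [LinearMap.mem_ker, LinearMap.sub_apply, Module.End.one_apply] at this
    exact sub_eq_zero.mp this
  set ρ₀ : G →* Module.End E W₀ := linRestrict ρ W₀ hinv with hρ₀
  set x₀ : W₀ := ⟨x, hxW⟩ with hx₀
  have hx₀0 : x₀ ≠ 0 := fun h => hx (congrArg Subtype.val h)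
  have hspan₀ : Submodule.span E (Set.range fun g => ρ₀ g x₀) = ⊤ := by
    apply Submodule.map_injective_of_injective W₀.injective_subtype
    rw [Submodule.map_span, Submodule.map_subtype_top, ← Set.range_comp]
    rfl
  have hrel₀ : ∀ g, ρ₀ g + algebraMap O E (d g : O) • ρ₀ g⁻¹
      = algebraMap O E (a g) • (1 : Module.End E W₀) := by
    intro g
    refine LinearMap.ext fun y => Subtype.ext ?_
    exact hrelW g y y.2
  -- the simple quotient
  obtain ⟨W, iA, iM, ρW, π, hπ, hπρ, hπx, hs⟩ := h6_exists_simple_quotient ρ₀ x₀ hx₀0 hspan₀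
  have hrelW' : ∀ g, ρW g + algebraMap O E (d g : O) • ρW g⁻¹
      = algebraMap O E (a g) • (1 : Module.End E W) := by
    intro g
    refine LinearMap.ext fun w => ?_
    obtain ⟨y, rfl⟩ := hπ w
    have e := congrArg (fun T : Module.End E W₀ => π (T y)) (hrel₀ g)
    simp only [LinearMap.add_apply, LinearMap.smul_apply, Module.End.one_apply, map_add,
      map_smul, hπρ] at e
    simpa using e
  have hker : ∀ g, (∀ h : G, ρ g (ρ h x) = ρ h x) → ρW g = 1 := by
    intro g hg
    refine LinearMap.ext fun w => ?_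
    obtain ⟨y, rfl⟩ := hπ w
    rw [← hπρ, Module.End.one_apply]
    congr 1
    exact Subtype.ext (hfixW g hg y y.2)
  haveI : Nontrivial W := ⟨⟨π x₀, 0, hπx⟩⟩
  have hh : ∀ g, ρW g + ((h6dE (E := E) d g : Eˣ) : E) • ρW g⁻¹
      = (fun g => algebraMap O E (a g)) g • (1 : Module.End E W) := hrelW'
  have hdcE : h6dE (E := E) d c = -1 := by
    apply Units.ext
    rw [h6dE_coe, hdc]
    simp
  haveI : Module.Finite E W := h6_finite h2E hh hs c hc hdcE
  have hle2 : Module.finrank E W ≤ 2 := h6_finrank_le_two h2E hh hs c hc hdcE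
  have hpos : 0 < Module.finrank E W := Module.finrank_pos
  rcases (show Module.finrank E W = 1 ∨ Module.finrank E W = 2 by omega) with h1 | h2'
  · obtain ⟨ρ', hch, hk, hcont⟩ := h6_dim1 ρW d a hrelW' h1 c hc hdc
    exact ⟨Fin 2 → O, inferInstance, inferInstance, inferInstance, inferInstance, ρ',
      Module.finrank_fin_fun O, hch, fun g hg hd => hk g (hker g hg) hd, 2, h2, hcont⟩
  · obtain ⟨V, i1, i2, i3, i4, ρ', hrank, hch, hk, β₀, hβ, hcont⟩ :=
      h6_dim2 h2 ρW d a hrelW' hs h2' c hc hdc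
    exact ⟨V, i1, i2, i3, i4, ρ', hrank, hch, fun g hg _ => hk g (hker g hg), β₀, hβ, hcont⟩

end FieldLevel

section BaseChange

open TensorProduct

variable {G : Type*} [Group G] {O : Type*} [CommRing O] [IsDomain O]
  {E : Type*} [Field E] [Algebra O E] [IsFractionRing O E]
  {Y : Type*} [AddCommGroup Y] [Module O Y]

/-- The base change of a representation to the fraction field. -/
def h6BC (ρ : G →* Module.End O Y) : G →* Module.End E (E ⊗[O] Y) where
  toFun g := (ρ g).baseChange E
  map_one' := by rw [map_one, LinearMap.baseChange_one]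
  map_mul' g k := by rw [map_mul, LinearMap.baseChange_mul]

theorem h6BC_tmul (ρ : G →* Module.End O Y) (g : G) (y : Y) :
    h6BC (E := E) ρ g ((1 : E) ⊗ₜ[O] y) = (1 : E) ⊗ₜ[O] ρ g y :=
  LinearMap.baseChange_tmul _ _ _

theorem h6_smul_tmul (r : O) (y : Y) :
    algebraMap O E r • ((1 : E) ⊗ₜ[O] y) = (1 : E) ⊗ₜ[O] (r • y) := by
  rw [algebraMap_smul, TensorProduct.tmul_smul]

theorem h6_tmul_ne_zero (x : Y) (hx : ∀ s : O, s • x = 0 → s = 0) :
    (1 : E) ⊗ₜ[O] x ≠ 0 := by
  haveI : Module.Flat O E := IsLocalization.flat E (nonZeroDivisors O)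
  let f : O →ₗ[O] Y := LinearMap.toSpanSingleton O Y x
  have hf : Function.Injective f := by
    rw [← LinearMap.ker_eq_bot, LinearMap.ker_eq_bot']
    intro s hs
    exact hx s hs
  have hinj := Module.Flat.lTensor_preserves_injective_linearMap (M := E) f hf
  intro h
  have e1 : f.lTensor E ((1 : E) ⊗ₜ[O] (1 : O)) = 0 := by
    rw [LinearMap.lTensor_tmul]
    have : f 1 = x := one_smul O x
    rw [this, h]
  have e2 : (1 : E) ⊗ₜ[O] (1 : O) = 0 := hinj (by rw [e1, map_zero])
  have e3 := congrArg (TensorProduct.rid O E) e2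
  rw [TensorProduct.rid_tmul, map_zero, one_smul] at e3
  exact one_ne_zero e3

end BaseChange

section Final

variable {O : Type*} [CommRing O] [IsDomain O] [IsDiscreteValuationRing O]
  {V : Type*} [AddCommGroup V] [Module O V] [Module.Free O V]

/-- Dividing a congruence by a non-zero element costs a bounded power of the maximal ideal. -/
theorem h6_exists_shift (β₀ : O) (hβ : β₀ ≠ 0) :
    ∃ c₀ : ℕ, ∀ (n : ℕ) (u : V),
      β₀ • u ∈ (IsLocalRing.maximalIdeal O ^ (n + c₀)) • (⊤ : Submodule O V) →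
      u ∈ (IsLocalRing.maximalIdeal O ^ n) • (⊤ : Submodule O V) := by
  obtain ⟨ϖ, hϖ⟩ := IsDiscreteValuationRing.exists_irreducible O
  have hne : Ideal.span {β₀} ≠ ⊥ := by
    rw [Ne, Ideal.span_singleton_eq_bot]
    exact hβ
  obtain ⟨c₀, hc₀⟩ := IsDiscreteValuationRing.ideal_eq_span_pow_irreducible hne hϖ
  have hm : ∀ k, IsLocalRing.maximalIdeal O ^ k = Ideal.span {ϖ ^ k} := by
    intro k
    rw [hϖ.maximalIdeal_eq, Ideal.span_singleton_pow]
  refine ⟨c₀, fun n u hu => ?_⟩
  have e : IsLocalRing.maximalIdeal O ^ (n + c₀)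
      = Ideal.span {β₀} * IsLocalRing.maximalIdeal O ^ n := by
    rw [hc₀, hm, hm, Ideal.span_singleton_mul_span_singleton, pow_add, mul_comm]
  rw [e, Submodule.mul_smul, Submodule.ideal_span_singleton_smul] at hu
  obtain ⟨y, hy, hyu⟩ := (Submodule.mem_smul_pointwise_iff_exists _ _ _).mp hu
  have : y = u := smul_right_injective V hβ hyu
  rw [← this]
  exact hy

end Final

/-- **(LA)** `lin_adic`. -/
theorem lin_adic : StLinAdicO := by
  intro G _ O _ _ _ h2 Y _ _ ρ x hx d a c hc hdc hrel P hcont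
  have hrelE : ∀ g h : G, h6BC (E := FractionRing O) ρ g (h6BC (E := FractionRing O) ρ h
      ((1 : FractionRing O) ⊗ₜ[O] x)) + algebraMap O (FractionRing O) (d g : O) •
        h6BC (E := FractionRing O) ρ g⁻¹ (h6BC (E := FractionRing O) ρ h
          ((1 : FractionRing O) ⊗ₜ[O] x))
      = algebraMap O (FractionRing O) (a g) • h6BC (E := FractionRing O) ρ h
          ((1 : FractionRing O) ⊗ₜ[O] x) := by
    intro g h
    rw [h6BC_tmul, h6BC_tmul, h6BC_tmul, h6_smul_tmul, h6_smul_tmul, ← TensorProduct.tmul_add,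
      hrel g h]
  obtain ⟨V, i1, i2, i3, i4, ρ', hrank, hch, hk, β₀, hβ, hest⟩ :=
    h6_linE (E := FractionRing O) h2 (h6BC (E := FractionRing O) ρ)
      ((1 : FractionRing O) ⊗ₜ[O] x) (h6_tmul_ne_zero x hx) d a c hc hdc hrelE
  obtain ⟨c₀, hc₀⟩ := h6_exists_shift (V := V) β₀ hβ
  refine ⟨V, i1, i2, i3, i4, ρ', hrank, hch, ?_, ?_⟩
  · intro g hg hd
    refine hk g (fun h => ?_) hd
    rw [h6BC_tmul, h6BC_tmul, hg h]
  · intro n
    obtain ⟨U, hPU, hU⟩ := hcont (n + c₀)
    refine ⟨U, hPU, fun σ hσ v => ?_⟩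
    exact hc₀ n _ (hest _ σ (hU σ hσ).2 v)

end Fermat.Agent.S30x.Lin.H6
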