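import Mathlib

/-!
# W8 (F-SPAN): the image of a simple two-dimensional representation with a non-scalar involution
spans the endomorphism ring

`E` a field with `2 ≠ 0`, `W` an `E`-vector space of dimension `2`, `ρ : G →* End_E W` simple
(no proper nonzero stable subspace), `c ∈ G` with `c² = 1` and `ρ c ≠ ±1`.  Then the `E`-span of
`ρ(G)` is all of `End_E W`.  No algebraic closedness is needed: the idempotents
`e± = (1 ± ρ c)/2` lie in the span, simplicity gives `g, g'` with `e⁻ ρ(g) e⁺ ≠ 0`,
`e⁺ ρ(g') e⁻ ≠ 0`, and the four elements `e⁺, e⁻, e⁻ ρ(g) e⁺, e⁺ ρ(g') e⁻` are linearly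
independent. Mathlib only.
-/

set_option autoImplicit false
set_option linter.unusedSectionVars false
set_option linter.unusedVariables false
set_option linter.unusedSimpArgs false

noncomputable section

namespace Fermat.Agent.S30x.Lin.H10

variable {G : Type*} [Group G] {E : Type*} [Field E] {W : Type*} [AddCommGroup W] [Module E W]

/-- The span of the image of a monoid homomorphism is closed under right multiplication by the
image. -/
theorem h10_span_mul_rho (ρ : G →* Module.End E W) (x : Module.End E W)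
    (hx : x ∈ Submodule.span E (Set.range ρ)) (g : G) :
    x * ρ g ∈ Submodule.span E (Set.range ρ) := by
  induction hx using Submodule.span_induction with
  | mem y hy =>
    obtain ⟨h, rfl⟩ := hy
    exact Submodule.subset_span ⟨h * g, map_mul ρ h g⟩
  | zero => rw [zero_mul]; exact Submodule.zero_mem _
  | add a b _ _ ha hb => rw [add_mul]; exact Submodule.add_mem _ ha hb
  | smul s a _ ha => rw [smul_mul_assoc]; exact Submodule.smul_mem _ s ha

/-- The span of the image of a monoid homomorphism is closed under multiplication. -/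
theorem h10_span_mul_mem (ρ : G →* Module.End E W) (x y : Module.End E W)
    (hx : x ∈ Submodule.span E (Set.range ρ)) (hy : y ∈ Submodule.span E (Set.range ρ)) :
    x * y ∈ Submodule.span E (Set.range ρ) := by
  induction hy using Submodule.span_induction with
  | mem z hz =>
    obtain ⟨h, rfl⟩ := hz
    exact h10_span_mul_rho ρ x hx h
  | zero => rw [mul_zero]; exact Submodule.zero_mem _
  | add a b _ _ ha hb => rw [mul_add]; exact Submodule.add_mem _ ha hb
  | smul s a _ ha => rw [mul_smul_comm]; exact Submodule.smul_mem _ s ha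

/-- The idempotent `(1 + C)/2`. -/
def h10ePlus (C : Module.End E W) : Module.End E W := (2 : E)⁻¹ • (1 + C)

/-- The idempotent `(1 - C)/2`. -/
def h10eMinus (C : Module.End E W) : Module.End E W := (2 : E)⁻¹ • (1 - C)

section Idem

variable (h2 : (2 : E) ≠ 0) (C : Module.End E W) (hC : C * C = 1)
include h2 hC

theorem h10_ePlus_add_eMinus : h10ePlus C + h10eMinus C = 1 := by
  unfold h10ePlus h10eMinus
  rw [← smul_add]
  have : (1 + C) + (1 - C) = (2 : E) • (1 : Module.End E W) := by
    rw [two_smul]; abel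
  rw [this, smul_smul, inv_mul_cancel₀ h2, one_smul]

theorem h10_ePlus_mul_ePlus : h10ePlus C * h10ePlus C = h10ePlus C := by
  unfold h10ePlus
  rw [smul_mul_smul_comm]
  have : (1 + C) * (1 + C) = (2 : E) • (1 + C) := by
    rw [two_smul, mul_add, add_mul, add_mul, hC, one_mul, mul_one, one_mul]; abel
  rw [this, smul_smul, mul_assoc, inv_mul_cancel₀ h2, mul_one]

theorem h10_eMinus_mul_eMinus : h10eMinus C * h10eMinus C = h10eMinus C := by
  unfold h10eMinus
  rw [smul_mul_smul_comm]
  have : (1 - C) * (1 - C) = (2 : E) • (1 - C) := by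
    rw [two_smul, mul_sub, sub_mul, sub_mul, hC, one_mul, mul_one, one_mul]; abel
  rw [this, smul_smul, mul_assoc, inv_mul_cancel₀ h2, mul_one]

theorem h10_ePlus_mul_eMinus : h10ePlus C * h10eMinus C = 0 := by
  unfold h10ePlus h10eMinus
  rw [smul_mul_smul_comm]
  have : (1 + C) * (1 - C) = 0 := by
    rw [mul_sub, add_mul, add_mul, hC, one_mul, mul_one, one_mul]; abel
  rw [this, smul_zero]

theorem h10_eMinus_mul_ePlus : h10eMinus C * h10ePlus C = 0 := by
  unfold h10ePlus h10eMinus
  rw [smul_mul_smul_comm]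
  have : (1 - C) * (1 + C) = 0 := by
    rw [mul_add, sub_mul, sub_mul, hC, one_mul, mul_one, one_mul]; abel
  rw [this, smul_zero]

theorem h10_ePlus_ne_zero (hne : C ≠ -1) : h10ePlus C ≠ 0 := by
  intro h
  unfold h10ePlus at h
  rcases smul_eq_zero.1 h with h' | h'
  · exact h2 (inv_eq_zero.1 h')
  · exact hne (eq_neg_of_add_eq_zero_right h')

theorem h10_eMinus_ne_zero (hne : C ≠ 1) : h10eMinus C ≠ 0 := by
  intro h
  unfold h10eMinus at h
  rcases smul_eq_zero.1 h with h' | h'
  · exact h2 (inv_eq_zero.1 h')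
  · exact hne (sub_eq_zero.1 h').symm

end Idem

/-- If no `e⁻ ρ(g) e⁺` is nonzero, the range of `e⁺` is stable. -/
theorem h10_range_stable (ρ : G →* Module.End E W) (e e' : Module.End E W) (hsum : e + e' = 1)
    (hzero : ∀ g, e' * ρ g * e = 0) (g : G) (y : W) (hy : y ∈ LinearMap.range e) :
    ρ g y ∈ LinearMap.range e := by
  obtain ⟨z, rfl⟩ := hy
  refine ⟨ρ g (e z), ?_⟩
  have h1 : (e + e') (ρ g (e z)) = ρ g (e z) := by rw [hsum]; rfl
  have h2 : e' (ρ g (e z)) = 0 := by
    have := congrArg (fun f : Module.End E W => f z) (hzero g)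
    simpa [Module.End.mul_apply] using this
  rw [LinearMap.add_apply, h2, add_zero] at h1
  exact h1

/-- Simplicity gives a nonzero off-diagonal element. -/
theorem h10_exists_offdiag (ρ : G →* Module.End E W)
    (hsimple : ∀ L : Submodule E W, (∀ g, ∀ y ∈ L, ρ g y ∈ L) → L = ⊥ ∨ L = ⊤)
    (e e' : Module.End E W) (hsum : e + e' = 1) (he : e ≠ 0) (he' : e' ≠ 0)
    (hee : e * e = e) (he'e : e' * e = 0) :
    ∃ g, e' * ρ g * e ≠ 0 := by
  by_contra hcon
  push Not at hcon
  rcases hsimple (LinearMap.range e) (fun g y hy => h10_range_stable ρ e e' hsum hcon g y hy)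
    with h | h
  · exact he (LinearMap.range_eq_bot.1 h)
  · -- `e` surjective and idempotent, hence `e = 1`, hence `e' = 0`
    apply he'
    refine LinearMap.ext fun y => ?_
    have hy : y ∈ LinearMap.range e := by rw [h]; exact Submodule.mem_top
    obtain ⟨z, rfl⟩ := hy
    have := congrArg (fun f : Module.End E W => f z) he'e
    simpa [Module.End.mul_apply] using this

/-- The four elements `e, e', e' a e, e b e'` are linearly independent. -/
theorem h10_linearIndependent_four (e e' a b : Module.End E W)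
    (hee : e * e = e) (he'e' : e' * e' = e') (hee' : e * e' = 0) (he'e : e' * e = 0)
    (he : e ≠ 0) (he' : e' ≠ 0) (ha : e' * a * e ≠ 0) (hb : e * b * e' ≠ 0) :
    LinearIndependent E ![e, e', e' * a * e, e * b * e'] := by
  rw [Fintype.linearIndependent_iff]
  intro s hs
  rw [Fin.sum_univ_four] at hs
  simp only [Matrix.cons_val_zero, Matrix.cons_val_one, Matrix.cons_val] at hs
  set A := e' * a * e with hA
  set B := e * b * e' with hB
  have hAe : A * e = A := by rw [hA, mul_assoc, hee]
  have he'A : e' * A = A := by rw [hA, ← mul_assoc, ← mul_assoc, he'e']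
  have heA : e * A = 0 := by rw [hA, ← mul_assoc, ← mul_assoc, hee', zero_mul, zero_mul]
  have hAe' : A * e' = 0 := by rw [hA, mul_assoc, hee', mul_zero]
  have hBe' : B * e' = B := by rw [hB, mul_assoc, he'e']
  have heB : e * B = B := by rw [hB, ← mul_assoc, ← mul_assoc, hee]
  have he'B : e' * B = 0 := by rw [hB, ← mul_assoc, ← mul_assoc, he'e, zero_mul, zero_mul]
  have hBe : B * e = 0 := by rw [hB, mul_assoc, he'e, mul_zero]
  have key : ∀ u v : Module.End E W,
      u * (s 0 • e + s 1 • e' + s 2 • A + s 3 • B) * v = 0 := by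
    intro u v
    rw [hs, mul_zero, zero_mul]
  have h0 : s 0 = 0 := by
    have := key e e
    simp only [mul_add, add_mul, mul_smul_comm, smul_mul_assoc, hee, hee', he'e, heA, hAe, heB,
      hBe, zero_mul, mul_zero, smul_zero, add_zero] at this
    exact (smul_eq_zero.1 this).resolve_right he
  have h1 : s 1 = 0 := by
    have := key e' e'
    simp only [mul_add, add_mul, mul_smul_comm, smul_mul_assoc, he'e', hee', he'e, he'A, hAe',
      he'B, hBe', zero_mul, mul_zero, smul_zero, add_zero, zero_add] at this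
    exact (smul_eq_zero.1 this).resolve_right he'
  have h2 : s 2 = 0 := by
    have := key e' e
    simp only [mul_add, add_mul, mul_smul_comm, smul_mul_assoc, hee, he'e', hee', he'e, he'A,
      hAe, he'B, hBe, zero_mul, mul_zero, smul_zero, add_zero, zero_add] at this
    exact (smul_eq_zero.1 this).resolve_right ha
  have h3 : s 3 = 0 := by
    have := key e e'
    simp only [mul_add, add_mul, mul_smul_comm, smul_mul_assoc, hee, he'e', hee', he'e, heA,
      hAe', heB, hBe', zero_mul, mul_zero, smul_zero, add_zero, zero_add] at this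
    exact (smul_eq_zero.1 this).resolve_right hb
  intro i
  fin_cases i
  · exact h0
  · exact h1
  · exact h2
  · exact h3

/-- **(F-SPAN)** the image of a simple two-dimensional representation containing an involution
`≠ ±1` spans the endomorphism ring. -/
theorem h10_span_eq_top {G : Type} [Group G] {E : Type} [Field E] (h2 : (2 : E) ≠ 0)
    {W : Type} [AddCommGroup W] [Module E W] (hW : Module.finrank E W = 2)
    (ρ : G →* Module.End E W)
    (hsimple : ∀ L : Submodule E W, (∀ g, ∀ y ∈ L, ρ g y ∈ L) → L = ⊥ ∨ L = ⊤)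
    (c : G) (hc : c * c = 1) (hC : ρ c ≠ 1 ∧ ρ c ≠ -1) :
    Submodule.span E (Set.range ρ) = ⊤ := by
  have hfin : Module.Finite E W := Module.finite_of_finrank_pos (by rw [hW]; norm_num)
  have hCC : ρ c * ρ c = 1 := by rw [← map_mul, hc, map_one]
  set e := h10ePlus (ρ c) with he_def
  set e' := h10eMinus (ρ c) with he'_def
  have hsum : e + e' = 1 := h10_ePlus_add_eMinus h2 (ρ c) hCC
  have hsum' : e' + e = 1 := by rw [add_comm]; exact hsum
  have hee : e * e = e := h10_ePlus_mul_ePlus h2 (ρ c) hCC
  have he'e' : e' * e' = e' := h10_eMinus_mul_eMinus h2 (ρ c) hCC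
  have hee' : e * e' = 0 := h10_ePlus_mul_eMinus h2 (ρ c) hCC
  have he'e : e' * e = 0 := h10_eMinus_mul_ePlus h2 (ρ c) hCC
  have he : e ≠ 0 := h10_ePlus_ne_zero h2 (ρ c) hCC hC.2
  have he' : e' ≠ 0 := h10_eMinus_ne_zero h2 (ρ c) hCC hC.1
  obtain ⟨g, hg⟩ := h10_exists_offdiag ρ hsimple e e' hsum he he' hee he'e
  obtain ⟨g', hg'⟩ := h10_exists_offdiag ρ hsimple e' e hsum' he' he he'e' hee'
  have hli := h10_linearIndependent_four e e' (ρ g) (ρ g') hee he'e' hee' he'e he he' hg hg'
  -- membership in the span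
  have h1mem : (1 : Module.End E W) ∈ Submodule.span E (Set.range ρ) :=
    Submodule.subset_span ⟨1, map_one ρ⟩
  have hCmem : ρ c ∈ Submodule.span E (Set.range ρ) := Submodule.subset_span ⟨c, rfl⟩
  have hemem : e ∈ Submodule.span E (Set.range ρ) :=
    Submodule.smul_mem _ _ (Submodule.add_mem _ h1mem hCmem)
  have he'mem : e' ∈ Submodule.span E (Set.range ρ) :=
    Submodule.smul_mem _ _ (Submodule.sub_mem _ h1mem hCmem)
  have hAmem : e' * ρ g * e ∈ Submodule.span E (Set.range ρ) :=
    h10_span_mul_mem ρ _ _ (h10_span_mul_rho ρ _ he'mem g) hemem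
  have hBmem : e * ρ g' * e' ∈ Submodule.span E (Set.range ρ) :=
    h10_span_mul_mem ρ _ _ (h10_span_mul_rho ρ _ hemem g') he'mem
  have hle : Submodule.span E (Set.range ![e, e', e' * ρ g * e, e * ρ g' * e']) ≤
      Submodule.span E (Set.range ρ) := by
    rw [Submodule.span_le]
    rintro _ ⟨i, rfl⟩
    fin_cases i
    · exact hemem
    · exact he'mem
    · exact hAmem
    · exact hBmem
  have hcard : Module.finrank E
      (Submodule.span E (Set.range ![e, e', e' * ρ g * e, e * ρ g' * e'])) = 4 := by
    rw [finrank_span_eq_card hli]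
    rfl
  have hEnd : Module.finrank E (Module.End E W) = 4 := by
    rw [Module.finrank_linearMap, hW]
  apply Submodule.eq_top_of_finrank_eq
  apply le_antisymm (Submodule.finrank_le _)
  rw [hEnd, ← hcard]
  exact Submodule.finrank_mono hle

/-- **(F-SPAN)**, with the hypothesis "`ρ c` is not a scalar". -/
theorem h10_span_eq_top' {G : Type} [Group G] {E : Type} [Field E] (h2 : (2 : E) ≠ 0)
    {W : Type} [AddCommGroup W] [Module E W] (hW : Module.finrank E W = 2)
    (ρ : G →* Module.End E W)
    (hsimple : ∀ L : Submodule E W, (∀ g, ∀ y ∈ L, ρ g y ∈ L) → L = ⊥ ∨ L = ⊤)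
    (c : G) (hc : c * c = 1) (hC : ∀ s : E, ρ c ≠ s • (1 : Module.End E W)) :
    Submodule.span E (Set.range ρ) = ⊤ :=
  h10_span_eq_top h2 hW ρ hsimple c hc
    ⟨fun h => hC 1 (by rw [h, one_smul]), fun h => hC (-1) (by rw [h, neg_smul, one_smul])⟩

end Fermat.Agent.S30x.Lin.H10
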