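import Mathlib

/-!
# W8 (S30), (F-LAT): lattice and adic continuity from the trace function (helper21)

Abstract, Mathlib only.  `O` is a discrete valuation ring with fraction field `E`, `W` is a
2-dimensional `E`-vector space with a representation `ρ : G →* End_E W` whose trace `a` and
determinant `d` take values in `O`.

* `h21_trace_nondeg` : the trace form of `End_E W` is nondegenerate.
* `h21_expand` : expansion `X = ∑ i, tr (X * B i) • β i` on a subspace on which the trace
  pairing with the finite family `B` is injective.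
* `h21_exists_smul_mem`, `h21_exists_smul_le`, `h21_exists_common_denominator` : denominators
  with respect to a spanning `O`-submodule.
* `h21_lattice_core`, `h21_lattice_gen` : if the trace form is nondegenerate on the span of
  `ρ(G)` and `w₀` is a cyclic vector, then `V = O[G] w₀` is a `G`-stable lattice, free of rank 2
  over `O`, on which `g` has characteristic polynomial `X ^ 2 - a g X + d g`, and the action on
  `V` is adically continuous as soon as the trace function `a` is.
* `h21_lattice` : the same when `ρ(G)` spans `End_E W`.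
-/

set_option autoImplicit false
set_option linter.style.haveILetI false
set_option linter.unusedSectionVars false

open Polynomial

namespace Fermat.Agent.S30x.Lin.H21

section TraceForm

variable {E : Type} [Field E] {W : Type} [AddCommGroup W] [Module E W]

/-- The trace form on `End W` is nondegenerate. -/
theorem h21_trace_nondeg [Module.Finite E W] (A : Module.End E W)
    (h : ∀ X : Module.End E W, LinearMap.trace E W (A * X) = 0) : A = 0 := by
  classical
  let b := Module.finBasis E W
  have hA : LinearMap.toMatrix b b A = 0 := by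
    rw [Matrix.ext_iff_trace_mul_right]
    intro x
    have := h (Matrix.toLin b b x)
    rw [LinearMap.trace_eq_matrix_trace E b, LinearMap.toMatrix_mul,
      LinearMap.toMatrix_toLin] at this
    rw [this, Matrix.zero_mul, Matrix.trace_zero]
  exact (LinearMap.toMatrix b b).injective (by rw [hA, map_zero])

/-- Expansion of the elements of a subspace `A` of `End W` along a finite family `B` for which
the trace pairing `X ↦ (tr (X * B i))_i` is injective on `A`. -/
theorem h21_expand {ι : Type} [Fintype ι] (B : ι → Module.End E W)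
    (A : Submodule E (Module.End E W))
    (hnd : ∀ X ∈ A, (∀ i, LinearMap.trace E W (X * B i) = 0) → X = 0) :
    ∃ β : ι → Module.End E W, ∀ X ∈ A, X = ∑ i, LinearMap.trace E W (X * B i) • β i := by
  classical
  let Φ₀ : Module.End E W →ₗ[E] (ι → E) :=
    LinearMap.pi fun i => (LinearMap.trace E W).comp (LinearMap.mulRight E (B i))
  let Φ : A →ₗ[E] (ι → E) := Φ₀.comp A.subtype
  have hΦ : LinearMap.ker Φ = ⊥ := by
    rw [LinearMap.ker_eq_bot']
    intro X hX
    have := hnd X X.2 (fun i => by simpa [Φ, Φ₀] using congrFun hX i)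
    exact Subtype.ext this
  obtain ⟨Ψ, hΨ⟩ := Φ.exists_leftInverse_of_injective hΦ
  refine ⟨fun i => (Ψ (Pi.single i 1) : Module.End E W), fun X hX => ?_⟩
  have h1 : Ψ (Φ ⟨X, hX⟩) = ⟨X, hX⟩ := LinearMap.congr_fun hΨ ⟨X, hX⟩
  have h2 : Φ ⟨X, hX⟩ = ∑ i, LinearMap.trace E W (X * B i) • (Pi.single i (1 : E) : ι → E) := by
    ext j
    simp [Φ, Φ₀, Finset.sum_apply, Pi.single_apply]
  rw [h2, map_sum] at h1
  simp only [map_smul] at h1
  have := congrArg (Subtype.val) h1
  simpa using this.symm

end TraceForm

section Denominators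

variable {O : Type} [CommRing O] [IsDomain O]
  {E : Type} [Field E] [Algebra O E] [IsFractionRing O E]
  {W : Type} [AddCommGroup W] [Module E W] [Module O W] [IsScalarTower O E W]

/-- Every vector of `W` has a nonzero multiple in a spanning `O`-submodule. -/
theorem h21_exists_smul_mem (V : Submodule O W)
    (hV : Submodule.span E (V : Set W) = ⊤) (w : W) : ∃ s : O, s ≠ 0 ∧ s • w ∈ V := by
  have hw : w ∈ Submodule.span E (V : Set W) := by rw [hV]; trivial
  induction hw using Submodule.span_induction with
  | mem x hx => exact ⟨1, one_ne_zero, by simpa using hx⟩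
  | zero => exact ⟨1, one_ne_zero, by simp⟩
  | add x y _ _ hx hy =>
    obtain ⟨s, hs, hsx⟩ := hx
    obtain ⟨t, ht, hty⟩ := hy
    refine ⟨s * t, mul_ne_zero hs ht, ?_⟩
    have : (s * t) • (x + y) = t • (s • x) + s • (t • y) := by
      rw [smul_add, mul_smul, mul_smul, smul_comm s t x]
    rw [this]
    exact V.add_mem (V.smul_mem _ hsx) (V.smul_mem _ hty)
  | smul e x _ hx =>
    obtain ⟨s, hs, hsx⟩ := hx
    obtain ⟨a, b, hb, rfl⟩ := IsFractionRing.div_surjective (A := O) e
    have hb0 : algebraMap O E b ≠ 0 := by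
      intro h
      exact nonZeroDivisors.ne_zero hb
        ((IsFractionRing.injective O E) (by rw [h, map_zero]))
    refine ⟨b * s, mul_ne_zero (nonZeroDivisors.ne_zero hb) hs, ?_⟩
    have : (b * s) • ((algebraMap O E a / algebraMap O E b) • x) = a • (s • x) := by
      rw [← algebraMap_smul E (b * s), ← algebraMap_smul E a, ← algebraMap_smul E s,
        smul_smul, smul_smul, map_mul]
      congr 1
      field_simp
    rw [this]
    exact V.smul_mem _ hsx

/-- A finitely generated `O`-submodule of `W` has a nonzero multiple inside a spanning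
`O`-submodule. -/
theorem h21_exists_smul_le (V : Submodule O W)
    (hV : Submodule.span E (V : Set W) = ⊤) (t : Finset W) :
    ∃ s : O, s ≠ 0 ∧ ∀ w ∈ Submodule.span O (t : Set W), s • w ∈ V := by
  classical
  choose f hf0 hf using h21_exists_smul_mem (E := E) V hV
  refine ⟨∏ x ∈ t, f x, Finset.prod_ne_zero_iff.2 fun x _ => hf0 x, ?_⟩
  have hle : Submodule.span O (t : Set W) ≤
      V.comap (LinearMap.lsmul O W (∏ x ∈ t, f x)) := by
    rw [Submodule.span_le]
    intro x hx
    obtain ⟨c, hc⟩ := Finset.dvd_prod_of_mem f (Finset.mem_coe.1 hx)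
    change (∏ x ∈ t, f x) • x ∈ V
    rw [hc, mul_comm, mul_smul]
    exact V.smul_mem _ (hf x)
  intro w hw
  exact hle hw

/-- Finitely many `E`-linear endomorphisms have a common denominator on a lattice. -/
theorem h21_exists_common_denominator {ι : Type} [Fintype ι] (V : Submodule O W)
    (hfg : V.FG) (hV : Submodule.span E (V : Set W) = ⊤) (β : ι → Module.End E W) :
    ∃ s : O, s ≠ 0 ∧ ∀ i, ∀ v ∈ V, s • β i v ∈ V := by
  classical
  obtain ⟨t, ht⟩ := hfg
  have h1 : ∀ i, ∃ s : O, s ≠ 0 ∧ ∀ v ∈ V, s • β i v ∈ V := by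
    intro i
    obtain ⟨s, hs0, hs⟩ := h21_exists_smul_le (E := E) V hV (t.image (β i))
    refine ⟨s, hs0, fun v hv => hs _ ?_⟩
    have hmap : Submodule.map ((β i).restrictScalars O) (Submodule.span O (t : Set W)) =
        Submodule.span O ((t.image (β i) : Finset W) : Set W) := by
      rw [Submodule.map_span, Finset.coe_image]
      rfl
    rw [← hmap, ht]
    exact ⟨v, hv, rfl⟩
  choose f hf0 hf using h1
  refine ⟨∏ i, f i, Finset.prod_ne_zero_iff.2 fun i _ => hf0 i, fun i v hv => ?_⟩
  obtain ⟨c, hc⟩ := Finset.dvd_prod_of_mem f (Finset.mem_univ i)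
  rw [hc, mul_comm, mul_smul]
  exact V.smul_mem _ (hf i v hv)

end Denominators

section Core

variable {G : Type} [Group G] {O : Type} [CommRing O] [IsDomain O] [IsDiscreteValuationRing O]
  {E : Type} [Field E] [Algebra O E] [IsFractionRing O E]
  {W : Type} [AddCommGroup W] [Module E W] [Module O W] [IsScalarTower O E W]

/-- Coordinates in a basis of a lattice and in its extension to the ambient space. -/
theorem h21_repr_extend (V : Submodule O W) [Submodule.IsLattice E V] {κ : Type} [Fintype κ]
    (b : Module.Basis κ O V) (v : V) (i : κ) :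
    (b.extendOfIsLattice E).repr (v : W) i = algebraMap O E (b.repr v i) := by
  have h : (v : W) = ∑ k, algebraMap O E (b.repr v k) • (b.extendOfIsLattice E) k := by
    conv_lhs => rw [← b.sum_repr v]
    rw [Submodule.coe_sum]
    refine Finset.sum_congr rfl fun k _ => ?_
    rw [Module.Basis.extendOfIsLattice_apply, algebraMap_smul, Submodule.coe_smul]
  rw [h, Module.Basis.repr_sum_self]

/-- **(F-LAT), core form** (the `O`-module structure of `W` is given). -/
theorem h21_lattice_core (hW : Module.finrank E W = 2) (ρ : G →* Module.End E W)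
    (a : G → O) (htr : ∀ g, LinearMap.trace E W (ρ g) = algebraMap O E (a g))
    (d : G →* Oˣ) (hdet : ∀ g, LinearMap.det (ρ g) = algebraMap O E (d g : O))
    (hnd : ∀ X ∈ Submodule.span E (Set.range ρ),
      (∀ g, LinearMap.trace E W (X * ρ g) = 0) → X = 0)
    (w₀ : W) (hcyc : Submodule.span E (Set.range fun g => ρ g w₀) = ⊤)
    (P : Set G → Prop)
    (hcont : ∀ n : ℕ, ∃ U : Set G, P U ∧ ∀ σ ∈ U, ∀ g : G,
      a (σ * g) - a g ∈ IsLocalRing.maximalIdeal O ^ n) :
    ∃ (V : Type) (_ : AddCommGroup V) (_ : Module O V) (_ : Module.Free O V)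
      (_ : Module.Finite O V) (ρ' : G →* Module.End O V),
      Module.finrank O V = 2 ∧
      (∀ g : G, LinearMap.charpoly (ρ' g) = X ^ 2 - C (a g) * X + C (d g : O)) ∧
      (∀ g : G, ρ g = 1 → ρ' g = 1) ∧
      (∀ n : ℕ, ∃ U : Set G, P U ∧ ∀ σ ∈ U, ∀ v : V,
        ρ' σ v - v ∈ (IsLocalRing.maximalIdeal O ^ n) • (⊤ : Submodule O V)) := by
  classical
  haveI : Module.Finite E W := Module.finite_of_finrank_pos (by omega)
  -- Step A: a finite spanning family of `A = span ρ(G)` inside `ρ(G)`
  have hAfg : (Submodule.span E (Set.range ρ)).FG := IsNoetherian.noetherian _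
  obtain ⟨t, htsub, hteq⟩ :=
    (Submodule.fg_span_iff_fg_span_finset_subset (Set.range ρ)).1 hAfg
  have hγ : ∀ i : t, ∃ g, ρ g = (i : Module.End E W) := fun i => htsub i.2
  choose γ hγ using hγ
  have hnd' : ∀ X ∈ Submodule.span E (Set.range ρ),
      (∀ i : t, LinearMap.trace E W (X * (i : Module.End E W)) = 0) → X = 0 := by
    intro X hX h0
    refine hnd X hX fun g => ?_
    have hg : ρ g ∈ Submodule.span E (t : Set (Module.End E W)) := by
      rw [← hteq]; exact Submodule.subset_span ⟨g, rfl⟩
    have hle : Submodule.span E (t : Set (Module.End E W)) ≤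
        LinearMap.ker ((LinearMap.trace E W).comp (LinearMap.mulLeft E X)) := by
      rw [Submodule.span_le]
      intro Y hY
      exact h0 ⟨Y, hY⟩
    exact hle hg
  obtain ⟨β, hβ⟩ := h21_expand (fun i : t => (i : Module.End E W)) _ hnd'
  have hρ : ∀ g, ρ g = ∑ i : t, algebraMap O E (a (g * γ i)) • β i := by
    intro g
    have h := hβ (ρ g) (Submodule.subset_span ⟨g, rfl⟩)
    have h2 : ∀ i : t, LinearMap.trace E W (ρ g * (i : Module.End E W)) =
        algebraMap O E (a (g * γ i)) := by
      intro i; rw [← hγ i, ← map_mul, htr]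
    calc ρ g = _ := h
      _ = _ := Finset.sum_congr rfl fun i _ => by rw [h2 i]
  have hdiff : ∀ σ, ρ σ - 1 = ∑ i : t, algebraMap O E (a (σ * γ i) - a (γ i)) • β i := by
    intro σ
    have h2 : (1 : Module.End E W) = ∑ i : t, algebraMap O E (a (γ i)) • β i := by
      have := hρ 1
      simpa only [map_one, one_mul] using this
    calc ρ σ - 1 = (∑ i : t, algebraMap O E (a (σ * γ i)) • β i) -
          ∑ i : t, algebraMap O E (a (γ i)) • β i := by rw [← hρ σ, ← h2]
      _ = _ := by
        rw [← Finset.sum_sub_distrib]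
        refine Finset.sum_congr rfl fun i _ => ?_
        rw [map_sub, sub_smul]
  -- Step B: the lattice
  let V : Submodule O W := Submodule.span O (Set.range fun g => ρ g w₀)
  have hstab : ∀ g, ∀ v ∈ V, ((ρ g).restrictScalars O) v ∈ V := by
    intro g v hv
    have hle : V ≤ V.comap ((ρ g).restrictScalars O) := by
      change Submodule.span O (Set.range fun g => ρ g w₀) ≤ _
      rw [Submodule.span_le]
      rintro _ ⟨h, rfl⟩
      change ρ g (ρ h w₀) ∈ V
      rw [← Module.End.mul_apply, ← map_mul]
      exact Submodule.subset_span ⟨g * h, rfl⟩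
    exact hle hv
  have hVfg : V.FG := by
    have hle : V ≤ Submodule.span O (Set.range fun i : t => β i w₀) := by
      change Submodule.span O (Set.range fun g => ρ g w₀) ≤ _
      rw [Submodule.span_le]
      rintro _ ⟨g, rfl⟩
      change ρ g w₀ ∈ _
      rw [hρ g, LinearMap.sum_apply]
      refine Submodule.sum_mem _ fun i _ => ?_
      rw [LinearMap.smul_apply, algebraMap_smul]
      exact Submodule.smul_mem _ _ (Submodule.subset_span ⟨i, rfl⟩)
    have hfg' : (Submodule.span O (Set.range fun i : t => β i w₀)).FG :=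
      Submodule.fg_span (Set.finite_range _)
    haveI : IsNoetherian O ↥(Submodule.span O (Set.range fun i : t => β i w₀)) :=
      isNoetherian_of_fg_of_noetherian _ hfg'
    haveI : IsNoetherian O ↥V := isNoetherian_of_le hle
    rw [← Module.Finite.iff_fg]
    infer_instance
  have hVspan : Submodule.span E (V : Set W) = ⊤ := by
    change Submodule.span E
      ((Submodule.span O (Set.range fun g => ρ g w₀) : Submodule O W) : Set W) = ⊤
    rw [Submodule.span_span_of_tower]
    exact hcyc
  haveI hlat : Submodule.IsLattice E V := ⟨hVfg, hVspan⟩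
  haveI hfree : Module.Free O V := inferInstance
  haveI hfin : Module.Finite O V := inferInstance
  have hrank : Module.finrank O V = 2 := by
    have := Submodule.IsLattice.rank' E V
    rw [← hW]
    unfold Module.finrank
    rw [this]
  let ρ' : G →* Module.End O V :=
    { toFun := fun g => ((ρ g).restrictScalars O).restrict (hstab g)
      map_one' := by
        ext v
        simp
      map_mul' := fun g h => by
        ext v
        simp [map_mul] }
  have hρ'coe : ∀ g (v : V), ((ρ' g v : V) : W) = ρ g (v : W) := fun g v => rfl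
  refine ⟨V, inferInstance, inferInstance, hfree, hfin, ρ', hrank, ?_, ?_, ?_⟩
  · intro g
    let b : Module.Basis (Fin 2) O V := Module.finBasisOfFinrankEq O V hrank
    have hM : (LinearMap.toMatrix b b (ρ' g)).map (algebraMap O E) =
        LinearMap.toMatrix (b.extendOfIsLattice E) (b.extendOfIsLattice E) (ρ g) := by
      ext i j
      rw [Matrix.map_apply, LinearMap.toMatrix_apply, LinearMap.toMatrix_apply,
        ← h21_repr_extend, hρ'coe, Module.Basis.extendOfIsLattice_apply]
    have hinj := IsFractionRing.injective O E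
    have htr' : (LinearMap.toMatrix b b (ρ' g)).trace = a g := by
      apply hinj
      rw [← htr g, LinearMap.trace_eq_matrix_trace E (b.extendOfIsLattice E), ← hM]
      simp [Matrix.trace_fin_two]
    have hdet' : (LinearMap.toMatrix b b (ρ' g)).det = (d g : O) := by
      apply hinj
      rw [← hdet g, ← LinearMap.det_toMatrix (b.extendOfIsLattice E), ← hM,
        Matrix.det_fin_two, Matrix.det_fin_two]
      simp only [Matrix.map_apply, map_sub, map_mul]
    rw [← LinearMap.charpoly_toMatrix (ρ' g) b, Matrix.charpoly_fin_two, htr', hdet']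
  · intro g hg
    ext v
    rw [hρ'coe, hg]
    rfl
  · obtain ⟨S, hS0, hS⟩ := h21_exists_common_denominator (E := E) V hVfg hVspan β
    obtain ⟨ϖ, hϖ⟩ := IsDiscreteValuationRing.exists_irreducible O
    have hSbot : Ideal.span {S} ≠ ⊥ := by
      rw [Ne, Ideal.span_singleton_eq_bot]; exact hS0
    obtain ⟨c, hc⟩ := IsDiscreteValuationRing.ideal_eq_span_pow_irreducible hSbot hϖ
    have hm : ∀ k, IsLocalRing.maximalIdeal O ^ k = Ideal.span {ϖ ^ k} := by
      intro k; rw [hϖ.maximalIdeal_eq, Ideal.span_singleton_pow]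
    intro n
    obtain ⟨U, hPU, hU⟩ := hcont (n + c)
    refine ⟨U, hPU, fun σ hσ v => ?_⟩
    have hx : ∀ i : t, ∃ y ∈ IsLocalRing.maximalIdeal O ^ n,
        y * S = a (σ * γ i) - a (γ i) := by
      intro i
      have h := hU σ hσ (γ i)
      rw [pow_add, hm c, ← hc] at h
      exact Ideal.mem_mul_span_singleton.1 h
    choose y hy hyS using hx
    have hkey : ρ' σ v - v = ∑ i : t, y i • (⟨S • β i (v : W), hS i v v.2⟩ : V) := by
      apply Subtype.ext
      rw [Submodule.coe_sub, hρ'coe, Submodule.coe_sum]
      have h1 : ρ σ (v : W) - (v : W) = (ρ σ - 1) (v : W) := by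
        rw [LinearMap.sub_apply]; rfl
      rw [h1, hdiff σ, LinearMap.sum_apply]
      refine Finset.sum_congr rfl fun i _ => ?_
      rw [LinearMap.smul_apply, algebraMap_smul, ← hyS i, mul_smul, Submodule.coe_smul]
    rw [hkey]
    exact Submodule.sum_mem _ fun i _ => Submodule.smul_mem_smul (hy i) Submodule.mem_top

end Core

section Final

variable {G : Type} [Group G] {O : Type} [CommRing O] [IsDomain O] [IsDiscreteValuationRing O]
  {E : Type} [Field E] [Algebra O E] [IsFractionRing O E]
  {W : Type} [AddCommGroup W] [Module E W]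

/-- A nonzero vector of `W` is cyclic for any family of endomorphisms spanning `End W`. -/
theorem h21_cyclic_of_span (ρ : G → Module.End E W)
    (hspan : Submodule.span E (Set.range ρ) = ⊤) (w₀ : W) (hw₀ : w₀ ≠ 0) :
    Submodule.span E (Set.range fun g => ρ g w₀) = ⊤ := by
  have hsurj : Function.Surjective (LinearMap.applyₗ (R := E) (M₂ := W) w₀) := by
    intro w
    obtain ⟨f, hf⟩ := (LinearMap.toSpanSingleton E W w₀).exists_leftInverse_of_injective
      (LinearMap.ker_toSpanSingleton E hw₀)
    have hf1 : f w₀ = 1 := by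
      have := LinearMap.congr_fun hf 1
      simpa using this
    refine ⟨f.smulRight w, ?_⟩
    simp [hf1]
  have himg : (Set.range fun g => ρ g w₀) =
      (LinearMap.applyₗ (R := E) (M₂ := W) w₀) '' Set.range ρ := by
    ext w
    constructor
    · rintro ⟨g, rfl⟩
      exact ⟨ρ g, ⟨g, rfl⟩, rfl⟩
    · rintro ⟨_, ⟨g, rfl⟩, rfl⟩
      exact ⟨g, rfl⟩
  rw [himg, ← Submodule.map_span, hspan, Submodule.map_top, LinearMap.range_eq_top]
  exact hsurj

/-- **(F-LAT), general form**: the trace form is nondegenerate on the span of `ρ(G)` and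
`w₀` is a cyclic vector. -/
theorem h21_lattice_gen (hW : Module.finrank E W = 2) (ρ : G →* Module.End E W)
    (a : G → O) (htr : ∀ g, LinearMap.trace E W (ρ g) = algebraMap O E (a g))
    (d : G →* Oˣ) (hdet : ∀ g, LinearMap.det (ρ g) = algebraMap O E (d g : O))
    (hnd : ∀ X ∈ Submodule.span E (Set.range ρ),
      (∀ g, LinearMap.trace E W (X * ρ g) = 0) → X = 0)
    (w₀ : W) (hcyc : Submodule.span E (Set.range fun g => ρ g w₀) = ⊤)
    (P : Set G → Prop)
    (hcont : ∀ n : ℕ, ∃ U : Set G, P U ∧ ∀ σ ∈ U, ∀ g : G,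
      a (σ * g) - a g ∈ IsLocalRing.maximalIdeal O ^ n) :
    ∃ (V : Type) (_ : AddCommGroup V) (_ : Module O V) (_ : Module.Free O V)
      (_ : Module.Finite O V) (ρ' : G →* Module.End O V),
      Module.finrank O V = 2 ∧
      (∀ g : G, LinearMap.charpoly (ρ' g) = X ^ 2 - C (a g) * X + C (d g : O)) ∧
      (∀ g : G, ρ g = 1 → ρ' g = 1) ∧
      (∀ n : ℕ, ∃ U : Set G, P U ∧ ∀ σ ∈ U, ∀ v : V,
        ρ' σ v - v ∈ (IsLocalRing.maximalIdeal O ^ n) • (⊤ : Submodule O V)) := by
  letI : Module O W := Module.compHom W (algebraMap O E)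
  haveI : IsScalarTower O E W := IsScalarTower.of_algebraMap_smul fun _ _ => rfl
  exact h21_lattice_core hW ρ a htr d hdet hnd w₀ hcyc P hcont

/-- **(F-LAT)**: lattice and adic continuity from the trace function, when `ρ(G)` spans
`End W`. -/
theorem h21_lattice (hW : Module.finrank E W = 2) (ρ : G →* Module.End E W)
    (a : G → O) (htr : ∀ g, LinearMap.trace E W (ρ g) = algebraMap O E (a g))
    (d : G →* Oˣ) (hdet : ∀ g, LinearMap.det (ρ g) = algebraMap O E (d g : O))
    (hspan : Submodule.span E (Set.range ρ) = ⊤)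
    (P : Set G → Prop)
    (hcont : ∀ n : ℕ, ∃ U : Set G, P U ∧ ∀ σ ∈ U, ∀ g : G,
      a (σ * g) - a g ∈ IsLocalRing.maximalIdeal O ^ n) :
    ∃ (V : Type) (_ : AddCommGroup V) (_ : Module O V) (_ : Module.Free O V)
      (_ : Module.Finite O V) (ρ' : G →* Module.End O V),
      Module.finrank O V = 2 ∧
      (∀ g : G, LinearMap.charpoly (ρ' g) = X ^ 2 - C (a g) * X + C (d g : O)) ∧
      (∀ g : G, ρ g = 1 → ρ' g = 1) ∧
      (∀ n : ℕ, ∃ U : Set G, P U ∧ ∀ σ ∈ U, ∀ v : V,
        ρ' σ v - v ∈ (IsLocalRing.maximalIdeal O ^ n) • (⊤ : Submodule O V)) := by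
  haveI : Module.Finite E W := Module.finite_of_finrank_pos (by omega)
  haveI : Nontrivial W := Module.nontrivial_of_finrank_pos (R := E) (by omega)
  obtain ⟨w₀, hw₀⟩ := exists_ne (0 : W)
  refine h21_lattice_gen hW ρ a htr d hdet ?_ w₀ (h21_cyclic_of_span ρ hspan w₀ hw₀) P hcont
  intro X _ h0
  refine h21_trace_nondeg X fun Y => ?_
  have hY : Y ∈ Submodule.span E (Set.range ρ) := by rw [hspan]; trivial
  have hle : Submodule.span E (Set.range ρ) ≤
      LinearMap.ker ((LinearMap.trace E W).comp (LinearMap.mulLeft E X)) := by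
    rw [Submodule.span_le]
    rintro _ ⟨g, rfl⟩
    exact h0 g
  exact hle hY

end Final

end Fermat.Agent.S30x.Lin.H21
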