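import Mathlib

/-!
# W8 (S30), (LA) = `lin_adic`, `O`-level route (helper28): linear algebra in rank two

* `charpoly_rank_two` : `charpoly f = X² - tr f X + det f` on a free module of rank two;
* `trace_invol_eq_zero`, `trace_eq_of_conj`, `det_eq_of_quad` : trace and determinant from
  operator identities;
* `finite_of_sandwich`, `finrank_of_sandwich` : a torsion-free module between `O u + O u'` and
  `D⁻¹ (O u + O u')` is finite of rank two;
* `dvr_smul_mem` : division by a non-zero element in a discrete valuation ring.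
-/

set_option autoImplicit false
set_option linter.unusedSectionVars false
set_option linter.style.haveILetI false
set_option linter.unusedVariables false

open Polynomial

namespace Fermat.Agent.S30x.Lin.H28

section Charpoly

variable {O : Type} [CommRing O] [Nontrivial O]
variable {V : Type} [AddCommGroup V] [Module O V] [Module.Free O V] [Module.Finite O V]

lemma charpoly_rank_two (hV : Module.finrank O V = 2) (f : Module.End O V) :
    LinearMap.charpoly f = X ^ 2 - C (LinearMap.trace O V f) * X + C (LinearMap.det f) := by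
  classical
  let b : Module.Basis (Fin 2) O V := Module.finBasisOfFinrankEq O V hV
  rw [← LinearMap.charpoly_toMatrix f b, Matrix.charpoly_fin_two,
    LinearMap.trace_eq_matrix_trace O b f, LinearMap.det_toMatrix]

/-- Cayley-Hamilton in rank two, elementwise. -/
lemma cayley_rank_two (hV : Module.finrank O V = 2) (f : Module.End O V) (v : V) :
    f (f v) - LinearMap.trace O V f • f v + LinearMap.det f • v = 0 := by
  have h := LinearMap.aeval_self_charpoly f
  rw [charpoly_rank_two hV f] at h
  simp only [map_add, map_sub, map_pow, map_mul, aeval_X, aeval_C] at h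
  have h' := congrArg (fun φ : Module.End O V => φ v) h
  simp only [LinearMap.add_apply, LinearMap.sub_apply, Module.End.mul_apply,
    Module.algebraMap_end_apply, LinearMap.zero_apply, pow_two] at h'
  exact h'

end Charpoly

section Trace

variable {O : Type} [CommRing O] [IsDomain O]
variable {V : Type} [AddCommGroup V] [Module O V] [Module.Free O V] [Module.Finite O V]
  [Module.IsTorsionFree O V]

/-- an involution with eigenvectors for `ε` and `-ε` has trace zero -/
lemma trace_invol_eq_zero (h2 : (2 : O) ≠ 0) (hV : Module.finrank O V = 2)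
    (Cm : Module.End O V) (hCC : ∀ v, Cm (Cm v) = v) {ε : O} (hε : ε * ε = 1) {v v' : V}
    (hv : v ≠ 0) (hv' : v' ≠ 0) (hCv : Cm v = ε • v) (hCv' : Cm v' = (-ε) • v') :
    LinearMap.trace O V Cm = 0 := by
  have h1 := cayley_rank_two hV Cm v
  have h1' := cayley_rank_two hV Cm v'
  rw [hCC, hCv] at h1
  rw [hCC, hCv'] at h1'
  have e1 : (1 - LinearMap.trace O V Cm * ε + LinearMap.det Cm) • v = 0 := by
    rw [← h1]; module
  have e1' : (1 + LinearMap.trace O V Cm * ε + LinearMap.det Cm) • v' = 0 := by
    rw [← h1']; module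
  rw [smul_eq_zero_iff_left hv] at e1
  rw [smul_eq_zero_iff_left hv'] at e1'
  have e2 : 2 * ε * LinearMap.trace O V Cm = 0 := by
    linear_combination e1' - e1
  have hε0 : ε ≠ 0 := by
    rintro rfl
    simp at hε
  rcases mul_eq_zero.1 e2 with h | h
  · rcases mul_eq_zero.1 h with h | h
    · exact absurd h h2
    · exact absurd h hε0
  · exact h

/-- `X + C X C = β C + α` and `tr C = 0` give `tr X = α` -/
lemma trace_eq_of_conj (h2 : (2 : O) ≠ 0) (hV : Module.finrank O V = 2)
    (Cm X : Module.End O V) (hCC : ∀ v, Cm (Cm v) = v) (htr : LinearMap.trace O V Cm = 0)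
    {α β : O} (hconj : ∀ v, X v + Cm (X (Cm v)) = β • Cm v + α • v) :
    LinearMap.trace O V X = α := by
  have hCC' : Cm * Cm = 1 := LinearMap.ext fun v => by simp [hCC]
  have h : X + Cm * (X * Cm) = β • Cm + α • (1 : Module.End O V) :=
    LinearMap.ext fun v => by simpa using hconj v
  have h' := congrArg (LinearMap.trace O V) h
  rw [map_add, map_add, map_smul, map_smul, htr, LinearMap.trace_mul_comm, mul_assoc, hCC',
    mul_one, LinearMap.trace_one, hV] at h'
  simp only [smul_eq_mul, mul_zero, zero_add, Nat.cast_ofNat] at h'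
  have : 2 * (LinearMap.trace O V X - α) = 0 := by linear_combination h'
  rcases mul_eq_zero.1 this with h | h
  · exact absurd h h2
  · exact sub_eq_zero.1 h

/-- `X² + δ = α X` and `tr X = α` give `det X = δ` -/
lemma det_eq_of_quad (hV : Module.finrank O V = 2) (X : Module.End O V) {α δ : O}
    (htr : LinearMap.trace O V X = α) {v : V} (hv : v ≠ 0)
    (hquad : X (X v) + δ • v = α • X v) : LinearMap.det X = δ := by
  have h := cayley_rank_two hV X v
  rw [htr] at h
  have : (LinearMap.det X - δ) • v = 0 := by
    linear_combination (norm := module) h - hquad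
  rw [smul_eq_zero_iff_left hv] at this
  exact sub_eq_zero.1 this

end Trace

section Sandwich

variable {O : Type} [CommRing O] [IsDomain O] [IsPrincipalIdealRing O]
variable {Z : Type} [AddCommGroup Z] [Module O Z] [Module.IsTorsionFree O Z]

lemma indep_pair {u u' : Z} (hind : ∀ s t : O, s • u + t • u' = 0 → s = 0 ∧ t = 0) :
    LinearIndependent O ![u, u'] := by
  rw [LinearIndependent.pair_iff]
  exact hind

/-- a submodule between `O u + O u'` and `D⁻¹ (O u + O u')` is finite -/
lemma finite_of_sandwich (L : Submodule O Z) {u u' : Z} {D : O} (hD : D ≠ 0)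
    (hsand : ∀ w ∈ L, ∃ t t' : O, D • w = t • u + t' • u') : Module.Finite O L := by
  let F : Submodule O Z := Submodule.span O {u, u'}
  have hF : ∀ w : L, D • (w : Z) ∈ F := by
    intro w
    obtain ⟨t, t', h⟩ := hsand w w.2
    rw [h]
    exact add_mem (Submodule.smul_mem _ _ (Submodule.subset_span (by simp)))
      (Submodule.smul_mem _ _ (Submodule.subset_span (by simp)))
  let φ : L →ₗ[O] F := LinearMap.codRestrict F (D • L.subtype) hF
  have hφ : Function.Injective φ := by
    intro w w' h
    have h' : D • (w : Z) = D • (w' : Z) := congrArg (fun x : F => (x : Z)) h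
    exact Subtype.ext (smul_right_injective Z hD h')
  haveI : Module.Finite O F := Module.Finite.span_of_finite O (Set.toFinite _)
  haveI : IsNoetherian O F := isNoetherian_of_isNoetherianRing_of_finite O F
  exact Module.Finite.of_injective φ hφ

/-- a submodule between `O u + O u'` and `D⁻¹ (O u + O u')` has rank two -/
lemma finrank_of_sandwich (L : Submodule O Z) {u u' : Z} (hu : u ∈ L) (hu' : u' ∈ L)
    (hind : ∀ s t : O, s • u + t • u' = 0 → s = 0 ∧ t = 0) {D : O} (hD : D ≠ 0)
    (hsand : ∀ w ∈ L, ∃ t t' : O, D • w = t • u + t' • u') : Module.finrank O L = 2 := by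
  haveI := finite_of_sandwich L hD hsand
  have hli : LinearIndependent O ![u, u'] := indep_pair hind
  have hrange : Set.range ![u, u'] = {u, u'} := by
    ext x
    simp only [Set.mem_range, Set.mem_insert_iff, Set.mem_singleton_iff]
    constructor
    · rintro ⟨i, rfl⟩
      fin_cases i
      · left; rfl
      · right; rfl
    · rintro (rfl | rfl)
      · exact ⟨0, rfl⟩
      · exact ⟨1, rfl⟩
  let F : Submodule O Z := Submodule.span O (Set.range ![u, u'])
  let b : Module.Basis (Fin 2) O F := Module.Basis.span hli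
  have hFrank : Module.finrank O F = 2 := by
    rw [Module.finrank_eq_card_basis b]; simp
  haveI : Module.Finite O F := Module.Finite.of_basis b
  have hFL : F ≤ L := by
    rw [Submodule.span_le, hrange]
    rintro x (rfl | rfl)
    · exact hu
    · exact hu'
  have hF : ∀ w : L, D • (w : Z) ∈ F := by
    intro w
    obtain ⟨t, t', h⟩ := hsand w w.2
    rw [h]
    exact add_mem (Submodule.smul_mem _ _ (Submodule.subset_span ⟨0, rfl⟩))
      (Submodule.smul_mem _ _ (Submodule.subset_span ⟨1, rfl⟩))
  let φ : L →ₗ[O] F := LinearMap.codRestrict F (D • L.subtype) hF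
  have hφ : Function.Injective φ := by
    intro w w' h
    have h' : D • (w : Z) = D • (w' : Z) := congrArg (fun x : F => (x : Z)) h
    exact Subtype.ext (smul_right_injective Z hD h')
  have h1 : Module.finrank O L ≤ Module.finrank O F :=
    LinearMap.finrank_le_finrank_of_injective hφ
  have h2 : Module.finrank O F ≤ Module.finrank O L :=
    LinearMap.finrank_le_finrank_of_injective (Submodule.inclusion_injective hFL)
  omega

end Sandwich

section Dvr

variable {O : Type} [CommRing O] [IsDomain O] [IsDiscreteValuationRing O]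

/-- the order of a non-zero element -/
lemma exists_ord {x : O} (hx : x ≠ 0) :
    ∃ k : ℕ, ∀ n : ℕ, ∀ y : O, x * y ∈ IsLocalRing.maximalIdeal O ^ (n + k) →
      y ∈ IsLocalRing.maximalIdeal O ^ n := by
  obtain ⟨π, hπ⟩ := IsDiscreteValuationRing.exists_irreducible O
  obtain ⟨k, v, hv⟩ := IsDiscreteValuationRing.eq_unit_mul_pow_irreducible hx hπ
  refine ⟨k, fun n y hy => ?_⟩
  rw [hπ.maximalIdeal_eq, Ideal.span_singleton_pow, Ideal.mem_span_singleton] at hy ⊢
  obtain ⟨z, hz⟩ := hy
  have hπk : π ^ k ≠ 0 := pow_ne_zero _ hπ.ne_zero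
  refine ⟨↑v⁻¹ * z, ?_⟩
  have : π ^ k * (↑v * y) = π ^ k * (π ^ n * z) := by
    rw [hv] at hz
    rw [pow_add] at hz
    linear_combination hz
  have h3 := mul_left_cancel₀ hπk this
  calc y = ↑v⁻¹ * (↑v * y) := by rw [← mul_assoc, Units.inv_mul, one_mul]
    _ = ↑v⁻¹ * (π ^ n * z) := by rw [h3]
    _ = π ^ n * (↑v⁻¹ * z) := by ring

/-- division by a non-zero element, for modules -/
lemma exists_ord_smul {x : O} (hx : x ≠ 0) :
    ∃ k : ℕ, ∀ (V : Type) [AddCommGroup V] [Module O V] [Module.IsTorsionFree O V] (n : ℕ)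
      (w : V), x • w ∈ (IsLocalRing.maximalIdeal O ^ (n + k)) • (⊤ : Submodule O V) →
      w ∈ (IsLocalRing.maximalIdeal O ^ n) • (⊤ : Submodule O V) := by
  obtain ⟨π, hπ⟩ := IsDiscreteValuationRing.exists_irreducible O
  obtain ⟨k, v, hv⟩ := IsDiscreteValuationRing.eq_unit_mul_pow_irreducible hx hπ
  refine ⟨k, fun V _ _ _ n w hw => ?_⟩
  rw [hπ.maximalIdeal_eq, Ideal.span_singleton_pow, Submodule.ideal_span_singleton_smul,
    Submodule.mem_smul_pointwise_iff_exists] at hw ⊢
  obtain ⟨z, -, hz⟩ := hw
  have hπk : π ^ k ≠ 0 := pow_ne_zero _ hπ.ne_zero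
  refine ⟨(↑v⁻¹ : O) • z, Submodule.mem_top, ?_⟩
  have : π ^ k • ((v : O) • w) = π ^ k • (π ^ n • z) := by
    rw [smul_smul, smul_smul, ← pow_add, add_comm k n, hz, hv, mul_comm]
  have h3 := smul_right_injective V hπk this
  calc π ^ n • (↑v⁻¹ : O) • z = (↑v⁻¹ : O) • (π ^ n • z) := smul_comm _ _ _
    _ = (↑v⁻¹ : O) • ((v : O) • w) := by rw [h3]
    _ = w := by rw [smul_smul, Units.inv_mul, one_smul]

lemma mem_pow_smul_top_of_coeff {V : Type} [AddCommGroup V] [Module O V] (n : ℕ) {s t : O}
    (hs : s ∈ IsLocalRing.maximalIdeal O ^ n) (ht : t ∈ IsLocalRing.maximalIdeal O ^ n)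
    (v v' : V) : s • v + t • v' ∈ (IsLocalRing.maximalIdeal O ^ n) • (⊤ : Submodule O V) :=
  add_mem (Submodule.smul_mem_smul hs Submodule.mem_top)
    (Submodule.smul_mem_smul ht Submodule.mem_top)

end Dvr

end Fermat.Agent.S30x.Lin.H28
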