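import Mathlib

/-!
# W8 (S30), (LA) = `lin_adic`, `O`-level route (helper28): operator identities

Everything is stated for an `O`-module `Z` with a `G`-action `r`, a `G`-stable submodule `L`
on which `g + d(g) g⁻¹ = a(g)`, and an involution `c` with `d c = -1`.
-/

set_option autoImplicit false
set_option linter.unusedSectionVars false
set_option linter.style.haveILetI false
set_option linter.unusedVariables false

namespace Fermat.Agent.S30x.Lin.H28

section Orb

variable {G : Type} [Group G] {O : Type} [CommRing O]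
variable {Z : Type} [AddCommGroup Z] [Module O Z]
variable (r : G →* Module.End O Z)

/-- The `O`-span of the `G`-orbit of `w`. -/
def orb (w : Z) : Submodule O Z := Submodule.span O (Set.range fun h : G => r h w)

lemma apply_mem_orb (w : Z) (h : G) : r h w ∈ orb r w := Submodule.subset_span ⟨h, rfl⟩

lemma mem_orb_self (w : Z) : w ∈ orb r w := by
  have := apply_mem_orb r w 1
  rwa [map_one, Module.End.one_apply] at this

lemma orb_stable (w : Z) (g : G) {y : Z} (hy : y ∈ orb r w) : r g y ∈ orb r w := by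
  induction hy using Submodule.span_induction with
  | mem y hy =>
    obtain ⟨h, rfl⟩ := hy
    rw [← Module.End.mul_apply, ← map_mul]
    exact apply_mem_orb r w (g * h)
  | zero => rw [map_zero]; exact zero_mem _
  | add y y' _ _ hy hy' => rw [map_add]; exact add_mem hy hy'
  | smul t y _ hy => rw [map_smul]; exact Submodule.smul_mem _ _ hy

lemma orb_le {w : Z} {L : Submodule O Z} (hL : ∀ g : G, ∀ y ∈ L, r g y ∈ L) (hw : w ∈ L) :
    orb r w ≤ L := by
  rw [orb, Submodule.span_le]
  rintro _ ⟨h, rfl⟩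
  exact hL h w hw

lemma orb_mono {w w' : Z} (hw : w ∈ orb r w') : orb r w ≤ orb r w' :=
  orb_le r (fun g _ hy => orb_stable r w' g hy) hw

lemma smul_mem_orb_of_mem {w w' y : Z} (s : O) (hs : s • w ∈ orb r w') (hy : y ∈ orb r w) :
    s • y ∈ orb r w' := by
  induction hy using Submodule.span_induction with
  | mem y hy =>
    obtain ⟨h, rfl⟩ := hy
    change s • r h w ∈ orb r w'
    rw [← map_smul]
    exact orb_stable r w' h hs
  | zero => rw [smul_zero]; exact zero_mem _
  | add y y' _ _ hy hy' => rw [smul_add]; exact add_mem hy hy'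
  | smul t y _ hy => rw [smul_comm]; exact Submodule.smul_mem _ _ hy

lemma inv_apply_apply (g : G) (w : Z) : r g⁻¹ (r g w) = w := by
  rw [← Module.End.mul_apply, ← map_mul, inv_mul_cancel, map_one, Module.End.one_apply]

lemma apply_inv_apply (g : G) (w : Z) : r g (r g⁻¹ w) = w := by
  rw [← Module.End.mul_apply, ← map_mul, mul_inv_cancel, map_one, Module.End.one_apply]

end Orb

section Ops

variable {G : Type} [Group G] {O : Type} [CommRing O]
variable {Z : Type} [AddCommGroup Z] [Module O Z]
variable (r : G →* Module.End O Z) (d : G →* Oˣ) (a : G → O) {c : G}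
variable {L : Submodule O Z}

include r in
lemma cc_apply (hc : c * c = 1) (w : Z) : r c (r c w) = w := by
  rw [← Module.End.mul_apply, ← map_mul, hc, map_one, Module.End.one_apply]

/-- `X C + C X = a(g) C + a(gc)` on `L`. -/
lemma rel_anti (hc : c * c = 1) (hdc : d c = -1)
    (hrel : ∀ g : G, ∀ w ∈ L, r g w + (d g : O) • r g⁻¹ w = a g • w)
    (g : G) {w : Z} (hw : w ∈ L) :
    r g (r c w) + r c (r g w) = a g • r c w + a (g * c) • w := by
  have h1 := hrel (g * c) w hw
  have hinv : (g * c)⁻¹ = c * g⁻¹ := by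
    rw [mul_inv_rev, inv_eq_of_mul_eq_one_left hc]
  have hd : ((d (g * c) : Oˣ) : O) = -(d g : O) := by
    rw [map_mul, hdc]; simp
  have e1 : r (g * c) w = r g (r c w) := by rw [map_mul, Module.End.mul_apply]
  have e2 : r (g * c)⁻¹ w = r c (r g⁻¹ w) := by rw [hinv, map_mul, Module.End.mul_apply]
  rw [e1, e2, hd] at h1
  have h2 := hrel g w hw
  have h3 := congrArg (r c) h2
  simp only [map_add, map_smul] at h3
  linear_combination (norm := module) h1 + h3

/-- `X + C X C = a(gc) C + a(g)` on `L`. -/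
lemma rel_conj (hL : ∀ g : G, ∀ y ∈ L, r g y ∈ L) (hc : c * c = 1) (hdc : d c = -1)
    (hrel : ∀ g : G, ∀ w ∈ L, r g w + (d g : O) • r g⁻¹ w = a g • w)
    (g : G) {w : Z} (hw : w ∈ L) :
    r g w + r c (r g (r c w)) = a (g * c) • r c w + a g • w := by
  have h := rel_anti r d a hc hdc hrel g (hL c w hw)
  rw [cc_apply r hc] at h
  linear_combination (norm := module) h

/-- `C_ε X C_ε = α_ε(g) C_ε` on `L`, where `C_ε = 1 + ε C`, `α_ε(g) = a(g) + ε a(gc)`. -/
lemma rel_ce (hL : ∀ g : G, ∀ y ∈ L, r g y ∈ L) (hc : c * c = 1) (hdc : d c = -1)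
    (hrel : ∀ g : G, ∀ w ∈ L, r g w + (d g : O) • r g⁻¹ w = a g • w)
    {ε : O} (hε : ε * ε = 1) (g : G) {w : Z} (hw : w ∈ L) :
    r g (w + ε • r c w) + ε • r c (r g (w + ε • r c w)) =
      (a g + ε * a (g * c)) • (w + ε • r c w) := by
  have h1 := rel_anti r d a hc hdc hrel g hw
  have h2 := rel_conj r d a hL hc hdc hrel g hw
  simp only [map_add, map_smul]
  have e1 : ε • r c (r g w) + ε • ε • r c (r g (r c w)) =
      ε • r c (r g w) + r c (r g (r c w)) := by
    rw [smul_smul, hε, one_smul]
  have e2 : (a g + ε * a (g * c)) • (w + ε • r c w) =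
      a g • w + (ε * a (g * c)) • w + (ε * a g) • r c w + a (g * c) • r c w := by
    have : (ε * (ε * a (g * c))) = a (g * c) := by rw [← mul_assoc, hε, one_mul]
    rw [smul_add, add_smul, add_smul, smul_smul, smul_smul, mul_comm (a g) ε,
      mul_comm (ε * a (g * c)) ε, this]
    abel
  rw [smul_add, e1, e2]
  linear_combination (norm := module) h2 + ε • h1

/-- `X² - a(g) X + d(g) = 0` on `L`. -/
lemma rel_quad (hL : ∀ g : G, ∀ y ∈ L, r g y ∈ L)
    (hrel : ∀ g : G, ∀ w ∈ L, r g w + (d g : O) • r g⁻¹ w = a g • w)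
    (g : G) {w : Z} (hw : w ∈ L) :
    r g (r g w) + (d g : O) • w = a g • r g w := by
  have h := hrel g (r g w) (hL g w hw)
  rwa [inv_apply_apply] at h

end Ops

end Fermat.Agent.S30x.Lin.H28
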