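import Mathlib
import Fermat.Agent.S30x.Lin.H28_LinOps

/-!
# W8 (S30), (LA) = `lin_adic`, `O`-level route (helper28): eigenvectors of `c`

`Z` torsion-free over the domain `O`, `2 ≠ 0`, `u` an eigenvector of `C = r c` with eigenvalue
`ε = ± 1` in a `G`-stable submodule `L` on which the relation holds.  Then
`(1 + ε C) (orb u) ≤ O u`.
-/

set_option autoImplicit false
set_option linter.unusedSectionVars false
set_option linter.style.haveILetI false
set_option linter.unusedVariables false

namespace Fermat.Agent.S30x.Lin.H28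

section Eig

variable {G : Type} [Group G] {O : Type} [CommRing O] [IsDomain O]
variable {Z : Type} [AddCommGroup Z] [Module O Z] [Module.IsTorsionFree O Z]
variable (r : G →* Module.End O Z) (d : G →* Oˣ) (a : G → O) {c : G}
variable {L : Submodule O Z}

/-- `C_ε X u = α_ε(g) u` for an `ε`-eigenvector `u` of `C`. -/
lemma ce_orbit (h2 : (2 : O) ≠ 0) (hL : ∀ g : G, ∀ y ∈ L, r g y ∈ L) (hc : c * c = 1)
    (hdc : d c = -1) (hrel : ∀ g : G, ∀ w ∈ L, r g w + (d g : O) • r g⁻¹ w = a g • w)
    {ε : O} (hε : ε * ε = 1) {u : Z} (hu : u ∈ L) (hCu : r c u = ε • u) (g : G) :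
    r g u + ε • r c (r g u) = (a g + ε * a (g * c)) • u := by
  have h := rel_ce r d a hL hc hdc hrel hε g hu
  have e : u + ε • r c u = (2 : O) • u := by
    rw [hCu, smul_smul, hε, one_smul, two_smul]
  rw [e] at h
  simp only [map_smul] at h
  have h' : (2 : O) • (r g u + ε • r c (r g u)) = (2 : O) • ((a g + ε * a (g * c)) • u) := by
    rw [smul_add, smul_comm (2 : O) ε, smul_comm (2 : O) (a g + ε * a (g * c))]
    exact h
  exact smul_right_injective Z h2 h'

/-- `(1 + ε C) (orb u) ≤ O u`. -/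
lemma exists_ce (h2 : (2 : O) ≠ 0) (hL : ∀ g : G, ∀ y ∈ L, r g y ∈ L) (hc : c * c = 1)
    (hdc : d c = -1) (hrel : ∀ g : G, ∀ w ∈ L, r g w + (d g : O) • r g⁻¹ w = a g • w)
    {ε : O} (hε : ε * ε = 1) {u : Z} (hu : u ∈ L) (hCu : r c u = ε • u) {w : Z}
    (hw : w ∈ orb r u) : ∃ t : O, w + ε • r c w = t • u := by
  induction hw using Submodule.span_induction with
  | mem y hy =>
    obtain ⟨h, rfl⟩ := hy
    exact ⟨_, ce_orbit r d a h2 hL hc hdc hrel hε hu hCu h⟩
  | zero => exact ⟨0, by simp⟩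
  | add y y' _ _ hy hy' =>
    obtain ⟨t, ht⟩ := hy
    obtain ⟨t', ht'⟩ := hy'
    refine ⟨t + t', ?_⟩
    rw [map_add, smul_add, add_smul, ← ht, ← ht']
    abel
  | smul s y _ hy =>
    obtain ⟨t, ht⟩ := hy
    refine ⟨s * t, ?_⟩
    rw [map_smul, smul_comm ε s, ← smul_add, ht, smul_smul]

/-- an element of `Z` killed by `1 + ε C` and by `1 - ε C` is zero -/
lemma eq_zero_of_ce (h2 : (2 : O) ≠ 0) {ε : O} {w y : Z} (h1 : w + ε • y = 0)
    (h1' : w - ε • y = 0) : w = 0 := by
  have h : (2 : O) • w = 0 := by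
    rw [two_smul]
    linear_combination (norm := module) h1 + h1'
  exact (smul_eq_zero_iff_right h2).1 h

/-- the second eigenvector -/
lemma c_apply_sub (hc : c * c = 1) {ε : O} (hε : ε * ε = 1) (w : Z) :
    r c (w - ε • r c w) = (-ε) • (w - ε • r c w) := by
  rw [map_sub, map_smul, cc_apply r hc, smul_sub, smul_smul, neg_mul, hε]
  module

/-- eigenvectors for `ε` and `-ε` are linearly independent -/
lemma eig_indep (h2 : (2 : O) ≠ 0) {ε : O} (hε : ε * ε = 1) {u u' : Z} (hu : u ≠ 0)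
    (hu' : u' ≠ 0) (hCu : r c u = ε • u) (hCu' : r c u' = (-ε) • u') {s t : O}
    (h : s • u + t • u' = 0) : s = 0 ∧ t = 0 := by
  have h' := congrArg (r c) h
  simp only [map_add, map_smul, map_zero, hCu, hCu'] at h'
  have hε0 : ε ≠ 0 := by
    rintro rfl
    simp at hε
  have h3 : ε • (s • u - t • u') = 0 := by
    rw [← h']
    module
  have h4 : s • u - t • u' = 0 := (smul_eq_zero_iff_right hε0).1 h3
  have h5 : (2 * s) • u = 0 := by
    linear_combination (norm := module) h + h4
  have h6 : (2 * t) • u' = 0 := by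
    linear_combination (norm := module) h - h4
  rw [smul_eq_zero_iff_left hu] at h5
  rw [smul_eq_zero_iff_left hu'] at h6
  exact ⟨(mul_eq_zero.1 h5).resolve_left h2, (mul_eq_zero.1 h6).resolve_left h2⟩

end Eig

end Fermat.Agent.S30x.Lin.H28
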