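import Mathlib
import Fermat.Agent.S30x.Lin.H28_LinEig
import Fermat.Agent.S30x.Lin.H28_LinAlg

/-!
# W8 (S30), (LA) = `lin_adic`, `O`-level route (helper28): the degenerate case

`C = r c` is the scalar `ε` on `orb u`: then `G` acts on `u` through a character `ψ` with
values in `O` (integrally closed), and `V := O²` with `ψ ⊕ d ψ⁻¹`.
-/

set_option autoImplicit false
set_option linter.unusedSectionVars false
set_option linter.style.haveILetI false
set_option linter.unusedVariables false

open Polynomial

namespace Fermat.Agent.S30x.Lin.H28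

section Half

variable {O : Type} [CommRing O] [IsDomain O] [IsIntegrallyClosed O]

/-- a root of `X² - a X + d` of the form `α / 2` is integral -/
lemma exists_half (h2 : (2 : O) ≠ 0) {α a' d' : O} (h : α * α + 4 * d' = 2 * a' * α) :
    ∃ ψ : O, 2 * ψ = α := by
  have h2K : (2 : FractionRing O) ≠ 0 := by
    intro h0
    apply h2
    apply IsFractionRing.injective O (FractionRing O)
    rw [map_ofNat, map_zero]
    exact h0
  obtain ⟨x, hx⟩ : ∃ x : FractionRing O, 2 * x = algebraMap O (FractionRing O) α :=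
    ⟨algebraMap O (FractionRing O) α / 2, mul_div_cancel₀ _ h2K⟩
  have hint : IsIntegral O x := by
    refine ⟨X ^ 2 - C a' * X + C d', ?_, ?_⟩
    · have : (X ^ 2 - C a' * X + C d' : O[X]) = X ^ 2 - (C a' * X - C d') := by ring
      rw [this]
      apply Polynomial.monic_X_pow_sub
      have : (C a' * X - C d' : O[X]).degree ≤ 1 := by
        refine (Polynomial.degree_sub_le _ _).trans (max_le ?_ ?_)
        · exact (Polynomial.degree_C_mul_X_le a')
        · exact (Polynomial.degree_C_le).trans (by norm_num)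
      exact lt_of_le_of_lt this (by norm_num)
    · simp only [eval₂_add, eval₂_sub, eval₂_pow, eval₂_X, eval₂_mul, eval₂_C]
      have hK := congrArg (algebraMap O (FractionRing O)) h
      simp only [map_add, map_mul, map_ofNat] at hK
      have h4 : (2 : FractionRing O) * 2 *
          (x ^ 2 - algebraMap O (FractionRing O) a' * x + algebraMap O (FractionRing O) d') = 0 := by
        linear_combination (2 * x + algebraMap O (FractionRing O) α -
          2 * algebraMap O (FractionRing O) a') * hx + hK
      rcases mul_eq_zero.1 h4 with h | h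
      · exact absurd h (mul_ne_zero h2K h2K)
      · exact h
  obtain ⟨y, hy⟩ := IsIntegrallyClosed.isIntegral_iff.1 hint
  refine ⟨y, IsFractionRing.injective O (FractionRing O) ?_⟩
  rw [map_mul, hy, map_ofNat, hx]

end Half

section Pi

variable {O : Type} [CommRing O]

lemma mem_smul_top_pi (I : Ideal O) (f : Fin 2 → O) (hf : ∀ i, f i ∈ I) :
    f ∈ I • (⊤ : Submodule O (Fin 2 → O)) := by
  have : f = ∑ i, f i • (Pi.single i 1 : Fin 2 → O) := by
    ext j
    simp [Finset.sum_apply, Pi.single_apply]
  rw [this]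
  exact Submodule.sum_mem _ fun i _ => Submodule.smul_mem_smul (hf i) Submodule.mem_top

end Pi

section Deg

variable {G : Type} [Group G] {O : Type} [CommRing O] [IsDomain O] [IsDiscreteValuationRing O]
variable {Z : Type} [AddCommGroup Z] [Module O Z] [Module.IsTorsionFree O Z]

/-- the diagonal representation `ψ ⊕ δ` -/
noncomputable def diagRep (ψ δ : G →* O) : G →* Module.End O (Fin 2 → O) where
  toFun g := Matrix.toLin' (Matrix.diagonal ![ψ g, δ g])
  map_one' := by
    have : (![ψ 1, δ 1] : Fin 2 → O) = fun _ => 1 := by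
      ext i; fin_cases i <;> simp
    rw [this, Matrix.diagonal_one, Matrix.toLin'_one]
    rfl
  map_mul' g h := by
    have : (![ψ (g * h), δ (g * h)] : Fin 2 → O) = fun i => ![ψ g, δ g] i * ![ψ h, δ h] i := by
      ext i; fin_cases i <;> simp
    rw [this, ← Matrix.diagonal_mul_diagonal, Matrix.toLin'_mul]
    rfl

lemma diagRep_apply (ψ δ : G →* O) (g : G) (v : Fin 2 → O) (i : Fin 2) :
    diagRep ψ δ g v i = ![ψ g, δ g] i * v i := by
  change (Matrix.toLin' (Matrix.diagonal ![ψ g, δ g]) v) i = _
  rw [Matrix.toLin'_apply, Matrix.mulVec_diagonal]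

lemma diagRep_charpoly (ψ δ : G →* O) (g : G) :
    LinearMap.charpoly (diagRep ψ δ g) = X ^ 2 - C (ψ g + δ g) * X + C (ψ g * δ g) := by
  change LinearMap.charpoly (Matrix.toLin' (Matrix.diagonal ![ψ g, δ g])) = _
  rw [Matrix.charpoly_toLin', Matrix.charpoly_fin_two, Matrix.trace_fin_two, Matrix.det_fin_two]
  simp

/-- **The degenerate case.** -/
theorem core_deg (h2 : (2 : O) ≠ 0) (r : G →* Module.End O Z) (d : G →* Oˣ) (a : G → O)
    {c : G} (hc : c * c = 1) (hdc : d c = -1) {ε : O} (hε : ε * ε = 1) {u : Z} (hu : u ≠ 0)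
    (hCu : r c u = ε • u)
    (hrel : ∀ g : G, ∀ w ∈ orb r u, r g w + (d g : O) • r g⁻¹ w = a g • w)
    (hdeg : ∀ w ∈ orb r u, r c w = ε • w)
    (P : Set G → Prop)
    (hcont : ∀ n : ℕ, ∃ U : Set G, P U ∧ ∀ σ ∈ U,
      ((d σ : O) - 1 ∈ IsLocalRing.maximalIdeal O ^ n) ∧
      ∀ g : G, a (σ * g) - a g ∈ IsLocalRing.maximalIdeal O ^ n) :
    ∃ (V : Type) (_ : AddCommGroup V) (_ : Module O V) (_ : Module.Free O V)
      (_ : Module.Finite O V) (ρ' : G →* Module.End O V),
      Module.finrank O V = 2 ∧
      (∀ g : G, LinearMap.charpoly (ρ' g) = X ^ 2 - C (a g) * X + C (d g : O)) ∧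
      (∀ g : G, r g u = u → d g = 1 → ρ' g = 1) ∧
      (∀ n : ℕ, ∃ U : Set G, P U ∧ ∀ σ ∈ U, ∀ v : V,
        ρ' σ v - v ∈ (IsLocalRing.maximalIdeal O ^ n) • (⊤ : Submodule O V)) := by
  have hL : ∀ g : G, ∀ y ∈ orb r u, r g y ∈ orb r u := fun g _ hy => orb_stable r u g hy
  have huL := mem_orb_self r u
  have hD1 : ∀ g : G, (2 : O) • r g u = (a g + ε * a (g * c)) • u := by
    intro g
    have := ce_orbit r d a h2 hL hc hdc hrel hε huL hCu g
    rw [hdeg _ (apply_mem_orb r u g), smul_smul, hε, one_smul] at this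
    rw [two_smul]
    exact this
  have hD2 : ∀ g : G, (a g + ε * a (g * c)) * (a g + ε * a (g * c)) + 4 * (d g : O) =
      2 * a g * (a g + ε * a (g * c)) := by
    intro g
    have q := rel_quad r d a hL hrel g huL
    have q4 : (4 : O) • r g (r g u) + (4 * (d g : O)) • u = (2 * a g) • ((2 : O) • r g u) := by
      linear_combination (norm := module) (4 : O) • q
    have e : (4 : O) • r g (r g u) =
        ((a g + ε * a (g * c)) * (a g + ε * a (g * c))) • u := by
      have : (4 : O) • r g (r g u) = (2 : O) • r g ((2 : O) • r g u) := by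
        rw [map_smul]; module
      rw [this, hD1, map_smul, smul_comm, hD1, smul_smul]
    rw [e, hD1, smul_smul, ← add_smul] at q4
    exact smul_left_injective O hu q4
  have hψ : ∀ g : G, ∃ t : O, r g u = t • u ∧ 2 * t = a g + ε * a (g * c) := by
    intro g
    obtain ⟨t, ht⟩ := exists_half h2 (hD2 g)
    refine ⟨t, ?_, ht⟩
    apply smul_right_injective Z h2
    change (2 : O) • r g u = (2 : O) • t • u
    rw [hD1, ← ht, smul_smul]
  choose ψf hψu hψ2 using hψ
  have hψ1 : ψf 1 = 1 := by
    have h := hψu 1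
    rw [map_one, Module.End.one_apply] at h
    have : (ψf 1) • u = (1 : O) • u := by rw [← h, one_smul]
    exact smul_left_injective O hu this
  have hψmul : ∀ g h : G, ψf (g * h) = ψf g * ψf h := by
    intro g h
    have e := hψu (g * h)
    rw [map_mul, Module.End.mul_apply, hψu h, map_smul, hψu g, smul_smul, mul_comm] at e
    exact (smul_left_injective O hu e).symm
  let ψ : G →* O := ⟨⟨ψf, hψ1⟩, hψmul⟩
  have hψinv : ∀ g : G, ψ g * ψ g⁻¹ = 1 := by
    intro g
    rw [← map_mul, mul_inv_cancel, map_one]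
  let δ : G →* O :=
    { toFun := fun g => (d g : O) * ψ g⁻¹
      map_one' := by simp
      map_mul' := fun g h => by
        simp only [map_mul, mul_inv_rev, Units.val_mul]
        ring }
  have hsum : ∀ g : G, ψ g + δ g = a g := by
    intro g
    have h := hrel g u huL
    rw [hψu g, hψu g⁻¹, smul_smul, ← add_smul] at h
    exact smul_left_injective O hu h
  have hprod : ∀ g : G, ψ g * δ g = (d g : O) := by
    intro g
    change ψ g * ((d g : O) * ψ g⁻¹) = _
    rw [mul_left_comm, hψinv, mul_one]
  refine ⟨Fin 2 → O, inferInstance, inferInstance, inferInstance, inferInstance, diagRep ψ δ,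
    Module.finrank_fin_fun O, ?_, ?_, ?_⟩
  · intro g
    rw [diagRep_charpoly, hsum, hprod]
  · intro g hg hdg
    have h1 : ψ g = 1 := by
      have h := hψu g
      rw [hg] at h
      have : (ψf g) • u = (1 : O) • u := by rw [← h, one_smul]
      exact smul_left_injective O hu this
    have h2' : ψ g⁻¹ = 1 := by
      have := hψinv g
      rwa [h1, one_mul] at this
    have h3 : δ g = 1 := by
      change (d g : O) * ψ g⁻¹ = 1
      rw [hdg, h2']
      simp
    refine LinearMap.ext fun v => funext fun i => ?_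
    rw [diagRep_apply, Module.End.one_apply]
    fin_cases i <;> simp [h1, h3]
  · intro n
    obtain ⟨k, hk⟩ := exists_ord h2
    obtain ⟨U, hPU, hU⟩ := hcont (n + k)
    refine ⟨U, hPU, fun σ hσ v => ?_⟩
    obtain ⟨hσd, hσa⟩ := hU σ hσ
    have hle : IsLocalRing.maximalIdeal O ^ (n + k) ≤ IsLocalRing.maximalIdeal O ^ n :=
      Ideal.pow_le_pow_right (Nat.le_add_right n k)
    have h1 : ψ σ - 1 ∈ IsLocalRing.maximalIdeal O ^ n := by
      apply hk n
      have e1 := hψ2 σ
      have e2 := hψ2 1
      rw [hψ1, one_mul] at e2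
      have : 2 * (ψ σ - 1) = (a (σ * 1) - a 1) + ε * (a (σ * c) - a c) := by
        change 2 * (ψf σ - 1) = _
        rw [mul_one]
        linear_combination e1 - e2
      rw [this]
      exact Ideal.add_mem _ (hσa 1) (Ideal.mul_mem_left _ ε (hσa c))
    have h2' : δ σ - 1 ∈ IsLocalRing.maximalIdeal O ^ n := by
      have : δ σ - 1 = ψ σ⁻¹ * (((d σ : O) - 1) - (ψ σ - 1)) := by
        change (d σ : O) * ψ σ⁻¹ - 1 = _
        have := hψinv σ
        linear_combination this
      rw [this]
      exact Ideal.mul_mem_left _ _ (Ideal.sub_mem _ (hle hσd) h1)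
    apply mem_smul_top_pi
    intro i
    rw [Pi.sub_apply, diagRep_apply]
    fin_cases i
    · have : (![ψ σ, δ σ] : Fin 2 → O) 0 * v 0 - v 0 = (ψ σ - 1) * v 0 := by
        simp; ring
      simp only [Fin.zero_eta]
      rw [this]
      exact Ideal.mul_mem_right _ _ h1
    · have : (![ψ σ, δ σ] : Fin 2 → O) 1 * v 1 - v 1 = (δ σ - 1) * v 1 := by
        simp; ring
      simp only [Fin.mk_one]
      rw [this]
      exact Ideal.mul_mem_right _ _ h2'

end Deg

end Fermat.Agent.S30x.Lin.H28
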