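import Mathlib
import Fermat.Agent.S30x.Lin.H28_LinEig
import Fermat.Agent.S30x.Lin.H28_LinAlg

/-!
# W8 (S30), (LA) = `lin_adic`, `O`-level route (helper28): the generic case

`C = r c` is not the scalar `ε` on `orb u`: then `V := orb u` is free of rank two.
-/

set_option autoImplicit false
set_option linter.unusedSectionVars false
set_option linter.style.haveILetI false
set_option linter.unusedVariables false

open Polynomial

namespace Fermat.Agent.S30x.Lin.H28

section Res

variable {G : Type} [Group G] {O : Type} [CommRing O]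
variable {Z : Type} [AddCommGroup Z] [Module O Z]

/-- restriction of the action to `orb r u` -/
def resRep (r : G →* Module.End O Z) (u : Z) : G →* Module.End O (orb r u) where
  toFun g := (r g).restrict (fun _ hw => orb_stable r u g hw)
  map_one' := by
    ext w
    simp
  map_mul' g h := by
    ext w
    simp

@[simp] lemma coe_resRep (r : G →* Module.End O Z) (u : Z) (g : G) (w : orb r u) :
    ((resRep r u g w : orb r u) : Z) = r g (w : Z) := rfl

end Res

section Gen

variable {G : Type} [Group G] {O : Type} [CommRing O] [IsDomain O]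
variable {Z : Type} [AddCommGroup Z] [Module O Z] [Module.IsTorsionFree O Z]
variable (r : G →* Module.End O Z) (d : G →* Oˣ) (a : G → O) {c : G}

/-- the sandwich `2 s (orb u) ≤ O u + O u'` -/
lemma gen_sandwich (h2 : (2 : O) ≠ 0) (hc : c * c = 1) (hdc : d c = -1)
    {ε : O} (hε : ε * ε = 1) {u : Z} (hCu : r c u = ε • u)
    (hrel : ∀ g : G, ∀ w ∈ orb r u, r g w + (d g : O) • r g⁻¹ w = a g • w)
    {u' : Z} (hu' : u' ∈ orb r u) (hCu' : r c u' = (-ε) • u')
    {s : O} (hs : s • u ∈ orb r u') {w : Z} (hw : w ∈ orb r u) :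
    ∃ t t' : O, w + ε • r c w = t • u ∧ s • (w - ε • r c w) = t' • u' ∧
      (2 * s) • w = (s * t) • u + t' • u' := by
  have hL : ∀ g : G, ∀ y ∈ orb r u, r g y ∈ orb r u := fun g _ hy => orb_stable r u g hy
  obtain ⟨t, ht⟩ := exists_ce r d a h2 hL hc hdc hrel hε (mem_orb_self r u) hCu hw
  have hε' : (-ε) * (-ε) = 1 := by rw [neg_mul_neg, hε]
  obtain ⟨t', ht'⟩ := exists_ce r d a h2 hL hc hdc hrel hε' hu' hCu'
    (smul_mem_orb_of_mem r s hs hw)
  have ht'' : s • (w - ε • r c w) = t' • u' := by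
    rw [← ht', map_smul]
    module
  refine ⟨t, t', ht, ht'', ?_⟩
  have : (2 * s) • w = s • (w + ε • r c w) + s • (w - ε • r c w) := by module
  rw [this, ht, ht'', smul_smul]

end Gen

section GenHyp

variable {G : Type} [Group G] {O : Type} [CommRing O] [IsDomain O] [IsDiscreteValuationRing O]
variable {Z : Type} [AddCommGroup Z] [Module O Z] [Module.IsTorsionFree O Z]

/-- the hypotheses of the generic case -/
structure GenHyp (r : G →* Module.End O Z) (d : G →* Oˣ) (a : G → O) (c : G) (ε : O)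
    (u u' : Z) (s : O) : Prop where
  h2 : (2 : O) ≠ 0
  hc : c * c = 1
  hdc : d c = -1
  hε : ε * ε = 1
  hu : u ≠ 0
  hCu : r c u = ε • u
  hrel : ∀ g : G, ∀ w ∈ orb r u, r g w + (d g : O) • r g⁻¹ w = a g • w
  hu' : u' ∈ orb r u
  hu'0 : u' ≠ 0
  hCu' : r c u' = (-ε) • u'
  hs0 : s ≠ 0
  hs : s • u ∈ orb r u'

variable {r : G →* Module.End O Z} {d : G →* Oˣ} {a : G → O} {c : G} {ε : O} {u u' : Z} {s : O}

namespace GenHyp

lemma hL (_H : GenHyp r d a c ε u u' s) : ∀ g : G, ∀ y ∈ orb r u, r g y ∈ orb r u :=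
  fun g _ hy => orb_stable r u g hy

lemma sandwich (H : GenHyp r d a c ε u u' s) {w : Z} (hw : w ∈ orb r u) :
    ∃ t t' : O, (2 * s) • w = t • u + t' • u' := by
  obtain ⟨t, t', -, -, h⟩ := gen_sandwich r d a H.h2 H.hc H.hdc H.hε H.hCu H.hrel H.hu' H.hCu'
    H.hs hw
  exact ⟨s * t, t', h⟩

lemma indep (H : GenHyp r d a c ε u u' s) (x y : O) (h : x • u + y • u' = 0) :
    x = 0 ∧ y = 0 :=
  eig_indep r H.h2 H.hε H.hu H.hu'0 H.hCu H.hCu' h

lemma two_s_ne (H : GenHyp r d a c ε u u' s) : 2 * s ≠ 0 := mul_ne_zero H.h2 H.hs0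

lemma finite (H : GenHyp r d a c ε u u' s) : Module.Finite O (orb r u) :=
  finite_of_sandwich (orb r u) H.two_s_ne (fun _ hw => H.sandwich hw)

lemma finrank (H : GenHyp r d a c ε u u' s) : Module.finrank O (orb r u) = 2 :=
  finrank_of_sandwich (orb r u) (mem_orb_self r u) H.hu' H.indep H.two_s_ne
    (fun _ hw => H.sandwich hw)

lemma free (H : GenHyp r d a c ε u u' s) : Module.Free O (orb r u) :=
  haveI := H.finite
  Module.free_of_finite_type_torsion_free'

lemma trace_c (H : GenHyp r d a c ε u u' s) :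
    LinearMap.trace O (orb r u) (resRep r u c) = 0 := by
  haveI := H.finite
  haveI := H.free
  refine trace_invol_eq_zero H.h2 H.finrank (resRep r u c)
    (fun v => Subtype.ext (cc_apply r H.hc _)) H.hε
    (v := ⟨u, mem_orb_self r u⟩) (v' := ⟨u', H.hu'⟩) ?_ ?_ ?_ ?_
  · intro h
    exact H.hu (congrArg Subtype.val h)
  · intro h
    exact H.hu'0 (congrArg Subtype.val h)
  · exact Subtype.ext H.hCu
  · exact Subtype.ext H.hCu'

lemma trace (H : GenHyp r d a c ε u u' s) (g : G) :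
    LinearMap.trace O (orb r u) (resRep r u g) = a g := by
  haveI := H.finite
  haveI := H.free
  refine trace_eq_of_conj H.h2 H.finrank (resRep r u c) (resRep r u g)
    (fun v => Subtype.ext (cc_apply r H.hc _)) H.trace_c (α := a g) (β := a (g * c)) ?_
  intro v
  exact Subtype.ext (rel_conj r d a H.hL H.hc H.hdc H.hrel g v.2)

lemma det (H : GenHyp r d a c ε u u' s) (g : G) :
    LinearMap.det (resRep r u g) = (d g : O) := by
  haveI := H.finite
  haveI := H.free
  refine det_eq_of_quad H.finrank (resRep r u g) (H.trace g) (v := ⟨u, mem_orb_self r u⟩) ?_ ?_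
  · intro h
    exact H.hu (congrArg Subtype.val h)
  · exact Subtype.ext (rel_quad r d a H.hL H.hrel g (mem_orb_self r u))

lemma charpoly (H : GenHyp r d a c ε u u' s) (g : G) :
    haveI := H.finite
    haveI := H.free
    LinearMap.charpoly (resRep r u g) = X ^ 2 - C (a g) * X + C (d g : O) := by
  haveI := H.finite
  haveI := H.free
  rw [charpoly_rank_two H.finrank, H.trace, H.det]

/-- `a` is a class function -/
lemma class_fn (H : GenHyp r d a c ε u u' s) (x y : G) : a (x * y) = a (y * x) := by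
  have e1 : resRep r u (x * y) = resRep r u x * resRep r u y := map_mul _ _ _
  have e2 : resRep r u (y * x) = resRep r u y * resRep r u x := map_mul _ _ _
  rw [← H.trace (x * y), ← H.trace (y * x), e1, e2, LinearMap.trace_mul_comm]

/-- a translate of `u'` with non-zero `ε`-component -/
lemma exists_pair (H : GenHyp r d a c ε u u' s) :
    ∃ (h₀ : G) (t₀ : O), t₀ ≠ 0 ∧ r h₀ u' + ε • r c (r h₀ u') = t₀ • u := by
  by_contra hno
  push Not at hno
  have h0 : ∀ h : G, r h u' + ε • r c (r h u') = 0 := by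
    intro h
    obtain ⟨t, ht⟩ := exists_ce r d a H.h2 H.hL H.hc H.hdc H.hrel H.hε (mem_orb_self r u) H.hCu
      (orb_stable r u h H.hu')
    by_cases ht0 : t = 0
    · rw [ht, ht0, zero_smul]
    · exact absurd ht (hno h t ht0)
  have h1 : ∀ y ∈ orb r u', y + ε • r c y = 0 := by
    intro y hy
    induction hy using Submodule.span_induction with
    | mem y hy =>
      obtain ⟨h, rfl⟩ := hy
      exact h0 h
    | zero => simp
    | add y y' _ _ hy hy' =>
      rw [map_add, smul_add]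
      linear_combination (norm := module) hy + hy'
    | smul t y _ hy =>
      rw [map_smul, smul_comm ε t, ← smul_add, hy, smul_zero]
  have h2 := h1 _ H.hs
  rw [map_smul, H.hCu] at h2
  have h3 : (2 * s) • u = 0 := by
    have : (2 * s) • u = s • u + (ε * ε) • s • u := by rw [H.hε]; module
    rw [this, ← h2]
    module
  rw [smul_eq_zero_iff_left H.hu] at h3
  exact H.two_s_ne h3

/-- the key identity for the continuity -/
lemma key (H : GenHyp r d a c ε u u' s) {h₀ : G} {t₀ : O}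
    (ht₀ : r h₀ u' + ε • r c (r h₀ u') = t₀ • u) (σ g : G) :
    (2 * t₀) • (r σ (r g u) - r g u) =
      (t₀ * ((a (σ * g) + ε * a (σ * g * c)) - (a g + ε * a (g * c)))) • u +
        (2 * ((a (h₀ * (σ * g)) + ε * a (h₀ * (σ * g) * c)) - (a (h₀ * g) + ε * a (h₀ * g * c)))
          - ((a (σ * g) + ε * a (σ * g * c)) - (a g + ε * a (g * c))) *
            (a h₀ + ε * a (h₀ * c))) • u' := by
  have hu := mem_orb_self r u
  have ce := fun x : G => ce_orbit r d a H.h2 H.hL H.hc H.hdc H.hrel H.hε hu H.hCu x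
  set lam : O := (a (σ * g) + ε * a (σ * g * c)) - (a g + ε * a (g * c)) with hlam
  set B : O := 2 * ((a (h₀ * (σ * g)) + ε * a (h₀ * (σ * g) * c)) -
      (a (h₀ * g) + ε * a (h₀ * g * c))) - lam * (a h₀ + ε * a (h₀ * c)) with hB
  set w' : Z := r σ (r g u) - r g u with hw'
  have hw'L : w' ∈ orb r u :=
    sub_mem (orb_stable r u σ (apply_mem_orb r u g)) (apply_mem_orb r u g)
  have c1 : r σ (r g u) + ε • r c (r σ (r g u)) = (a (σ * g) + ε * a (σ * g * c)) • u := by
    have := ce (σ * g)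
    rwa [map_mul, Module.End.mul_apply] at this
  have c2 := ce g
  have e1 : w' + ε • r c w' = lam • u := by
    rw [hw', map_sub, hlam]
    linear_combination (norm := module) c1 - c2
  obtain ⟨t, t', -, ht', -⟩ := gen_sandwich r d a H.h2 H.hc H.hdc H.hε H.hCu H.hrel H.hu'
    H.hCu' H.hs hw'L
  have E_u := ce h₀
  have E_1 : r h₀ (r σ (r g u)) + ε • r c (r h₀ (r σ (r g u))) =
      (a (h₀ * (σ * g)) + ε * a (h₀ * (σ * g) * c)) • u := by
    have := ce (h₀ * (σ * g))
    rwa [map_mul, map_mul, Module.End.mul_apply, Module.End.mul_apply] at this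
  have E_2 : r h₀ (r g u) + ε • r c (r h₀ (r g u)) =
      (a (h₀ * g) + ε * a (h₀ * g * c)) • u := by
    have := ce (h₀ * g)
    rwa [map_mul, Module.End.mul_apply] at this
  have e3 : w' - ε • r c w' = (2 : O) • w' - lam • u := by
    rw [← e1]; module
  have E_lhs : r h₀ (s • (w' - ε • r c w')) + ε • r c (r h₀ (s • (w' - ε • r c w'))) =
      (t' * t₀) • u := by
    rw [ht']
    simp only [map_smul]
    rw [smul_comm ε t', ← smul_add, ht₀, smul_smul]
  rw [e3, hw'] at E_lhs
  simp only [map_sub, map_smul] at E_lhs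
  have hsB : (s * B) • u = (t' * t₀) • u := by
    rw [hB]
    linear_combination (norm := module) E_lhs - (2 * s) • E_1 + (2 * s) • E_2 + (s * lam) • E_u
  have hsB' : s * B = t' * t₀ := smul_left_injective O H.hu hsB
  have e4 : (2 * s) • w' = (s * lam) • u + t' • u' := by
    have : (2 * s) • w' = s • (w' + ε • r c w') + s • (w' - ε • r c w') := by module
    rw [this, e1, ht', smul_smul]
  apply smul_right_injective Z H.hs0
  change s • (2 * t₀) • w' = s • ((t₀ * lam) • u + B • u')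
  calc s • (2 * t₀) • w' = t₀ • ((2 * s) • w') := by module
    _ = t₀ • ((s * lam) • u + t' • u') := by rw [e4]
    _ = (s * t₀ * lam) • u + (t' * t₀) • u' := by module
    _ = (s * t₀ * lam) • u + (s * B) • u' := by rw [← hsB']
    _ = s • ((t₀ * lam) • u + B • u') := by module

/-- continuity in the generic case -/
lemma cont (H : GenHyp r d a c ε u u' s) (P : Set G → Prop)
    (hcont : ∀ n : ℕ, ∃ U : Set G, P U ∧ ∀ σ ∈ U,
      ((d σ : O) - 1 ∈ IsLocalRing.maximalIdeal O ^ n) ∧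
      ∀ g : G, a (σ * g) - a g ∈ IsLocalRing.maximalIdeal O ^ n) (n : ℕ) :
    ∃ U : Set G, P U ∧ ∀ σ ∈ U, ∀ v : orb r u,
      resRep r u σ v - v ∈ (IsLocalRing.maximalIdeal O ^ n) • (⊤ : Submodule O (orb r u)) := by
  obtain ⟨h₀, t₀, ht₀0, ht₀⟩ := H.exists_pair
  obtain ⟨k, hk⟩ := exists_ord_smul (mul_ne_zero H.h2 ht₀0)
  obtain ⟨U, hPU, hU⟩ := hcont (n + k)
  refine ⟨U, hPU, fun σ hσ v => ?_⟩
  obtain ⟨-, hσa⟩ := hU σ hσ
  set I : Ideal O := IsLocalRing.maximalIdeal O ^ (n + k) with hI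
  have hgen : ∀ g : G, resRep r u σ ⟨r g u, apply_mem_orb r u g⟩ - ⟨r g u, apply_mem_orb r u g⟩
      ∈ (IsLocalRing.maximalIdeal O ^ n) • (⊤ : Submodule O (orb r u)) := by
    intro g
    apply hk (orb r u) n
    have key := H.key ht₀ σ g
    set lam : O := (a (σ * g) + ε * a (σ * g * c)) - (a g + ε * a (g * c)) with hlam
    set B : O := 2 * ((a (h₀ * (σ * g)) + ε * a (h₀ * (σ * g) * c)) -
        (a (h₀ * g) + ε * a (h₀ * g * c))) - lam * (a h₀ + ε * a (h₀ * c)) with hB
    have hlamI : lam ∈ I := by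
      have h1 := hσa g
      have h2 := hσa (g * c)
      rw [← mul_assoc] at h2
      have : lam = (a (σ * g) - a g) + ε * (a (σ * g * c) - a (g * c)) := by
        rw [hlam]; ring
      rw [this]
      exact I.add_mem h1 (I.mul_mem_left ε h2)
    have hBI : B ∈ I := by
      have h1 := hσa (g * h₀)
      have h2 := hσa (g * c * h₀)
      have e1 : a (h₀ * (σ * g)) = a (σ * (g * h₀)) := by
        rw [H.class_fn, mul_assoc]
      have e2 : a (h₀ * g) = a (g * h₀) := H.class_fn _ _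
      have e3 : a (h₀ * (σ * g) * c) = a (σ * (g * c * h₀)) := by
        rw [mul_assoc h₀, H.class_fn]
        simp only [mul_assoc]
      have e4 : a (h₀ * g * c) = a (g * c * h₀) := by
        rw [mul_assoc h₀, H.class_fn]
      have : B = 2 * ((a (σ * (g * h₀)) - a (g * h₀)) +
          ε * (a (σ * (g * c * h₀)) - a (g * c * h₀))) - lam * (a h₀ + ε * a (h₀ * c)) := by
        rw [hB, e1, e2, e3, e4]; ring
      rw [this]
      exact I.sub_mem (I.mul_mem_left 2 (I.add_mem h1 (I.mul_mem_left ε h2)))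
        (I.mul_mem_right _ hlamI)
    have e : (2 * t₀) • (resRep r u σ ⟨r g u, apply_mem_orb r u g⟩ -
        ⟨r g u, apply_mem_orb r u g⟩ : orb r u) =
        (t₀ * lam) • (⟨u, mem_orb_self r u⟩ : orb r u) + B • (⟨u', H.hu'⟩ : orb r u) :=
      Subtype.ext key
    rw [e]
    exact mem_pow_smul_top_of_coeff (n + k) (I.mul_mem_left t₀ hlamI) hBI _ _
  obtain ⟨w, hw⟩ := v
  induction hw using Submodule.span_induction with
  | mem y hy =>
    obtain ⟨g, rfl⟩ := hy
    exact hgen g
  | zero =>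
    have : resRep r u σ (⟨0, zero_mem _⟩ : orb r u) - ⟨0, zero_mem _⟩ = 0 :=
      Subtype.ext (by simp)
    rw [this]
    exact zero_mem _
  | add y y' hy hy' ih ih' =>
    have : resRep r u σ (⟨y + y', add_mem hy hy'⟩ : orb r u) - ⟨y + y', add_mem hy hy'⟩ =
        (resRep r u σ ⟨y, hy⟩ - ⟨y, hy⟩) + (resRep r u σ ⟨y', hy'⟩ - ⟨y', hy'⟩) :=
      Subtype.ext (by simp; abel)
    rw [this]
    exact add_mem ih ih'
  | smul t y hy ih =>
    have : resRep r u σ (⟨t • y, Submodule.smul_mem _ t hy⟩ : orb r u) -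
        ⟨t • y, Submodule.smul_mem _ t hy⟩ = t • (resRep r u σ ⟨y, hy⟩ - ⟨y, hy⟩) :=
      Subtype.ext (by simp [smul_sub])
    rw [this]
    exact Submodule.smul_mem _ t ih

end GenHyp

/-- **The generic case.** -/
theorem core_gen (h2 : (2 : O) ≠ 0) (r : G →* Module.End O Z) (d : G →* Oˣ) (a : G → O)
    {c : G} (hc : c * c = 1) (hdc : d c = -1) {ε : O} (hε : ε * ε = 1) {u : Z} (hu : u ≠ 0)
    (hCu : r c u = ε • u)
    (hrel : ∀ g : G, ∀ w ∈ orb r u, r g w + (d g : O) • r g⁻¹ w = a g • w)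
    (hsimp : ∀ w ∈ orb r u, w ≠ 0 → ∃ s : O, s ≠ 0 ∧ s • u ∈ orb r w)
    {w₀ : Z} (hw₀ : w₀ ∈ orb r u) (hne : r c w₀ ≠ ε • w₀)
    (P : Set G → Prop)
    (hcont : ∀ n : ℕ, ∃ U : Set G, P U ∧ ∀ σ ∈ U,
      ((d σ : O) - 1 ∈ IsLocalRing.maximalIdeal O ^ n) ∧
      ∀ g : G, a (σ * g) - a g ∈ IsLocalRing.maximalIdeal O ^ n) :
    ∃ (V : Type) (_ : AddCommGroup V) (_ : Module O V) (_ : Module.Free O V)
      (_ : Module.Finite O V) (ρ' : G →* Module.End O V),
      Module.finrank O V = 2 ∧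
      (∀ g : G, LinearMap.charpoly (ρ' g) = X ^ 2 - C (a g) * X + C (d g : O)) ∧
      (∀ g : G, (∀ w ∈ orb r u, r g w = w) → ρ' g = 1) ∧
      (∀ n : ℕ, ∃ U : Set G, P U ∧ ∀ σ ∈ U, ∀ v : V,
        ρ' σ v - v ∈ (IsLocalRing.maximalIdeal O ^ n) • (⊤ : Submodule O V)) := by
  have hu'L : w₀ - ε • r c w₀ ∈ orb r u :=
    sub_mem hw₀ (Submodule.smul_mem _ _ (orb_stable r u c hw₀))
  have hu'0 : w₀ - ε • r c w₀ ≠ 0 := by
    intro h
    apply hne
    have h1 : w₀ = ε • r c w₀ := sub_eq_zero.1 h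
    have h2 := congrArg (r c) h1
    rw [map_smul, cc_apply r hc] at h2
    exact h2
  obtain ⟨s, hs0, hs⟩ := hsimp _ hu'L hu'0
  have H : GenHyp r d a c ε u (w₀ - ε • r c w₀) s :=
    ⟨h2, hc, hdc, hε, hu, hCu, hrel, hu'L, hu'0, c_apply_sub r hc hε w₀, hs0, hs⟩
  refine ⟨orb r u, inferInstance, inferInstance, H.free, H.finite, resRep r u, H.finrank,
    H.charpoly, ?_, H.cont P hcont⟩
  intro g hg
  ext v
  simp [hg _ v.2]

end GenHyp

end Fermat.Agent.S30x.Lin.H28
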