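import Mathlib
import Fermat.Agent.S30x.Lin.H28_LinGen
import Fermat.Agent.S30x.Lin.H28_LinDeg

/-!
# W8 (S30), (LA) = `lin_adic`, `O`-level route (helper28): the torsion-free simple case

`core_simple` : the conclusion of `lin_adic` for a torsion-free module `Z` with a vector `z₀`
such that every non-zero `w` in the orbit module of `z₀` generates it up to a denominator.
-/

set_option autoImplicit false
set_option linter.unusedSectionVars false
set_option linter.style.haveILetI false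
set_option linter.unusedVariables false

open Polynomial

namespace Fermat.Agent.S30x.Lin.H28

section Core

variable {G : Type} [Group G] {O : Type} [CommRing O] [IsDomain O] [IsDiscreteValuationRing O]
variable {Z : Type} [AddCommGroup Z] [Module O Z] [Module.IsTorsionFree O Z]

lemma fix_of_fix_orbit (r : G →* Module.End O Z) {z₀ : Z} {g : G}
    (hg : ∀ h : G, r g (r h z₀) = r h z₀) {w : Z} (hw : w ∈ orb r z₀) : r g w = w := by
  induction hw using Submodule.span_induction with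
  | mem y hy =>
    obtain ⟨h, rfl⟩ := hy
    exact hg h
  | zero => simp
  | add y y' _ _ hy hy' => rw [map_add, hy, hy']
  | smul t y _ hy => rw [map_smul, hy]

lemma rel_of_rel_orbit (r : G →* Module.End O Z) (d : G →* Oˣ) (a : G → O) {z₀ : Z}
    (hrel : ∀ g h : G, r g (r h z₀) + (d g : O) • r g⁻¹ (r h z₀) = a g • r h z₀)
    (g : G) {w : Z} (hw : w ∈ orb r z₀) : r g w + (d g : O) • r g⁻¹ w = a g • w := by
  induction hw using Submodule.span_induction with
  | mem y hy =>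
    obtain ⟨h, rfl⟩ := hy
    exact hrel g h
  | zero => simp
  | add y y' _ _ hy hy' =>
    rw [map_add, map_add, smul_add, smul_add]
    linear_combination (norm := module) hy + hy'
  | smul t y _ hy =>
    rw [map_smul, map_smul, smul_comm (d g : O) t, ← smul_add, hy, smul_comm]

/-- **The torsion-free simple case.** -/
theorem core_simple (h2 : (2 : O) ≠ 0) (r : G →* Module.End O Z) (d : G →* Oˣ) (a : G → O)
    {c : G} (hc : c * c = 1) (hdc : d c = -1) {z₀ : Z} (hz₀ : z₀ ≠ 0)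
    (hrel : ∀ g h : G, r g (r h z₀) + (d g : O) • r g⁻¹ (r h z₀) = a g • r h z₀)
    (hsimp : ∀ w ∈ orb r z₀, w ≠ 0 → ∃ s : O, s ≠ 0 ∧ s • z₀ ∈ orb r w)
    (P : Set G → Prop)
    (hcont : ∀ n : ℕ, ∃ U : Set G, P U ∧ ∀ σ ∈ U,
      ((d σ : O) - 1 ∈ IsLocalRing.maximalIdeal O ^ n) ∧
      ∀ g : G, a (σ * g) - a g ∈ IsLocalRing.maximalIdeal O ^ n) :
    ∃ (V : Type) (_ : AddCommGroup V) (_ : Module O V) (_ : Module.Free O V)
      (_ : Module.Finite O V) (ρ' : G →* Module.End O V),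
      Module.finrank O V = 2 ∧
      (∀ g : G, LinearMap.charpoly (ρ' g) = X ^ 2 - C (a g) * X + C (d g : O)) ∧
      (∀ g : G, (∀ h : G, r g (r h z₀) = r h z₀) → d g = 1 → ρ' g = 1) ∧
      (∀ n : ℕ, ∃ U : Set G, P U ∧ ∀ σ ∈ U, ∀ v : V,
        ρ' σ v - v ∈ (IsLocalRing.maximalIdeal O ^ n) • (⊤ : Submodule O V)) := by
  -- an eigenvector of `c`
  obtain ⟨ε, u, hε, hu0, huL, hCu⟩ : ∃ (ε : O) (u : Z), ε * ε = 1 ∧ u ≠ 0 ∧ u ∈ orb r z₀ ∧
      r c u = ε • u := by
    by_cases h : z₀ + r c z₀ = 0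
    · refine ⟨-1, z₀, by ring, hz₀, mem_orb_self r z₀, ?_⟩
      rw [neg_one_smul]
      exact (eq_neg_of_add_eq_zero_right h)
    · refine ⟨1, z₀ + r c z₀, by ring, h, add_mem (mem_orb_self r z₀) (apply_mem_orb r z₀ c), ?_⟩
      rw [map_add, cc_apply r hc, one_smul, add_comm]
  have hle : orb r u ≤ orb r z₀ := orb_mono r huL
  have hrel' : ∀ g : G, ∀ w ∈ orb r u, r g w + (d g : O) • r g⁻¹ w = a g • w :=
    fun g w hw => rel_of_rel_orbit r d a hrel g (hle hw)
  have hsimp' : ∀ w ∈ orb r u, w ≠ 0 → ∃ s : O, s ≠ 0 ∧ s • u ∈ orb r w := by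
    intro w hw hw0
    obtain ⟨s, hs0, hs⟩ := hsimp w (hle hw) hw0
    exact ⟨s, hs0, smul_mem_orb_of_mem r s hs huL⟩
  by_cases hdeg : ∀ w ∈ orb r u, r c w = ε • w
  · obtain ⟨V, i1, i2, i3, i4, ρ', h1, h2', h3, h4⟩ :=
      core_deg h2 r d a hc hdc hε hu0 hCu hrel' hdeg P hcont
    exact ⟨V, i1, i2, i3, i4, ρ', h1, h2',
      fun g hg hdg => h3 g (fix_of_fix_orbit r hg huL) hdg, h4⟩
  · push Not at hdeg
    obtain ⟨w₀, hw₀, hne⟩ := hdeg
    obtain ⟨V, i1, i2, i3, i4, ρ', h1, h2', h3, h4⟩ :=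
      core_gen h2 r d a hc hdc hε hu0 hCu hrel' hsimp' hw₀ hne P hcont
    exact ⟨V, i1, i2, i3, i4, ρ', h1, h2',
      fun g hg _ => h3 g (fun w hw => fix_of_fix_orbit r hg (hle hw)), h4⟩

end Core

end Fermat.Agent.S30x.Lin.H28
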