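import Mathlib
import Fermat.Agent.S30x.Lin.H6_Defs
import Fermat.Agent.S30x.Lin.H28_LinCore

/-!
# W8 (S30), (LA) = `lin_adic`, `O`-level route (helper28): the theorem

`h28_stLinAdicO : Lin.H6.StLinAdicO`.  Reduction to `core_simple` by Zorn's lemma: `N` is a
maximal `G`-stable saturated submodule of `Y` not containing `x`, and `Z := Y ⧸ N`.
-/

set_option autoImplicit false
set_option linter.unusedSectionVars false
set_option linter.style.haveILetI false
set_option linter.unusedVariables false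

open Polynomial

namespace Fermat.Agent.S30x.Lin.H28

section Zorn

variable {G : Type} [Group G] {O : Type} [CommRing O] [IsDomain O]
variable {Y : Type} [AddCommGroup Y] [Module O Y]

/-- the saturation of a submodule -/
def sat (B : Submodule O Y) : Submodule O Y where
  carrier := {y | ∃ s : O, s ≠ 0 ∧ s • y ∈ B}
  add_mem' := by
    rintro y y' ⟨s, hs, h⟩ ⟨s', hs', h'⟩
    refine ⟨s * s', mul_ne_zero hs hs', ?_⟩
    have : (s * s') • (y + y') = s' • (s • y) + s • (s' • y') := by module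
    rw [this]
    exact add_mem (B.smul_mem _ h) (B.smul_mem _ h')
  zero_mem' := ⟨1, one_ne_zero, by simp⟩
  smul_mem' := by
    rintro t y ⟨s, hs, h⟩
    refine ⟨s, hs, ?_⟩
    rw [smul_comm]
    exact B.smul_mem _ h

lemma mem_sat {B : Submodule O Y} {y : Y} : y ∈ sat B ↔ ∃ s : O, s ≠ 0 ∧ s • y ∈ B := Iff.rfl

lemma le_sat (B : Submodule O Y) : B ≤ sat B := fun y hy => ⟨1, one_ne_zero, by simpa using hy⟩

lemma sat_saturated (B : Submodule O Y) (s : O) (hs : s ≠ 0) (y : Y) (h : s • y ∈ sat B) :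
    y ∈ sat B := by
  obtain ⟨s', hs', h'⟩ := h
  exact ⟨s' * s, mul_ne_zero hs' hs, by rwa [mul_smul]⟩

lemma sat_stable (ρ : G →* Module.End O Y) (B : Submodule O Y)
    (hB : ∀ g : G, ∀ y ∈ B, ρ g y ∈ B) (g : G) (y : Y) (h : y ∈ sat B) : ρ g y ∈ sat B := by
  obtain ⟨s, hs, h'⟩ := h
  refine ⟨s, hs, ?_⟩
  rw [← map_smul]
  exact hB g _ h'

/-- the admissible submodules -/
def adm (ρ : G →* Module.End O Y) (x : Y) : Set (Submodule O Y) :=
  {N | (∀ g : G, ∀ y ∈ N, ρ g y ∈ N) ∧ (∀ s : O, s ≠ 0 → ∀ y : Y, s • y ∈ N → y ∈ N) ∧ x ∉ N}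

lemma exists_maximal_adm (ρ : G →* Module.End O Y) (x : Y) (hx : ∀ s : O, s • x = 0 → s = 0) :
    ∃ N : Submodule O Y, Maximal (· ∈ adm ρ x) N := by
  have h0 : sat (⊥ : Submodule O Y) ∈ adm ρ x := by
    refine ⟨sat_stable ρ ⊥ (fun g y hy => ?_), sat_saturated ⊥, ?_⟩
    · rw [Submodule.mem_bot] at hy ⊢
      rw [hy]
      exact map_zero _
    · rintro ⟨s, hs, h⟩
      rw [Submodule.mem_bot] at h
      exact hs (hx s h)
  have hchains : ∀ ch ⊆ adm ρ x, IsChain (· ≤ ·) ch → ∀ y ∈ ch,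
      ∃ ub ∈ adm ρ x, ∀ z ∈ ch, z ≤ ub := by
    intro ch hch hchain N₁ hN₁
    have hne : ch.Nonempty := ⟨N₁, hN₁⟩
    have hdir : DirectedOn (· ≤ ·) ch := hchain.directedOn
    refine ⟨sSup ch, ⟨?_, ?_, ?_⟩, fun z hz => le_sSup hz⟩
    · intro g y hy
      rw [Submodule.mem_sSup_of_directed hne hdir] at hy ⊢
      obtain ⟨N', hN', hy'⟩ := hy
      exact ⟨N', hN', (hch hN').1 g y hy'⟩
    · intro s hs y hy
      rw [Submodule.mem_sSup_of_directed hne hdir] at hy ⊢
      obtain ⟨N', hN', hy'⟩ := hy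
      exact ⟨N', hN', (hch hN').2.1 s hs y hy'⟩
    · intro hxs
      rw [Submodule.mem_sSup_of_directed hne hdir] at hxs
      obtain ⟨N', hN', hx'⟩ := hxs
      exact (hch hN').2.2 hx'
  obtain ⟨N, -, hN⟩ := zorn_le_nonempty₀ (adm ρ x) hchains _ h0
  exact ⟨N, hN⟩

end Zorn

section Quot

variable {G : Type} [Group G] {O : Type} [CommRing O] [IsDomain O]
variable {Y : Type} [AddCommGroup Y] [Module O Y]

/-- the action on the quotient by a stable submodule -/
def quotRep (ρ : G →* Module.End O Y) (N : Submodule O Y)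
    (hN : ∀ g : G, ∀ y ∈ N, ρ g y ∈ N) : G →* Module.End O (Y ⧸ N) where
  toFun g := N.mapQ N (ρ g) (fun y hy => hN g y hy)
  map_one' := by
    refine LinearMap.ext fun z => ?_
    obtain ⟨y, rfl⟩ := N.mkQ_surjective z
    simp
  map_mul' g h := by
    refine LinearMap.ext fun z => ?_
    obtain ⟨y, rfl⟩ := N.mkQ_surjective z
    simp

lemma quotRep_mk (ρ : G →* Module.End O Y) (N : Submodule O Y)
    (hN : ∀ g : G, ∀ y ∈ N, ρ g y ∈ N) (g : G) (y : Y) :
    quotRep ρ N hN g (Submodule.Quotient.mk y) = Submodule.Quotient.mk (ρ g y) := rfl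

lemma torsionFree_quot (N : Submodule O Y)
    (hsat : ∀ s : O, s ≠ 0 → ∀ y : Y, s • y ∈ N → y ∈ N) : Module.IsTorsionFree O (Y ⧸ N) := by
  refine Module.IsTorsionFree.of_smul_eq_zero fun s z h => ?_
  obtain ⟨y, rfl⟩ := N.mkQ_surjective z
  by_cases hs : s = 0
  · exact Or.inl hs
  · right
    rw [Submodule.mkQ_apply, ← Submodule.Quotient.mk_smul, Submodule.Quotient.mk_eq_zero] at h
    rw [Submodule.mkQ_apply, Submodule.Quotient.mk_eq_zero]
    exact hsat s hs y h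

end Quot

/-- **(LA)** `lin_adic`: helper6's `StLinAdicO`, by the `O`-level route. -/
theorem h28_stLinAdicO : Fermat.Agent.S30x.Lin.H6.StLinAdicO := by
  intro G _ O _ _ _ h2 Y _ _ ρ x hx d a c hc hdc hrel P hcont
  obtain ⟨N, hN⟩ := exists_maximal_adm ρ x hx
  obtain ⟨hNst, hNsat, hxN⟩ := hN.prop
  haveI : Module.IsTorsionFree O (Y ⧸ N) := torsionFree_quot N hNsat
  set r := quotRep ρ N hNst with hr
  set z₀ : Y ⧸ N := Submodule.Quotient.mk x with hz₀
  have hz₀0 : z₀ ≠ 0 := by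
    rw [hz₀, Ne, Submodule.Quotient.mk_eq_zero]
    exact hxN
  have hrz : ∀ h : G, r h z₀ = Submodule.Quotient.mk (ρ h x) := fun h => rfl
  have hrel' : ∀ g h : G, r g (r h z₀) + (d g : O) • r g⁻¹ (r h z₀) = a g • r h z₀ := by
    intro g h
    rw [hrz, hr, quotRep_mk, quotRep_mk, ← Submodule.Quotient.mk_smul,
      ← Submodule.Quotient.mk_smul, ← Submodule.Quotient.mk_add, hrel g h]
  have hsimp : ∀ w ∈ orb r z₀, w ≠ 0 → ∃ s : O, s ≠ 0 ∧ s • z₀ ∈ orb r w := by
    intro w _ hw0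
    let B : Submodule O Y := (orb r w).comap N.mkQ
    have hBst : ∀ g : G, ∀ y ∈ B, ρ g y ∈ B := by
      intro g y hy
      change N.mkQ (ρ g y) ∈ orb r w
      have : N.mkQ (ρ g y) = r g (N.mkQ y) := rfl
      rw [this]
      exact orb_stable r w g hy
    by_contra hno
    have hxB : x ∉ sat B := by
      rintro ⟨s, hs, h⟩
      exact hno ⟨s, hs, by simpa [B, hz₀] using h⟩
    have hadm : sat B ∈ adm ρ x := ⟨sat_stable ρ B hBst, sat_saturated B, hxB⟩
    have hle : N ≤ sat B := by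
      intro y hy
      refine le_sat B ?_
      change N.mkQ y ∈ orb r w
      rw [Submodule.mkQ_apply, (Submodule.Quotient.mk_eq_zero N).2 hy]
      exact zero_mem _
    have hge : sat B ≤ N := hN.le_of_ge hadm hle
    obtain ⟨y₀, rfl⟩ := N.mkQ_surjective w
    have hy₀ : y₀ ∈ sat B := le_sat B (mem_orb_self r _)
    apply hw0
    rw [Submodule.mkQ_apply, Submodule.Quotient.mk_eq_zero]
    exact hge hy₀
  obtain ⟨V, i1, i2, i3, i4, ρ', h1, h2', h3, h4⟩ :=
    core_simple h2 r d a hc hdc hz₀0 hrel' hsimp P hcont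
  refine ⟨V, i1, i2, i3, i4, ρ', h1, h2', fun g hg hdg => h3 g (fun h => ?_) hdg, h4⟩
  rw [hrz, hr, quotRep_mk, hg]

end Fermat.Agent.S30x.Lin.H28
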