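import Mathlib

/-!
# W8 (S30), (LA) = `lin_adic`: the dimension-one case (helper4)

`O` a discrete valuation ring with fraction field `E`, `ψ : G →* Eˣ` a character with
`ψ g + d(g) ψ(g)⁻¹ = a(g)`, `a : G → O`, `d : G →* Oˣ`.  Then `ψ` has values in `Oˣ` (`O` is
integrally closed) and `V := O²` with the diagonal action `diag (ψ, d ψ⁻¹)` has characteristic
polynomials `X² - a(g) X + d(g)` and is adically continuous as soon as `a` and `d` are.
Mathlib only.
-/

set_option autoImplicit false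
set_option linter.unusedSectionVars false
set_option linter.style.haveILetI false

open Polynomial

namespace Fermat.Agent.S30x.Lin.H4

section diag

variable {G : Type} [Group G] {O : Type} [CommRing O]

/-- The pair of two characters. -/
def h4pair (χ₁ χ₂ : G →* O) : G →* (Fin 2 → O) where
  toFun g := ![χ₁ g, χ₂ g]
  map_one' := by
    funext i
    fin_cases i <;> simp
  map_mul' g h := by
    funext i
    fin_cases i <;> simp

/-- The diagonal representation on `O²` with the characters `χ₁`, `χ₂`. -/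
def h4diag (χ₁ χ₂ : G →* O) : G →* Module.End O (Fin 2 → O) :=
  (MonoidHomClass.toMonoidHom
      (Matrix.toLinAlgEquiv' : Matrix (Fin 2) (Fin 2) O ≃ₐ[O] _)).comp
    ((Matrix.diagonalRingHom (Fin 2) O).toMonoidHom.comp (h4pair χ₁ χ₂))

theorem h4diag_eq (χ₁ χ₂ : G →* O) (g : G) :
    h4diag χ₁ χ₂ g = Matrix.toLin' (Matrix.diagonal ![χ₁ g, χ₂ g]) := rfl

theorem h4diag_apply (χ₁ χ₂ : G →* O) (g : G) (v : Fin 2 → O) (i : Fin 2) :
    h4diag χ₁ χ₂ g v i = ![χ₁ g, χ₂ g] i * v i := by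
  rw [h4diag_eq, Matrix.toLin'_apply, Matrix.mulVec_diagonal]

theorem h4diag_charpoly [Nontrivial O] (χ₁ χ₂ : G →* O) (g : G) :
    LinearMap.charpoly (h4diag χ₁ χ₂ g) = X ^ 2 - C (χ₁ g + χ₂ g) * X + C (χ₁ g * χ₂ g) := by
  rw [h4diag_eq, Matrix.charpoly_toLin', Matrix.charpoly_fin_two, Matrix.trace_diagonal,
    Matrix.det_diagonal, Fin.sum_univ_two, Fin.prod_univ_two]
  simp

theorem h4diag_eq_one (χ₁ χ₂ : G →* O) (g : G) (h₁ : χ₁ g = 1) (h₂ : χ₂ g = 1) :
    h4diag χ₁ χ₂ g = 1 := by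
  refine LinearMap.ext fun v => funext fun i => ?_
  rw [h4diag_apply, h₁, h₂]
  fin_cases i <;> simp

/-- A vector with coordinates in `I` lies in `I • ⊤`. -/
theorem h4_mem_smul_top (I : Ideal O) (v : Fin 2 → O) (hv : ∀ i, v i ∈ I) :
    v ∈ I • (⊤ : Submodule O (Fin 2 → O)) := by
  have h : v = ∑ i, v i • (Pi.single i (1 : O) : Fin 2 → O) := by
    funext j
    rw [Finset.sum_apply]
    simp only [Pi.smul_apply, smul_eq_mul, Pi.single_apply]
    simp
  rw [h]
  exact Submodule.sum_mem _ fun i _ => Submodule.smul_mem_smul (hv i) Submodule.mem_top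

end diag

section dvr

variable {O : Type} [CommRing O] [IsDomain O] [IsDiscreteValuationRing O]

/-- In a discrete valuation ring, `x² ∈ 𝔪^(2n)` implies `x ∈ 𝔪^n`. -/
theorem h4_mem_of_sq_mem (x : O) (n : ℕ)
    (h : x ^ 2 ∈ IsLocalRing.maximalIdeal O ^ (2 * n)) : x ∈ IsLocalRing.maximalIdeal O ^ n := by
  obtain ⟨π, hπ⟩ := IsDiscreteValuationRing.exists_irreducible O
  rw [hπ.maximalIdeal_eq, Ideal.span_singleton_pow, Ideal.mem_span_singleton] at h ⊢
  by_cases hx : x = 0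
  · rw [hx]; exact dvd_zero _
  obtain ⟨k, u, hu⟩ := IsDiscreteValuationRing.associated_pow_irreducible hx hπ
  -- x * u = π ^ k
  have h1 : π ^ (2 * n) ∣ π ^ (2 * k) := by
    have h2 : π ^ (2 * k) = x ^ 2 * (u : O) ^ 2 := by
      rw [mul_comm 2 k, pow_mul, ← hu]; ring
    rw [h2]
    exact Dvd.dvd.mul_right h _
  have h3 : 2 * n ≤ 2 * k := (pow_dvd_pow_iff hπ.ne_zero hπ.not_isUnit).mp h1
  have h4 : n ≤ k := by omega
  have h5 : x = π ^ k * ((u⁻¹ : Oˣ) : O) := by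
    rw [← hu, mul_assoc, Units.mul_inv, mul_one]
  rw [h5]
  exact Dvd.dvd.mul_right (pow_dvd_pow π h4) _

end dvr

section main

variable {G : Type} [Group G] (O : Type) [CommRing O] [IsDomain O] [IsDiscreteValuationRing O]
  {E : Type} [Field E] [Algebra O E] [IsFractionRing O E]

/-- A character with `ψ + d ψ⁻¹ = a` has values in `Oˣ`. -/
theorem h4_exists_char (ψ : G →* Eˣ) (a : G → O) (d : G →* Oˣ)
    (hrel : ∀ g, (ψ g : E) + algebraMap O E (d g : O) * ((ψ g)⁻¹ : Eˣ) = algebraMap O E (a g)) :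
    ∃ χ : G →* Oˣ, ∀ g, algebraMap O E (χ g : O) = (ψ g : E) := by
  have hint : ∀ g, ∃ y : O, algebraMap O E y = (ψ g : E) := by
    intro g
    apply IsIntegrallyClosed.isIntegral_iff.mp
    refine ⟨X ^ 2 - C (a g) * X + C (d g : O), ?_, ?_⟩
    · have h1 : (X ^ 2 - C (a g) * X + C (d g : O) : O[X]) = X ^ 2 + (- C (a g) * X + C (d g : O)) := by
        ring
      rw [h1]
      apply Polynomial.monic_X_pow_add
      refine lt_of_le_of_lt (Polynomial.degree_add_le _ _) (max_lt ?_ ?_)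
      · rw [← C_neg]
        refine lt_of_le_of_lt (Polynomial.degree_C_mul_X_le _) (by norm_num)
      · exact lt_of_le_of_lt Polynomial.degree_C_le (by norm_num)
    · simp only [eval₂_add, eval₂_sub, eval₂_mul, eval₂_pow, eval₂_X, eval₂_C]
      rw [← hrel g]
      have hne : (ψ g : E) ≠ 0 := (ψ g).ne_zero
      have hinv : (((ψ g)⁻¹ : Eˣ) : E) = (ψ g : E)⁻¹ := Units.val_inv_eq_inv_val _
      rw [hinv]
      field_simp
      ring
  choose y hy using hint
  let χ₀ : G →* O :=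
    { toFun := y
      map_one' := IsFractionRing.injective O E (by rw [hy, map_one, map_one, Units.val_one])
      map_mul' := fun g h => IsFractionRing.injective O E (by
        rw [hy, map_mul, map_mul, hy, hy, Units.val_mul]) }
  exact ⟨χ₀.toHomUnits, fun g => hy g⟩

/-- **The dimension-one case.** -/
theorem h4_dim_one (ψ : G →* Eˣ) (a : G → O) (d : G →* Oˣ)
    (hrel : ∀ g, (ψ g : E) + algebraMap O E (d g : O) * ((ψ g)⁻¹ : Eˣ) = algebraMap O E (a g))
    (P : Set G → Prop)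
    (hcont : ∀ n : ℕ, ∃ U : Set G, P U ∧ ∀ σ ∈ U,
      ((d σ : O) - 1 ∈ IsLocalRing.maximalIdeal O ^ n) ∧
      ∀ g : G, a (σ * g) - a g ∈ IsLocalRing.maximalIdeal O ^ n) :
    ∃ (V : Type) (_ : AddCommGroup V) (_ : Module O V) (_ : Module.Free O V)
      (_ : Module.Finite O V) (ρ' : G →* Module.End O V),
      Module.finrank O V = 2 ∧
      (∀ g : G, LinearMap.charpoly (ρ' g) = X ^ 2 - C (a g) * X + C (d g : O)) ∧
      (∀ g : G, ψ g = 1 → d g = 1 → ρ' g = 1) ∧
      (∀ n : ℕ, ∃ U : Set G, P U ∧ ∀ σ ∈ U, ∀ v : V,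
        ρ' σ v - v ∈ (IsLocalRing.maximalIdeal O ^ n) • (⊤ : Submodule O V)) := by
  obtain ⟨χ, hχ⟩ := h4_exists_char O ψ a d hrel
  -- the two characters
  let χ₁ : G →* O := (Units.coeHom O).comp χ
  let χ₂ : G →* O := (Units.coeHom O).comp (d * χ⁻¹)
  have hχ₁ : ∀ g, χ₁ g = (χ g : O) := fun g => rfl
  have hχ₂ : ∀ g, χ₂ g = (d g : O) * ((χ g)⁻¹ : Oˣ) := fun g => rfl
  have hsum : ∀ g, χ₁ g + χ₂ g = a g := by
    intro g
    apply IsFractionRing.injective O E
    rw [← hrel g, map_add, hχ₁, hχ₂, map_mul, hχ]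
    congr 2
    have h1 : algebraMap O E (((χ g)⁻¹ : Oˣ) : O) * (ψ g : E) = 1 := by
      rw [← hχ, ← map_mul, Units.inv_mul, map_one]
    rw [Units.val_inv_eq_inv_val]
    exact eq_inv_of_mul_eq_one_left h1
  have hprod : ∀ g, χ₁ g * χ₂ g = (d g : O) := by
    intro g
    rw [hχ₁, hχ₂, mul_left_comm, Units.mul_inv, mul_one]
  refine ⟨Fin 2 → O, inferInstance, inferInstance, inferInstance, inferInstance,
    h4diag χ₁ χ₂, Module.finrank_fin_fun O, ?_, ?_, ?_⟩
  · intro g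
    rw [h4diag_charpoly, hsum, hprod]
  · intro g hg hd
    have h1 : χ g = 1 := by
      apply Units.ext
      apply IsFractionRing.injective O E
      rw [hχ, hg, Units.val_one, Units.val_one, map_one]
    refine h4diag_eq_one χ₁ χ₂ g ?_ ?_
    · rw [hχ₁, h1, Units.val_one]
    · rw [hχ₂, h1, hd, inv_one, Units.val_one, mul_one]
  · intro n
    obtain ⟨U, hPU, hU⟩ := hcont (2 * n)
    refine ⟨U, hPU, fun σ hσ v => ?_⟩
    obtain ⟨hd, ha⟩ := hU σ hσ
    have hle : IsLocalRing.maximalIdeal O ^ (2 * n) ≤ IsLocalRing.maximalIdeal O ^ n :=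
      Ideal.pow_le_pow_right (by omega)
    -- `(χ σ - 1)² ∈ 𝔪^(2n)`
    have ha1 := ha 1
    rw [mul_one, ← hsum, ← hsum, hχ₁, hχ₂, hχ₁, hχ₂, map_one, map_one, inv_one, Units.val_one,
      mul_one] at ha1
    have hsq : ((χ σ : O) - 1) ^ 2 ∈ IsLocalRing.maximalIdeal O ^ (2 * n) := by
      have h1 : ((χ σ : O) - 1) ^ 2 = (χ σ : O) * ((χ σ : O) + (d σ : O) * ((χ σ)⁻¹ : Oˣ) - (1 + 1))
          - ((d σ : O) - 1) := by
        have h2 : (χ σ : O) * (((χ σ)⁻¹ : Oˣ) : O) = 1 := Units.mul_inv _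
        linear_combination (-(d σ : O)) * h2
      rw [h1]
      exact Ideal.sub_mem _ (Ideal.mul_mem_left _ _ ha1) hd
    have h1 : (χ σ : O) - 1 ∈ IsLocalRing.maximalIdeal O ^ n := h4_mem_of_sq_mem _ n hsq
    have h2 : (d σ : O) * (((χ σ)⁻¹ : Oˣ) : O) - 1 ∈ IsLocalRing.maximalIdeal O ^ n := by
      have h3 : (d σ : O) * (((χ σ)⁻¹ : Oˣ) : O) - 1 =
          (((χ σ)⁻¹ : Oˣ) : O) * (((d σ : O) - 1) - ((χ σ : O) - 1)) := by
        have h4 : (((χ σ)⁻¹ : Oˣ) : O) * (χ σ : O) = 1 := Units.inv_mul _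
        linear_combination h4
      rw [h3]
      exact Ideal.mul_mem_left _ _ (Ideal.sub_mem _ (hle hd) h1)
    apply h4_mem_smul_top
    intro i
    rw [Pi.sub_apply, h4diag_apply]
    fin_cases i
    · have h5 : (![χ₁ σ, χ₂ σ] 0) * v 0 - v 0 = ((χ σ : O) - 1) * v 0 := by
        simp only [Matrix.cons_val_zero, hχ₁]; ring
      exact h5 ▸ Ideal.mul_mem_right _ _ h1
    · have h5 : (![χ₁ σ, χ₂ σ] 1) * v 1 - v 1 = ((d σ : O) * (((χ σ)⁻¹ : Oˣ) : O) - 1) * v 1 := by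
        simp only [Matrix.cons_val_one, Matrix.cons_val_zero, hχ₂]; ring
      exact h5 ▸ Ideal.mul_mem_right _ _ h2

end main

end Fermat.Agent.S30x.Lin.H4
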