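import Mathlib

/-!
# W8 (S30), (LA) = `lin_adic`: the lattice half (helper4)

`O` a discrete valuation ring with fraction field `E`, `r : G →* M₂(E)` a representation whose
image spans `M₂(E)` and whose traces `a g` lie in `O`.  Then the `O`-span `L` of the columns of
all `r γ` is a `G`-stable free `O`-module of rank `2`, the characteristic polynomials of the
action on `L` are `X² - a(g) X + d(g)`, and the action is adically continuous as soon as the
trace function `a` is.  No division by `2`.  Mathlib only.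
-/

set_option autoImplicit false
set_option linter.unusedSectionVars false
set_option linter.style.haveILetI false

open Polynomial

namespace Fermat.Agent.S30x.Lin.H4

section core

variable {G : Type} [Group G] {O : Type} [CommRing O] [IsDomain O]
  {E : Type} [Field E] [Algebra O E] [IsFractionRing O E]

/-- Bounded denominators: the entries of a matrix are controlled by its traces against the
image of `r`, up to one fixed denominator `s`. -/
theorem h4_exists_denominator (r : G →* Matrix (Fin 2) (Fin 2) E)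
    (hspan : Submodule.span E (Set.range r) = ⊤) :
    ∃ s : O, s ≠ 0 ∧ ∀ (I : Ideal O) (X : Matrix (Fin 2) (Fin 2) E),
      (∀ g : G, ∃ o ∈ I, (X * r g).trace = algebraMap O E o) →
      ∀ i j : Fin 2, ∃ o ∈ I, algebraMap O E s * X i j = algebraMap O E o := by
  classical
  -- coefficients of the elementary matrices
  have hc : ∀ ij : Fin 2 × Fin 2, ∃ c : G →₀ E,
      (c.sum fun g e => e • r g) = Matrix.single ij.2 ij.1 (1 : E) := by
    intro ij
    have hmem : Matrix.single ij.2 ij.1 (1 : E) ∈ Submodule.span E (Set.range r) := by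
      rw [hspan]; exact Submodule.mem_top
    exact Finsupp.mem_span_range_iff_exists_finsupp.mp hmem
  choose c hc using hc
  -- a common denominator
  obtain ⟨b, hb⟩ := IsLocalization.exist_integer_multiples (nonZeroDivisors O)
    ((Finset.univ : Finset (Fin 2 × Fin 2)).biUnion
      (fun ij => (c ij).support.image (fun g => (ij, g))))
    (fun x : (Fin 2 × Fin 2) × G => c x.1 x.2)
  refine ⟨(b : O), nonZeroDivisors.coe_ne_zero b, ?_⟩
  intro I X hX i j
  choose o ho hoX using hX
  have hb' : ∀ g ∈ (c (i, j)).support, ∃ t : O, algebraMap O E t = (b : O) • c (i, j) g := by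
    intro g hg
    have := hb ((i, j), g) (by
      rw [Finset.mem_biUnion]
      exact ⟨(i, j), Finset.mem_univ _, Finset.mem_image.mpr ⟨g, hg, rfl⟩⟩)
    exact this
  have hentry : X i j = (c (i, j)).sum fun g e => e * algebraMap O E (o g) := by
    have h1 : X i j = (X * Matrix.single j i (1 : E)).trace := by
      rw [Matrix.trace_mul_single]; simp
    rw [h1, ← hc (i, j)]
    simp only [Finsupp.sum, Matrix.mul_sum, Matrix.trace_sum, Matrix.mul_smul,
      Matrix.trace_smul, smul_eq_mul, hoX]
  -- choose integral numerators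
  have hb'' : ∀ g : G, ∃ t : O, g ∈ (c (i, j)).support →
      algebraMap O E t = (b : O) • c (i, j) g := by
    intro g
    by_cases hg : g ∈ (c (i, j)).support
    · obtain ⟨t, ht⟩ := hb' g hg
      exact ⟨t, fun _ => ht⟩
    · exact ⟨0, fun h => absurd h hg⟩
  choose t ht using hb''
  refine ⟨∑ g ∈ (c (i, j)).support, t g * o g, ?_, ?_⟩
  · exact Ideal.sum_mem _ fun g _ => Ideal.mul_mem_left _ _ (ho g)
  · rw [hentry, Finsupp.sum, Finset.mul_sum, map_sum]
    refine Finset.sum_congr rfl fun g hg => ?_
    rw [map_mul, ht g hg, Algebra.smul_def]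
    ring

end core

section lattice

variable {G : Type} [Group G] (O : Type) [CommRing O] [IsDomain O]
  {E : Type} [Field E] [Algebra O E] [IsFractionRing O E]

/-- The `j`-th column of a matrix. -/
def h4col (X : Matrix (Fin 2) (Fin 2) E) (j : Fin 2) : Fin 2 → E := fun i => X i j

theorem h4col_apply (X : Matrix (Fin 2) (Fin 2) E) (i j : Fin 2) : h4col X j i = X i j := rfl

theorem h4_mulVec_col (A B : Matrix (Fin 2) (Fin 2) E) (j : Fin 2) :
    A.mulVec (h4col B j) = h4col (A * B) j := by
  funext i
  simp [h4col, Matrix.mulVec, Matrix.mul_apply, dotProduct]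

/-- The lattice: the `O`-span of the columns of all `r γ`. -/
def h4L (r : G →* Matrix (Fin 2) (Fin 2) E) : Submodule O (Fin 2 → E) :=
  Submodule.span O (Set.range fun x : G × Fin 2 => h4col (r x.1) x.2)

/-- The `O`-linear action of `g` on `E²`. -/
def h4act (r : G →* Matrix (Fin 2) (Fin 2) E) (g : G) : (Fin 2 → E) →ₗ[O] (Fin 2 → E) :=
  (Matrix.mulVecLin (r g)).restrictScalars O

theorem h4act_apply (r : G →* Matrix (Fin 2) (Fin 2) E) (g : G) (v : Fin 2 → E) :
    h4act O r g v = (r g).mulVec v := rfl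

theorem h4act_col (r : G →* Matrix (Fin 2) (Fin 2) E) (g γ : G) (j : Fin 2) :
    h4act O r g (h4col (r γ) j) = h4col (r (g * γ)) j := by
  rw [h4act_apply, h4_mulVec_col, map_mul]

theorem h4L_stable (r : G →* Matrix (Fin 2) (Fin 2) E) (g : G) :
    ∀ v ∈ h4L O r, h4act O r g v ∈ h4L O r := by
  intro v hv
  induction hv using Submodule.span_induction with
  | mem v hv =>
    obtain ⟨⟨γ, j⟩, rfl⟩ := hv
    rw [h4act_col]
    exact Submodule.subset_span ⟨(g * γ, j), rfl⟩
  | zero => rw [map_zero]; exact Submodule.zero_mem _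
  | add x y _ _ hx hy => rw [map_add]; exact Submodule.add_mem _ hx hy
  | smul c x _ hx => rw [map_smul]; exact Submodule.smul_mem _ _ hx

/-- The action of `G` on the lattice. -/
def h4rho (r : G →* Matrix (Fin 2) (Fin 2) E) : G →* Module.End O (h4L O r) where
  toFun g := (h4act O r g).restrict (h4L_stable O r g)
  map_one' := by
    ext v
    simp [h4act_apply]
  map_mul' g h := by
    refine LinearMap.ext fun v => Subtype.ext ?_
    change (r (g * h)).mulVec (v : Fin 2 → E) = (r g).mulVec ((r h).mulVec (v : Fin 2 → E))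
    rw [Matrix.mulVec_mulVec, map_mul]

theorem coe_h4rho (r : G →* Matrix (Fin 2) (Fin 2) E) (g : G) (v : h4L O r) :
    ((h4rho O r g v : h4L O r) : Fin 2 → E) = (r g).mulVec (v : Fin 2 → E) := rfl

theorem h4rho_eq_one (r : G →* Matrix (Fin 2) (Fin 2) E) (g : G) (hg : r g = 1) :
    h4rho O r g = 1 := by
  ext v
  rw [coe_h4rho, hg]
  simp

/-- The integral vectors. -/
def h4int : (Fin 2 → O) →ₗ[O] (Fin 2 → E) := (Algebra.linearMap O E).compLeft (Fin 2)

theorem h4int_apply (z : Fin 2 → O) (i : Fin 2) : h4int O (E := E) z i = algebraMap O E (z i) :=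
  rfl

theorem h4int_injective : Function.Injective (h4int O (E := E)) := by
  intro z z' h
  funext i
  have := congrFun h i
  rw [h4int_apply, h4int_apply] at this
  exact IsFractionRing.injective O E this

theorem h4int_mem (r : G →* Matrix (Fin 2) (Fin 2) E) (z : Fin 2 → O) :
    h4int O z ∈ h4L O r := by
  have h : h4int O (E := E) z = ∑ j, z j • h4col (r 1) j := by
    funext i
    rw [h4int_apply, Finset.sum_apply]
    simp only [Pi.smul_apply, h4col_apply, map_one, Matrix.one_apply, Algebra.smul_def]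
    simp
  rw [h]
  exact Submodule.sum_mem _ fun j _ =>
    Submodule.smul_mem _ _ (Submodule.subset_span ⟨(1, j), rfl⟩)

end lattice

section main

variable {G : Type} [Group G] (O : Type) [CommRing O] [IsDomain O] [IsDiscreteValuationRing O]
  {E : Type} [Field E] [Algebra O E] [IsFractionRing O E]
  (r : G →* Matrix (Fin 2) (Fin 2) E)

/-- Bounded denominators on the lattice. -/
theorem h4_exists_smul_mem (hspan : Submodule.span E (Set.range r) = ⊤) (a : G → O)
    (htr : ∀ g, (r g).trace = algebraMap O E (a g)) :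
    ∃ s : O, s ≠ 0 ∧ ∀ v ∈ h4L O r, ∃ z : Fin 2 → O, s • v = h4int O z := by
  obtain ⟨s, hs, H⟩ := h4_exists_denominator (O := O) r hspan
  refine ⟨s, hs, fun v hv => ?_⟩
  induction hv using Submodule.span_induction with
  | mem v hv =>
    obtain ⟨⟨γ, j⟩, rfl⟩ := hv
    have h1 := H ⊤ (r γ) (fun g => ⟨a (γ * g), Submodule.mem_top, by rw [← map_mul, htr]⟩)
    choose z _ hz using fun i => h1 i j
    refine ⟨z, ?_⟩
    funext i
    change s • (r γ i j) = algebraMap O E (z i)
    rw [Algebra.smul_def, hz i]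
  | zero => exact ⟨0, by rw [smul_zero, map_zero]⟩
  | add x y _ _ hx hy =>
    obtain ⟨zx, hzx⟩ := hx
    obtain ⟨zy, hzy⟩ := hy
    exact ⟨zx + zy, by rw [smul_add, hzx, hzy, map_add]⟩
  | smul c x _ hx =>
    obtain ⟨zx, hzx⟩ := hx
    exact ⟨c • zx, by rw [smul_comm, hzx, map_smul]⟩

/-- The lattice is finitely generated. -/
theorem h4L_finite (hspan : Submodule.span E (Set.range r) = ⊤) (a : G → O)
    (htr : ∀ g, (r g).trace = algebraMap O E (a g)) : Module.Finite O (h4L O r) := by
  obtain ⟨s, hs, H⟩ := h4_exists_smul_mem O r hspan a htr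
  haveI : IsNoetherian O (LinearMap.range (h4int O (E := E))) :=
    isNoetherian_of_linearEquiv (LinearEquiv.ofInjective (h4int O (E := E)) (h4int_injective O))
  let f : h4L O r →ₗ[O] LinearMap.range (h4int O (E := E)) :=
    LinearMap.codRestrict _ (s • (h4L O r).subtype) (fun v => by
      obtain ⟨z, hz⟩ := H v v.2
      exact ⟨z, hz.symm⟩)
  refine Module.Finite.of_injective f ?_
  intro v v' h
  have h1 : s • (v : Fin 2 → E) = s • (v' : Fin 2 → E) := congrArg Subtype.val h
  exact Subtype.ext (smul_right_injective _ hs h1)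

/-- An `O`-basis of the lattice is an `E`-basis of `E²`. -/
theorem h4_exists_basis (hfin : Module.Finite O (h4L O r)) :
    ∃ (ι : Type) (_ : Fintype ι) (b : Module.Basis ι O (h4L O r))
      (bE : Module.Basis ι E (Fin 2 → E)), ∀ i, bE i = (b i : Fin 2 → E) := by
  haveI := hfin
  haveI : Module.Free O (h4L O r) := inferInstance
  let b := Module.Free.chooseBasis O (h4L O r)
  have hliO : LinearIndependent O (fun i => ((b i : h4L O r) : Fin 2 → E)) :=
    b.linearIndependent.map' (h4L O r).subtype (Submodule.ker_subtype _)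
  have hliE : LinearIndependent E (fun i => ((b i : h4L O r) : Fin 2 → E)) :=
    (LinearIndependent.iff_fractionRing O E).mp hliO
  have hL : ∀ l : h4L O r,
      (l : Fin 2 → E) ∈ Submodule.span E (Set.range fun i => ((b i : h4L O r) : Fin 2 → E)) := by
    intro l
    have h1 : (l : Fin 2 → E) = ∑ i, algebraMap O E (b.repr l i) • ((b i : h4L O r) : Fin 2 → E) := by
      conv_lhs => rw [← b.sum_repr l]
      rw [AddSubmonoidClass.coe_finsetSum]
      refine Finset.sum_congr rfl fun i _ => ?_
      rw [Submodule.coe_smul, algebraMap_smul]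
    rw [h1]
    exact Submodule.sum_mem _ fun i _ =>
      Submodule.smul_mem _ _ (Submodule.subset_span ⟨i, rfl⟩)
  have hsp : ⊤ ≤ Submodule.span E (Set.range fun i => ((b i : h4L O r) : Fin 2 → E)) := by
    intro w _
    have h1 : w = ∑ j, w j • h4int O (E := E) (Pi.single j 1) := by
      funext i
      rw [Finset.sum_apply]
      simp only [Pi.smul_apply, h4int_apply, smul_eq_mul]
      rw [Finset.sum_eq_single i]
      · simp
      · intro j _ hj
        rw [Pi.single_apply, if_neg (Ne.symm hj), map_zero, mul_zero]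
      · intro h; exact absurd (Finset.mem_univ i) h
    rw [h1]
    exact Submodule.sum_mem _ fun j _ =>
      Submodule.smul_mem _ _ (hL ⟨_, h4int_mem O r _⟩)
  exact ⟨_, inferInstance, b, Module.Basis.mk hliE hsp, fun i => by rw [Module.Basis.mk_apply]⟩

/-- The lattice has rank `2`. -/
theorem h4L_finrank (hfin : Module.Finite O (h4L O r)) : Module.finrank O (h4L O r) = 2 := by
  obtain ⟨ι, _, b, bE, _⟩ := h4_exists_basis O r hfin
  rw [Module.finrank_eq_card_basis b, ← Module.finrank_eq_card_basis bE, Module.finrank_fin_fun]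

/-- The characteristic polynomials of the action on the lattice. -/
theorem h4rho_charpoly (hfin : Module.Finite O (h4L O r)) (hfree : Module.Free O (h4L O r))
    (a d : G → O) (htr : ∀ g, (r g).trace = algebraMap O E (a g))
    (hdet : ∀ g, (r g).det = algebraMap O E (d g)) (g : G) :
    LinearMap.charpoly (h4rho O r g) = X ^ 2 - C (a g) * X + C (d g) := by
  classical
  obtain ⟨ι, _, b, bE, hb⟩ := h4_exists_basis O r hfin
  have hrepr : ∀ (l : h4L O r) (i : ι),
      bE.repr (l : Fin 2 → E) i = algebraMap O E (b.repr l i) := by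
    intro l i
    have h1 : (l : Fin 2 → E) = ∑ i, algebraMap O E (b.repr l i) • bE i := by
      conv_lhs => rw [← b.sum_repr l]
      rw [AddSubmonoidClass.coe_finsetSum]
      refine Finset.sum_congr rfl fun i _ => ?_
      rw [Submodule.coe_smul, algebraMap_smul, hb]
    rw [h1, bE.repr_sum_self]
  have hmat : (LinearMap.toMatrix b b (h4rho O r g)).map (algebraMap O E) =
      LinearMap.toMatrix bE bE (Matrix.mulVecLin (r g)) := by
    ext i j
    rw [Matrix.map_apply, LinearMap.toMatrix_apply, LinearMap.toMatrix_apply, ← hrepr,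
      coe_h4rho, hb]
    rfl
  have h1 : (LinearMap.charpoly (h4rho O r g)).map (algebraMap O E) = (r g).charpoly := by
    rw [← LinearMap.charpoly_toMatrix (h4rho O r g) b, ← Matrix.charpoly_map, hmat,
      LinearMap.charpoly_toMatrix, Matrix.charpoly_mulVecLin]
  apply Polynomial.map_injective (algebraMap O E) (IsFractionRing.injective O E)
  rw [h1, Matrix.charpoly_fin_two, htr, hdet]
  simp only [Polynomial.map_add, Polynomial.map_sub, Polynomial.map_mul, Polynomial.map_pow,
    Polynomial.map_X, Polynomial.map_C]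

/-- Adic continuity of the action on the lattice from the continuity of the trace function. -/
theorem h4rho_continuous (hspan : Submodule.span E (Set.range r) = ⊤) (a : G → O)
    (htr : ∀ g, (r g).trace = algebraMap O E (a g)) (P : Set G → Prop)
    (hcont : ∀ n : ℕ, ∃ U : Set G, P U ∧ ∀ σ ∈ U, ∀ g : G,
      a (σ * g) - a g ∈ IsLocalRing.maximalIdeal O ^ n) :
    ∀ n : ℕ, ∃ U : Set G, P U ∧ ∀ σ ∈ U, ∀ v : h4L O r,
      h4rho O r σ v - v ∈ (IsLocalRing.maximalIdeal O ^ n) • (⊤ : Submodule O (h4L O r)) := by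
  obtain ⟨s, hs, H⟩ := h4_exists_denominator (O := O) r hspan
  obtain ⟨π, hπ⟩ := IsDiscreteValuationRing.exists_irreducible O
  obtain ⟨c, u, hu⟩ := IsDiscreteValuationRing.associated_pow_irreducible hs hπ
  have hs' : algebraMap O E s ≠ 0 := by
    intro h
    exact hs (IsFractionRing.injective O E (by rw [h, map_zero]))
  intro n
  obtain ⟨U, hPU, hU⟩ := hcont (n + c)
  refine ⟨U, hPU, fun σ hσ v => ?_⟩
  have hgen : ∀ (γ : G) (j : Fin 2), ∃ z : Fin 2 → O,
      h4col (r (σ * γ)) j - h4col (r γ) j = (π ^ n) • h4int O z := by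
    intro γ j
    have h1 := H (IsLocalRing.maximalIdeal O ^ (n + c)) (r (σ * γ) - r γ)
      (fun g => ⟨a (σ * (γ * g)) - a (γ * g), hU σ hσ (γ * g), by
        rw [Matrix.sub_mul, Matrix.trace_sub, ← map_mul, ← map_mul, htr, htr, map_sub,
          mul_assoc]⟩)
    have h2 : ∀ i, ∃ t : O, (r (σ * γ) - r γ) i j = algebraMap O E (π ^ n * t) := by
      intro i
      obtain ⟨o, ho, hoX⟩ := h1 i j
      rw [hπ.maximalIdeal_eq, Ideal.span_singleton_pow, Ideal.mem_span_singleton] at ho
      obtain ⟨t, rfl⟩ := ho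
      refine ⟨↑u * t, ?_⟩
      apply mul_left_cancel₀ hs'
      rw [hoX, ← map_mul]
      congr 1
      rw [pow_add, ← hu]
      ring
    choose z hz using h2
    refine ⟨z, ?_⟩
    funext i
    change (r (σ * γ)) i j - (r γ) i j = (π ^ n) • algebraMap O E (z i)
    rw [← Matrix.sub_apply, hz i, Algebra.smul_def, map_mul]
  have hv : ∀ w ∈ h4L O r, ∃ z : Fin 2 → O, h4act O r σ w - w = (π ^ n) • h4int O z := by
    intro w hw
    induction hw using Submodule.span_induction with
    | mem w hw =>
      obtain ⟨⟨γ, j⟩, rfl⟩ := hw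
      obtain ⟨z, hz⟩ := hgen γ j
      exact ⟨z, by rw [← hz]; exact congrArg (· - h4col (r γ) j) (h4act_col O r σ γ j)⟩
    | zero => exact ⟨0, by rw [map_zero, map_zero, sub_zero, smul_zero]⟩
    | add x y _ _ hx hy =>
      obtain ⟨zx, hzx⟩ := hx
      obtain ⟨zy, hzy⟩ := hy
      exact ⟨zx + zy, by rw [map_add, map_add, smul_add, ← hzx, ← hzy]; abel⟩
    | smul c x _ hx =>
      obtain ⟨zx, hzx⟩ := hx
      exact ⟨c • zx, by rw [map_smul, map_smul, ← smul_sub, hzx, smul_comm]⟩
  obtain ⟨z, hz⟩ := hv v v.2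
  have h3 : h4rho O r σ v - v = (π ^ n) • (⟨h4int O z, h4int_mem O r z⟩ : h4L O r) :=
    Subtype.ext hz
  rw [h3]
  refine Submodule.smul_mem_smul (Ideal.pow_mem_pow ?_ n) Submodule.mem_top
  rw [hπ.maximalIdeal_eq]
  exact Ideal.mem_span_singleton_self π

/-- **Lattice + continuity, matrix form.** -/
theorem h4_lattice_mat (hspan : Submodule.span E (Set.range r) = ⊤) (a d : G → O)
    (htr : ∀ g, (r g).trace = algebraMap O E (a g))
    (hdet : ∀ g, (r g).det = algebraMap O E (d g)) (P : Set G → Prop)
    (hcont : ∀ n : ℕ, ∃ U : Set G, P U ∧ ∀ σ ∈ U, ∀ g : G,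
      a (σ * g) - a g ∈ IsLocalRing.maximalIdeal O ^ n) :
    ∃ (V : Type) (_ : AddCommGroup V) (_ : Module O V) (_ : Module.Free O V)
      (_ : Module.Finite O V) (ρ' : G →* Module.End O V),
      Module.finrank O V = 2 ∧
      (∀ g : G, LinearMap.charpoly (ρ' g) = X ^ 2 - C (a g) * X + C (d g)) ∧
      (∀ g : G, r g = 1 → ρ' g = 1) ∧
      (∀ n : ℕ, ∃ U : Set G, P U ∧ ∀ σ ∈ U, ∀ v : V,
        ρ' σ v - v ∈ (IsLocalRing.maximalIdeal O ^ n) • (⊤ : Submodule O V)) := by
  have hfin : Module.Finite O (h4L O r) := h4L_finite O r hspan a htr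
  have hfree : Module.Free O (h4L O r) := inferInstance
  exact ⟨h4L O r, inferInstance, inferInstance, hfree, hfin, h4rho O r,
    h4L_finrank O r hfin, h4rho_charpoly O r hfin hfree a d htr hdet,
    h4rho_eq_one O r, h4rho_continuous O r hspan a htr P hcont⟩

/-- **Lattice + continuity** for a representation on a `2`-dimensional `E`-vector space whose
image spans the endomorphism ring. -/
theorem h4_lattice {W : Type} [AddCommGroup W] [Module E W] [Module.Finite E W]
    (hW : Module.finrank E W = 2)
    (ρ : G →* Module.End E W) (hspan : Submodule.span E (Set.range ρ) = ⊤) (a d : G → O)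
    (hchar : ∀ g, LinearMap.charpoly (ρ g) =
      X ^ 2 - C (algebraMap O E (a g)) * X + C (algebraMap O E (d g)))
    (P : Set G → Prop)
    (hcont : ∀ n : ℕ, ∃ U : Set G, P U ∧ ∀ σ ∈ U, ∀ g : G,
      a (σ * g) - a g ∈ IsLocalRing.maximalIdeal O ^ n) :
    ∃ (V : Type) (_ : AddCommGroup V) (_ : Module O V) (_ : Module.Free O V)
      (_ : Module.Finite O V) (ρ' : G →* Module.End O V),
      Module.finrank O V = 2 ∧
      (∀ g : G, LinearMap.charpoly (ρ' g) = X ^ 2 - C (a g) * X + C (d g)) ∧
      (∀ g : G, ρ g = 1 → ρ' g = 1) ∧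
      (∀ n : ℕ, ∃ U : Set G, P U ∧ ∀ σ ∈ U, ∀ v : V,
        ρ' σ v - v ∈ (IsLocalRing.maximalIdeal O ^ n) • (⊤ : Submodule O V)) := by
  classical
  let bW : Module.Basis (Fin 2) E W := Module.finBasisOfFinrankEq E W hW
  let e : Module.End E W ≃ₐ[E] Matrix (Fin 2) (Fin 2) E := LinearMap.toMatrixAlgEquiv bW
  let r : G →* Matrix (Fin 2) (Fin 2) E := (e : Module.End E W →* Matrix (Fin 2) (Fin 2) E).comp ρ
  have hr : ∀ g, r g = LinearMap.toMatrix bW bW (ρ g) := fun g => rfl
  have hspan' : Submodule.span E (Set.range r) = ⊤ := by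
    have h1 : Set.range r = (e.toLinearEquiv.toLinearMap) '' Set.range ρ := by
      ext X
      constructor
      · rintro ⟨g, rfl⟩
        exact ⟨ρ g, ⟨g, rfl⟩, rfl⟩
      · rintro ⟨_, ⟨g, rfl⟩, rfl⟩
        exact ⟨g, rfl⟩
    rw [h1, Submodule.span_image, hspan, Submodule.map_top, LinearMap.range_eq_top]
    exact e.toLinearEquiv.surjective
  have hcp : ∀ g, (r g).charpoly =
      X ^ 2 - C (algebraMap O E (a g)) * X + C (algebraMap O E (d g)) := by
    intro g
    rw [hr, LinearMap.charpoly_toMatrix, hchar]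
  have htr : ∀ g, (r g).trace = algebraMap O E (a g) := by
    intro g
    have h := congrArg (fun q : E[X] => q.coeff 1) ((Matrix.charpoly_fin_two (r g)).symm.trans (hcp g))
    simp only [coeff_add, coeff_sub, coeff_X_pow, coeff_C_mul, coeff_X_one, coeff_C] at h
    norm_num at h
    exact h
  have hdet : ∀ g, (r g).det = algebraMap O E (d g) := by
    intro g
    have h := congrArg (fun q : E[X] => q.coeff 0) ((Matrix.charpoly_fin_two (r g)).symm.trans (hcp g))
    simp only [coeff_add, coeff_sub, coeff_X_pow, coeff_C_mul, coeff_X_zero, coeff_C_zero] at h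
    norm_num at h
    exact h
  obtain ⟨V, i1, i2, i3, i4, ρ', h1, h2, h3, h4⟩ := h4_lattice_mat O r hspan' a d htr hdet P hcont
  refine ⟨V, i1, i2, i3, i4, ρ', h1, h2, fun g hg => h3 g ?_, h4⟩
  rw [hr, hg]
  exact map_one e

end main

end Fermat.Agent.S30x.Lin.H4
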