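import Mathlib

/-!
# W8 (S30), (LA) = `lin_adic`: the simple quotient (helper4)

`O` a domain with fraction field `E`, `Y` an `O`-module with an action of `G`, `x : Y` not
`O`-torsion.  The `E`-span of the orbit of `1 ⊗ x` in `E ⊗[O] Y` has a simple quotient `W`
(Zorn), and every `O[G]`-relation which holds on the orbit of `x` holds on `W`.  Mathlib only.
-/

set_option autoImplicit false
set_option linter.unusedSectionVars false
set_option linter.style.haveILetI false
set_option linter.unusedSimpArgs false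

open TensorProduct

namespace Fermat.Agent.S30x.Lin.H4

section zorn

variable {G : Type} [Group G] {E : Type} [Field E] {M : Type} [AddCommGroup M] [Module E M]

/-- `G`-stable subspaces. -/
def H4Stable (ρ : G →* Module.End E M) (N : Submodule E M) : Prop :=
  ∀ g : G, ∀ y ∈ N, ρ g y ∈ N

/-- A maximal stable subspace not containing a given non-zero vector. -/
theorem h4_exists_maximal (ρ : G →* Module.End E M) (x₁ : M) (hx₁ : x₁ ≠ 0) :
    ∃ N : Submodule E M, H4Stable ρ N ∧ x₁ ∉ N ∧
      ∀ N' : Submodule E M, H4Stable ρ N' → N ≤ N' → x₁ ∉ N' → N' = N := by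
  have key := zorn_le_nonempty₀ {N : Submodule E M | H4Stable ρ N ∧ x₁ ∉ N} ?_ ⊥ ⟨?_, ?_⟩
  · obtain ⟨N, -, hN⟩ := key
    refine ⟨N, hN.prop.1, hN.prop.2, fun N' h1 h2 h3 => ?_⟩
    exact le_antisymm (hN.le_of_ge ⟨h1, h3⟩ h2) h2
  · intro c hc hchain y hy
    refine ⟨sSup c, ⟨?_, ?_⟩, fun z hz => le_sSup hz⟩
    · intro g m hm
      rw [Submodule.mem_sSup_of_directed ⟨y, hy⟩ hchain.directedOn] at hm ⊢
      obtain ⟨N, hN, hmN⟩ := hm
      exact ⟨N, hN, (hc hN).1 g m hmN⟩
    · intro hm
      rw [Submodule.mem_sSup_of_directed ⟨y, hy⟩ hchain.directedOn] at hm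
      obtain ⟨N, hN, hmN⟩ := hm
      exact (hc hN).2 hmN
  · intro g m hm
    rw [Submodule.mem_bot] at hm ⊢
    rw [hm, map_zero]
  · rw [Submodule.mem_bot]
    exact hx₁

/-- A cyclic module has a simple quotient. -/
theorem h4_simple_of_cyclic (ρ : G →* Module.End E M) (x₁ : M) (hx₁ : x₁ ≠ 0)
    (hcyc : Submodule.span E (Set.range fun h => ρ h x₁) = ⊤) :
    ∃ (W : Type) (_ : AddCommGroup W) (_ : Module E W) (ρW : G →* Module.End E W)
      (q : M →ₗ[E] W),
      Function.Surjective q ∧ (∀ g m, q (ρ g m) = ρW g (q m)) ∧ q x₁ ≠ 0 ∧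
      (∀ L : Submodule E W, (∀ g, ∀ y ∈ L, ρW g y ∈ L) → L = ⊥ ∨ L = ⊤) := by
  obtain ⟨N, hN, hxN, hmax⟩ := h4_exists_maximal ρ x₁ hx₁
  let ρW : G →* Module.End E (M ⧸ N) :=
    { toFun := fun g => N.mapQ N (ρ g) (fun y hy => hN g y hy)
      map_one' := by
        refine LinearMap.ext fun w => ?_
        obtain ⟨m, rfl⟩ := N.mkQ_surjective w
        simp
      map_mul' := fun g h => by
        refine LinearMap.ext fun w => ?_
        obtain ⟨m, rfl⟩ := N.mkQ_surjective w
        simp }
  have hρW : ∀ g m, N.mkQ (ρ g m) = ρW g (N.mkQ m) := fun g m => rfl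
  refine ⟨M ⧸ N, inferInstance, inferInstance, ρW, N.mkQ, N.mkQ_surjective, hρW, ?_, ?_⟩
  · rw [Submodule.mkQ_apply, Ne, Submodule.Quotient.mk_eq_zero]
    exact hxN
  · intro L hL
    have hstab : H4Stable ρ (L.comap N.mkQ) := by
      intro g m hm
      rw [Submodule.mem_comap] at hm ⊢
      rw [hρW]
      exact hL g _ hm
    have hle : N ≤ L.comap N.mkQ := by
      intro m hm
      rw [Submodule.mem_comap, Submodule.mkQ_apply, (Submodule.Quotient.mk_eq_zero N).mpr hm]
      exact L.zero_mem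
    by_cases hx : x₁ ∈ L.comap N.mkQ
    · right
      have htop : L.comap N.mkQ = ⊤ := by
        rw [eq_top_iff, ← hcyc, Submodule.span_le]
        rintro _ ⟨h, rfl⟩
        exact hstab h _ hx
      rw [eq_top_iff]
      intro w _
      obtain ⟨m, rfl⟩ := N.mkQ_surjective w
      have hm : m ∈ L.comap N.mkQ := by rw [htop]; exact Submodule.mem_top
      exact hm
    · left
      have h1 : L.comap N.mkQ = N := hmax _ hstab hle hx
      rw [eq_bot_iff]
      intro w hw
      obtain ⟨m, rfl⟩ := N.mkQ_surjective w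
      have hm : m ∈ L.comap N.mkQ := hw
      rw [h1] at hm
      rw [Submodule.mem_bot, Submodule.mkQ_apply]
      exact (Submodule.Quotient.mk_eq_zero N).mpr hm

end zorn

section main

variable {G : Type} [Group G] (O : Type) [CommRing O] [IsDomain O]
  (E : Type) [Field E] [Algebra O E] [IsFractionRing O E]
  {Y : Type} [AddCommGroup Y] [Module O Y]

/-- **The simple quotient, with transfer of relations.** -/
theorem h4_simple_quotient (ρ : G →* Module.End O Y) (x : Y) (hx : ∀ s : O, s • x = 0 → s = 0) :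
    ∃ (W : Type) (_ : AddCommGroup W) (_ : Module E W) (ρW : G →* Module.End E W) (w₀ : W),
      w₀ ≠ 0 ∧ Submodule.span E (Set.range fun h => ρW h w₀) = ⊤ ∧
      (∀ L : Submodule E W, (∀ g, ∀ y ∈ L, ρW g y ∈ L) → L = ⊥ ∨ L = ⊤) ∧
      (∀ (n : ℕ) (gs : Fin n → G) (os : Fin n → O),
        (∀ h, ∑ i, os i • ρ (gs i) (ρ h x) = 0) →
        ∀ w : W, ∑ i, algebraMap O E (os i) • ρW (gs i) w = 0) := by
  classical
  let ρ₀ : G →* Module.End E (E ⊗[O] Y) :=
    (MonoidHomClass.toMonoidHom (Module.End.baseChangeHom O E Y)).comp ρ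
  have hρ₀ : ∀ g (e : E) (y : Y), ρ₀ g (e ⊗ₜ[O] y) = e ⊗ₜ[O] ρ g y := fun _ _ _ => rfl
  have hx₀ : (1 : E) ⊗ₜ[O] x ≠ 0 := by
    intro h
    have hloc : IsLocalizedModule (nonZeroDivisors O) (TensorProduct.mk O E Y 1) :=
      (isLocalizedModule_iff_isBaseChange (nonZeroDivisors O) E _).mpr
        (TensorProduct.isBaseChange O Y E)
    obtain ⟨s, hs⟩ :=
      (IsLocalizedModule.eq_zero_iff (nonZeroDivisors O) (TensorProduct.mk O E Y 1)).mp h
    exact nonZeroDivisors.coe_ne_zero s (hx _ hs)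
  let N₀ : Submodule E (E ⊗[O] Y) :=
    Submodule.span E (Set.range fun h => ρ₀ h ((1 : E) ⊗ₜ[O] x))
  have hN₀ : ∀ g, ∀ y ∈ N₀, ρ₀ g y ∈ N₀ := by
    intro g y hy
    induction hy using Submodule.span_induction with
    | mem y hy =>
      obtain ⟨h, rfl⟩ := hy
      refine Submodule.subset_span ⟨g * h, ?_⟩
      change ρ₀ (g * h) _ = ρ₀ g (ρ₀ h _)
      rw [map_mul]
      rfl
    | zero => rw [map_zero]; exact Submodule.zero_mem _
    | add a b _ _ ha hb => rw [map_add]; exact Submodule.add_mem _ ha hb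
    | smul c a _ ha => rw [map_smul]; exact Submodule.smul_mem _ _ ha
  let ρM : G →* Module.End E N₀ :=
    { toFun := fun g => (ρ₀ g).restrict (hN₀ g)
      map_one' := by
        refine LinearMap.ext fun m => Subtype.ext ?_
        change ρ₀ 1 (m : E ⊗[O] Y) = m
        rw [map_one]
        rfl
      map_mul' := fun g h => by
        refine LinearMap.ext fun m => Subtype.ext ?_
        change ρ₀ (g * h) (m : E ⊗[O] Y) = ρ₀ g (ρ₀ h m)
        rw [map_mul]
        rfl }
  have hρM : ∀ g (m : N₀), ((ρM g m : N₀) : E ⊗[O] Y) = ρ₀ g m := fun _ _ => rfl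
  let x₁ : N₀ := ⟨(1 : E) ⊗ₜ[O] x, Submodule.subset_span ⟨1, by
    change ρ₀ 1 _ = _
    rw [map_one]
    rfl⟩⟩
  have hx₁ : x₁ ≠ 0 := fun h => hx₀ (congrArg Subtype.val h)
  have hcyc : Submodule.span E (Set.range fun h => ρM h x₁) = ⊤ := by
    rw [eq_top_iff]
    rintro ⟨m, hm⟩ -
    have : ∀ m (hm : m ∈ N₀), (⟨m, hm⟩ : N₀) ∈ Submodule.span E (Set.range fun h => ρM h x₁) := by
      intro m hm
      induction hm using Submodule.span_induction with
      | mem y hy =>
        obtain ⟨h, rfl⟩ := hy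
        exact Submodule.subset_span ⟨h, Subtype.ext rfl⟩
      | zero => exact Submodule.zero_mem _
      | add a b ha hb ha' hb' =>
        have := Submodule.add_mem _ ha' hb'
        exact this
      | smul c a ha ha' =>
        have := Submodule.smul_mem _ c ha'
        exact this
    exact this m hm
  obtain ⟨W, i1, i2, ρW, q, hq, hqρ, hqx, hsimple⟩ := h4_simple_of_cyclic ρM x₁ hx₁ hcyc
  refine ⟨W, i1, i2, ρW, q x₁, hqx, ?_, hsimple, ?_⟩
  · have key : ∀ m ∈ Submodule.span E (Set.range fun h => ρM h x₁),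
        q m ∈ Submodule.span E (Set.range fun h => ρW h (q x₁)) := by
      intro m hm
      induction hm using Submodule.span_induction with
      | mem y hy =>
        obtain ⟨h, rfl⟩ := hy
        refine Submodule.subset_span ⟨h, ?_⟩
        exact (hqρ h x₁).symm
      | zero => rw [map_zero]; exact Submodule.zero_mem _
      | add a b _ _ ha hb => rw [map_add]; exact Submodule.add_mem _ ha hb
      | smul c a _ ha => rw [map_smul]; exact Submodule.smul_mem _ _ ha
    rw [eq_top_iff]
    intro w _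
    obtain ⟨m, rfl⟩ := hq w
    exact key m (by rw [hcyc]; exact Submodule.mem_top)
  · intro n gs os hrel w
    obtain ⟨m, rfl⟩ := hq w
    -- the operator vanishes on `N₀`
    have hT : ∀ m ∈ N₀, ∑ i, algebraMap O E (os i) • ρ₀ (gs i) m = 0 := by
      intro m hm
      induction hm using Submodule.span_induction with
      | mem y hy =>
        obtain ⟨h, rfl⟩ := hy
        have h1 : ∀ i, algebraMap O E (os i) • ρ₀ (gs i) (ρ₀ h ((1 : E) ⊗ₜ[O] x)) =
            (1 : E) ⊗ₜ[O] (os i • ρ (gs i) (ρ h x)) := by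
          intro i
          rw [hρ₀, hρ₀, TensorProduct.smul_tmul', TensorProduct.tmul_smul,
            ← TensorProduct.smul_tmul', algebraMap_smul]
        simp only [h1]
        rw [← TensorProduct.tmul_sum, hrel h, TensorProduct.tmul_zero]
      | zero => simp
      | add a b _ _ ha hb =>
        simp only [map_add, smul_add, Finset.sum_add_distrib, ha, hb, add_zero]
      | smul c a _ ha =>
        simp only [map_smul]
        simp_rw [smul_comm _ c]
        rw [← Finset.smul_sum, ha, smul_zero]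
    have h2 : ∑ i, algebraMap O E (os i) • ρW (gs i) (q m) =
        q (∑ i, algebraMap O E (os i) • ρM (gs i) m) := by
      rw [map_sum]
      refine Finset.sum_congr rfl fun i _ => ?_
      rw [map_smul, hqρ]
    rw [h2]
    have h3 : (∑ i, algebraMap O E (os i) • ρM (gs i) m : N₀) = 0 := by
      apply Subtype.ext
      rw [AddSubmonoidClass.coe_finsetSum]
      simp only [Submodule.coe_smul, hρM]
      exact hT m m.2
    rw [h3, map_zero]

/-- **The simple quotient**, with the relation (E1) and the kernel clause transferred. -/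
theorem h4_simple_quotient' (ρ : G →* Module.End O Y) (x : Y)
    (hx : ∀ s : O, s • x = 0 → s = 0) :
    ∃ (W : Type) (_ : AddCommGroup W) (_ : Module E W) (ρW : G →* Module.End E W) (w₀ : W),
      w₀ ≠ 0 ∧ Submodule.span E (Set.range fun h => ρW h w₀) = ⊤ ∧
      (∀ L : Submodule E W, (∀ g, ∀ y ∈ L, ρW g y ∈ L) → L = ⊥ ∨ L = ⊤) ∧
      (∀ (n : ℕ) (gs : Fin n → G) (os : Fin n → O),
        (∀ h, ∑ i, os i • ρ (gs i) (ρ h x) = 0) →
        ∀ w : W, ∑ i, algebraMap O E (os i) • ρW (gs i) w = 0) ∧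
      (∀ (g : G) (δ α : O), (∀ h, ρ g (ρ h x) + δ • ρ g⁻¹ (ρ h x) = α • ρ h x) →
        ∀ w : W, ρW g w + algebraMap O E δ • ρW g⁻¹ w = algebraMap O E α • w) ∧
      (∀ g : G, (∀ h, ρ g (ρ h x) = ρ h x) → ρW g = 1) := by
  obtain ⟨W, i1, i2, ρW, w₀, h1, h2, h3, h4⟩ := h4_simple_quotient O E ρ x hx
  refine ⟨W, i1, i2, ρW, w₀, h1, h2, h3, h4, ?_, ?_⟩
  · intro g δ α hrel w
    have h5 := h4 3 ![g, g⁻¹, 1] ![1, δ, -α] (fun h => by
      rw [Fin.sum_univ_three]
      simp only [Matrix.cons_val_zero, Matrix.cons_val_one, Matrix.cons_val_two,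
        Matrix.tail_cons, Matrix.head_cons, map_one, one_smul, neg_smul]
      rw [hrel h]
      simp) w
    rw [Fin.sum_univ_three] at h5
    simp only [Matrix.cons_val_zero, Matrix.cons_val_one, Matrix.cons_val_two,
      Matrix.tail_cons, Matrix.head_cons, map_one, one_smul, map_neg, neg_smul] at h5
    have h6 : ρW 1 w = w := by rw [map_one]; rfl
    have h7 : ρW g w + algebraMap O E δ • ρW g⁻¹ w - algebraMap O E α • w = 0 := by
      rw [← h5, sub_eq_add_neg]
      simp [h6]
    exact sub_eq_zero.mp h7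
  · intro g hg
    refine LinearMap.ext fun w => ?_
    have h5 := h4 2 ![g, 1] ![1, -1] (fun h => by
      rw [Fin.sum_univ_two]
      simp only [Matrix.cons_val_zero, Matrix.cons_val_one, Matrix.head_cons, map_one, one_smul,
        neg_smul]
      rw [hg h]
      simp) w
    rw [Fin.sum_univ_two] at h5
    simp only [Matrix.cons_val_zero, Matrix.cons_val_one, Matrix.head_cons, map_one, one_smul,
      map_neg, neg_smul] at h5
    have h6 : ρW g w - w = 0 := by
      rw [← h5, sub_eq_add_neg]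
      simp
    exact sub_eq_zero.mp h6

end main

end Fermat.Agent.S30x.Lin.H4
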