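import Mathlib
import Fermat.Agent.S30x.Lin.H6_Defs
import Fermat.Agent.S30x.Lin.H4_Lattice
import Fermat.Agent.S30x.Lin.H4_DimOne
import Fermat.Agent.S30x.Lin.H4_SimpleQuot
import Fermat.Agent.S30x.Lin.H10_Span

/-!
# W8 (S30), (LA) = `lin_adic`: the assembly (helper4)

`StLinAdicO` from the `E`-level core (dichotomy: a simple `E[G]`-module with the relation
`g + d(g) g⁻¹ = a(g)` and an involution `c` with `d(c) = -1` is a character or is
`2`-dimensional with characteristic polynomials `X² - a X + d` and `ρ c ≠ ± 1`), the simple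
quotient, the span lemma, the lattice and the dimension-one case.
-/

set_option autoImplicit false
set_option linter.unusedSectionVars false
set_option linter.style.haveILetI false

open Polynomial

namespace Fermat.Agent.S30x.Lin.H4

/-- The `E`-level core (dichotomy). -/
def H4Core : Prop :=
  ∀ {G : Type} [Group G] {E : Type} [Field E], (2 : E) ≠ 0 →
    ∀ {W : Type} [AddCommGroup W] [Module E W] (ρ : G →* Module.End E W) (w₀ : W), w₀ ≠ 0 →
    (∀ L : Submodule E W, (∀ g, ∀ y ∈ L, ρ g y ∈ L) → L = ⊥ ∨ L = ⊤) →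
    ∀ (a : G → E) (d : G →* Eˣ), (∀ g w, ρ g w + (d g : E) • ρ g⁻¹ w = a g • w) →
    ∀ c : G, c * c = 1 → d c = -1 →
    (∃ ψ : G →* Eˣ, (∀ g w, ρ g w = (ψ g : E) • w) ∧
      ∀ g, (ψ g : E) + (d g : E) * ((ψ g)⁻¹ : Eˣ) = a g) ∨
    (∃ _ : Module.Finite E W, Module.finrank E W = 2 ∧ (ρ c ≠ 1 ∧ ρ c ≠ -1) ∧
      ∀ g, LinearMap.charpoly (ρ g) = X ^ 2 - C (a g) * X + C (d g : E))

/-- **(LA)** from the `E`-level core. -/
theorem h4_stLinAdicO_of_core (hcore : H4Core) : Fermat.Agent.S30x.Lin.H6.StLinAdicO := by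
  intro G _ O _ _ _ h2 Y _ _ ρ x hx d a c hc hdc hrel P hcont
  have h2E : (2 : FractionRing O) ≠ 0 := by
    intro h
    apply h2
    apply IsFractionRing.injective O (FractionRing O)
    rw [map_ofNat, h, map_zero]
  obtain ⟨W, i1, i2, ρW, w₀, hw₀, -, hsimple, -, hE1, hker⟩ :=
    h4_simple_quotient' O (FractionRing O) ρ x hx
  let dE : G →* (FractionRing O)ˣ := (Units.map (algebraMap O (FractionRing O) : O →* _)).comp d
  have hdE : ∀ g, ((dE g : (FractionRing O)ˣ) : FractionRing O) =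
      algebraMap O (FractionRing O) (d g : O) := fun g => rfl
  have hrelW : ∀ g w, ρW g w + ((dE g : (FractionRing O)ˣ) : FractionRing O) • ρW g⁻¹ w =
      algebraMap O (FractionRing O) (a g) • w := by
    intro g w
    rw [hdE]
    exact hE1 g (d g : O) (a g) (hrel g) w
  have hdcE : dE c = -1 := by
    apply Units.ext
    rw [hdE, hdc, Units.val_neg, Units.val_one, Units.val_neg, Units.val_one, map_neg, map_one]
  rcases hcore h2E ρW w₀ hw₀ hsimple (fun g => algebraMap O (FractionRing O) (a g)) dE hrelW c hc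
      hdcE with ⟨ψ, hψ, hψrel⟩ | ⟨hfin, hrank, hC, hchar⟩
  · -- dimension one
    obtain ⟨V, j1, j2, j3, j4, ρ', h1, h2', h3, h4⟩ :=
      h4_dim_one O ψ a d (fun g => by rw [← hdE]; exact hψrel g) P hcont
    refine ⟨V, j1, j2, j3, j4, ρ', h1, h2', fun g hg hd => h3 g ?_ hd, h4⟩
    have h5 : ρW g w₀ = w₀ := by rw [hker g hg]; rfl
    rw [hψ] at h5
    have h6 : ((ψ g : FractionRing O) - 1) • w₀ = 0 := by rw [sub_smul, h5, one_smul, sub_self]
    rcases smul_eq_zero.mp h6 with h7 | h7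
    · exact Units.ext (sub_eq_zero.mp h7)
    · exact absurd h7 hw₀
  · -- dimension two
    haveI := hfin
    have hspan : Submodule.span (FractionRing O) (Set.range ρW) = ⊤ :=
      Fermat.Agent.S30x.Lin.H10.h10_span_eq_top h2E hrank ρW hsimple c hc hC
    obtain ⟨V, j1, j2, j3, j4, ρ', h1, h2', h3, h4⟩ :=
      h4_lattice O hrank ρW hspan a (fun g => (d g : O)) (fun g => by rw [← hdE]; exact hchar g) P
        (fun n => by
          obtain ⟨U, hPU, hU⟩ := hcont n
          exact ⟨U, hPU, fun σ hσ => (hU σ hσ).2⟩)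
    exact ⟨V, j1, j2, j3, j4, ρ', h1, h2', fun g hg _ => h3 g (hker g hg), h4⟩

end Fermat.Agent.S30x.Lin.H4
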